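import Mathlib
import Fermat.Agent.S24.PlacesCore
import Fermat.Prelude.Def_AlgebraicCurve_Correspondence

set_option autoImplicit false
set_option linter.unusedSectionVars false

open IsDedekindDomain UniqueFactorizationMonoid AlgebraicCurve

namespace Fermat.Agent.S37.FFN

section Count

variable {R S : Type*} [CommRing R] [IsDedekindDomain R] [CommRing S] [IsDedekindDomain S]
  [Algebra R S] [Module.Finite R S] [Module.IsTorsionFree R S] [PerfectField (FractionRing R)]

open Classical in
/-- the exponent of `p` in the relative norm of `I` is the sum of the exponents of the primes above `p`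
(all inertia degrees being one). -/
theorem count_relNorm (hin : ∀ P : Ideal S, P.IsMaximal → P.inertiaDeg R = 1)
    (p : Ideal R) [hp : p.IsMaximal] (hp0 : p ≠ ⊥) (I : Ideal S) (hI : I ≠ 0) :
    (normalizedFactors (Ideal.relNorm R I)).count p =
      ∑ P ∈ IsDedekindDomain.primesOverFinset p S, (normalizedFactors I).count P := by
  induction I using UniqueFactorizationMonoid.induction_on_prime with
  | h₁ => exact absurd rfl hI
  | h₂ x hx =>
    have : x = 1 := by simpa using hx
    subst this
    simp [-Ideal.one_eq_top]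
  | h₃ a P ha hP ih =>
    have hP0 : P ≠ ⊥ := hP.ne_zero
    have hPp : P.IsPrime := Ideal.isPrime_of_prime hP
    have hPm : P.IsMaximal := hPp.isMaximal hP0
    have hum : (P.under R).IsMaximal := Ideal.IsMaximal.under R P
    have hu0 : P.under R ≠ ⊥ := by
      intro h
      have : P.LiesOver (⊥ : Ideal R) := ⟨h.symm⟩
      exact hP0 (Ideal.eq_bot_of_liesOver_bot R P)
    have h1 : Ideal.relNorm R P = P.under R := by
      rw [Ideal.relNorm_eq_pow_of_isMaximal P (P.under R), hin P hPm, pow_one]
    have hra : Ideal.relNorm R a ≠ 0 := by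
      rw [Ne, Ideal.zero_eq_bot, Ideal.relNorm_eq_bot_iff]; exact ha
    rw [map_mul, h1, normalizedFactors_mul hu0 hra, normalizedFactors_mul hP0 ha,
      Multiset.count_add, ih ha]
    simp only [Multiset.count_add, Finset.sum_add_distrib]
    congr 1
    have hirr : Irreducible (P.under R) :=
      (Ideal.prime_of_isPrime hu0 hum.isPrime).irreducible
    rw [normalizedFactors_irreducible hirr, normalizedFactors_irreducible hP.irreducible]
    simp only [normalize_eq, Multiset.count_singleton]
    rw [Finset.sum_ite_eq']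
    congr 1
    rw [IsDedekindDomain.mem_primesOverFinset_iff hp0, eq_iff_iff]
    constructor
    · intro h
      exact ⟨hPp, ⟨h⟩⟩
    · rintro ⟨-, ⟨h⟩⟩
      exact h

end Count

section Ord

variable {K F : Type*} [Field K] [Field F] [Algebra K F]
variable {R : Type*} [CommRing R] [IsDedekindDomain R] [Algebra R F] [IsFractionRing R F]
  [Algebra K R] [IsScalarTower K R F]

open Classical in
theorem ord_eq_count (w : HeightOneSpectrum R) (a : R) (ha : a ≠ 0) :
    (Place.ofHeightOneSpectrum (K := K) (F := F) w).ord (algebraMap R F a) =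
      ((normalizedFactors (Ideal.span {a})).count w.asIdeal : ℤ) := by
  rw [S24.ord_ofHeightOneSpectrum, HeightOneSpectrum.valuation_of_algebraMap,
    HeightOneSpectrum.intValuation_if_neg _ ha, WithZero.log_exp, neg_neg,
    Ideal.count_associates_factors_eq (by simpa using ha) w.isPrime w.ne_bot]

end Ord

section Norm

variable {K F F' : Type*} [Field K] [Field F] [Field F'] [Algebra K F] [Algebra K F']
  [Algebra F F'] [IsScalarTower K F F'] [FiniteDimensional F F']
variable {R : Type*} [CommRing R] [IsDedekindDomain R] [Algebra R F] [IsFractionRing R F]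
  [Algebra K R] [IsScalarTower K R F]
variable (S : Type*) [CommRing S] [IsDedekindDomain S] [Algebra S F'] [IsFractionRing S F']
  [Algebra K S] [IsScalarTower K S F']
variable [Algebra R S] [Algebra R F'] [IsScalarTower R S F'] [IsScalarTower R F F']
  [IsIntegralClosure S R F'] [Module.Finite R S] [Module.IsTorsionFree R S]
  [PerfectField (FractionRing R)]

open Classical in
theorem ord_norm_algebraMap (hin : ∀ P : Ideal S, P.IsMaximal → P.inertiaDeg R = 1)
    (p : HeightOneSpectrum R) (a : S) (ha : a ≠ 0) :
    (Place.ofHeightOneSpectrum (K := K) (F := F) p).ord (Algebra.norm F (algebraMap S F' a)) =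
      ∑ P ∈ IsDedekindDomain.primesOverFinset p.asIdeal S,
        ((normalizedFactors (Ideal.span {a})).count P : ℤ) := by
  have := p.isMaximal
  have hN : Algebra.intNorm R S a ≠ 0 := by
    intro h
    have h2 := Algebra.algebraMap_intNorm (A := R) (K := F) (L := F') (B := S) a
    rw [h, map_zero, eq_comm, Algebra.norm_eq_zero_iff] at h2
    exact ha ((IsFractionRing.injective S F') (h2.trans (map_zero _).symm))
  rw [← Algebra.algebraMap_intNorm (A := R) (K := F) (L := F') (B := S) a,
    ord_eq_count p _ hN, ← Ideal.relNorm_singleton,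
    count_relNorm hin p.asIdeal p.ne_bot _ (by simpa using ha)]
  push_cast
  rfl

theorem finite_liesOver (p : HeightOneSpectrum R) :
    {w : HeightOneSpectrum S | w.asIdeal.LiesOver p.asIdeal}.Finite := by
  have := p.isMaximal
  refine Set.Finite.of_finite_image (f := HeightOneSpectrum.asIdeal) ?_
    (fun a _ b _ h => HeightOneSpectrum.ext h)
  refine (Finset.finite_toSet (IsDedekindDomain.primesOverFinset p.asIdeal S)).subset ?_
  rintro _ ⟨w, hw, rfl⟩
  rw [Finset.mem_coe, IsDedekindDomain.mem_primesOverFinset_iff p.ne_bot]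
  exact ⟨w.isPrime, hw⟩

open Classical in
theorem sum_liesOver (p : HeightOneSpectrum R) (h : Ideal S → ℤ) :
    ∑ w ∈ (finite_liesOver S p).toFinset, h w.asIdeal =
      ∑ P ∈ IsDedekindDomain.primesOverFinset p.asIdeal S, h P := by
  have := p.isMaximal
  refine Finset.sum_nbij (fun w => w.asIdeal) ?_ ?_ ?_ (fun _ _ => rfl)
  · intro w hw
    rw [Set.Finite.mem_toFinset] at hw
    rw [IsDedekindDomain.mem_primesOverFinset_iff p.ne_bot]
    exact ⟨w.isPrime, hw⟩
  · intro a _ b _ h
    exact HeightOneSpectrum.ext h
  · intro P hP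
    rw [Finset.mem_coe, IsDedekindDomain.mem_primesOverFinset_iff p.ne_bot] at hP
    obtain ⟨hP1, hP2⟩ := hP
    refine ⟨⟨P, hP1, Ideal.ne_bot_of_liesOver_of_ne_bot p.ne_bot P⟩, ?_, rfl⟩
    rw [Finset.mem_coe, Set.Finite.mem_toFinset]
    exact hP2

theorem ord_norm (hin : ∀ P : Ideal S, P.IsMaximal → P.inertiaDeg R = 1)
    (p : HeightOneSpectrum R) (f : F') (hf : f ≠ 0) :
    (Place.ofHeightOneSpectrum (K := K) (F := F) p).ord (Algebra.norm F f) =
      ∑ w ∈ (finite_liesOver S p).toFinset,
        (Place.ofHeightOneSpectrum (K := K) (F := F') w).ord f := by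
  classical
  obtain ⟨a, b, hb, rfl⟩ := IsFractionRing.div_surjective (A := S) f
  have hb0 : b ≠ 0 := nonZeroDivisors.ne_zero hb
  have ha0 : a ≠ 0 := by
    rintro rfl
    simp at hf
  have ha1 : algebraMap S F' a ≠ 0 := fun h =>
    ha0 ((IsFractionRing.injective S F') (h.trans (map_zero _).symm))
  have hb1 : algebraMap S F' b ≠ 0 := fun h =>
    hb0 ((IsFractionRing.injective S F') (h.trans (map_zero _).symm))
  have key : ∀ (v : Place K F') , v.ord (algebraMap S F' a / algebraMap S F' b) =
      v.ord (algebraMap S F' a) - v.ord (algebraMap S F' b) := by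
    intro v
    rw [div_eq_mul_inv, v.ord_mul ha1 (inv_ne_zero hb1), v.ord_inv]; ring
  have hN : Algebra.norm F (algebraMap S F' a / algebraMap S F' b) =
      Algebra.norm F (algebraMap S F' a) / Algebra.norm F (algebraMap S F' b) := by
    rw [eq_div_iff (Algebra.norm_ne_zero_iff.mpr hb1), ← map_mul, div_mul_cancel₀ _ hb1]
  rw [hN, div_eq_mul_inv, Place.ord_mul _ (Algebra.norm_ne_zero_iff.mpr ha1)
    (inv_ne_zero (Algebra.norm_ne_zero_iff.mpr hb1)), Place.ord_inv,
    ord_norm_algebraMap S hin p a ha0, ord_norm_algebraMap S hin p b hb0,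
    ← sum_liesOver S p, ← sum_liesOver S p, ← sub_eq_add_neg, ← Finset.sum_sub_distrib]
  refine Finset.sum_congr rfl fun w _ => ?_
  rw [key, ord_eq_count w a ha0, ord_eq_count w b hb0]

omit [IsIntegralClosure S R F'] [Module.Finite R S] [Module.IsTorsionFree R S]
  [PerfectField (FractionRing R)] in
theorem liesOver_of_restrict_eq (p : HeightOneSpectrum R) (P : HeightOneSpectrum S)
    (h : (Place.ofHeightOneSpectrum (K := K) (F := F') P).restrict F =
      Place.ofHeightOneSpectrum (K := K) (F := F) p) : P.asIdeal.LiesOver p.asIdeal := by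
  constructor
  ext r
  rw [Ideal.under_def, Ideal.mem_comap]
  rcases eq_or_ne r 0 with rfl | hr
  · simp
  have hr1 : algebraMap R S r ≠ 0 := by
    intro h0
    apply hr
    apply IsFractionRing.injective R F
    apply (algebraMap F F').injective
    rw [← IsScalarTower.algebraMap_apply, IsScalarTower.algebraMap_apply R S F', h0]
    simp
  rw [← S24.ord_algebraMap_pos_iff (K := K) (F := F) p hr,
    ← S24.ord_algebraMap_pos_iff (K := K) (F := F') P hr1, ← h,
    ← IsScalarTower.algebraMap_apply, IsScalarTower.algebraMap_apply R F F', Place.ord_restrict]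
  have he := (Place.ofHeightOneSpectrum (K := K) (F := F') P).ramificationIndex_pos (F := F)
  constructor
  · intro h1
    positivity
  · intro h1
    by_contra h2
    have : ((Place.ofHeightOneSpectrum (K := K) (F := F') P).ramificationIndex F : ℤ) *
        ((Place.ofHeightOneSpectrum (K := K) (F := F') P).restrict F).ord (algebraMap R F r) ≤ 0 :=
      mul_nonpos_of_nonneg_of_nonpos (by positivity) (not_lt.mp h2)
    omega

omit [IsIntegralClosure S R F'] [Module.IsTorsionFree R S] [PerfectField (FractionRing R)] in
theorem restrict_eq_iff (p : HeightOneSpectrum R) (w : Place K F') :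
    w.restrict F = Place.ofHeightOneSpectrum (K := K) (F := F) p ↔
      ∃ P : HeightOneSpectrum S, P.asIdeal.LiesOver p.asIdeal ∧
        w = Place.ofHeightOneSpectrum (K := K) (F := F') P := by
  constructor
  · intro h
    have h1 : ∀ r : R, algebraMap R F' r ∈ w.toValuationSubring := by
      intro r
      rw [IsScalarTower.algebraMap_apply R F F', ← Place.mem_restrict_iff, h]
      exact (p.valuation_le_one (K := F) r)
    obtain ⟨P, rfl⟩ := S24.exists_heightOneSpectrum_of_le' (A := R) S w h1
    exact ⟨P, liesOver_of_restrict_eq S p P h, rfl⟩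
  · rintro ⟨P, hP, rfl⟩
    have h1 : ∀ r : R, algebraMap R F r ∈
        ((Place.ofHeightOneSpectrum (K := K) (F := F') P).restrict F).toValuationSubring := by
      intro r
      rw [Place.mem_restrict_iff, ← IsScalarTower.algebraMap_apply,
        IsScalarTower.algebraMap_apply R S F']
      exact (P.valuation_le_one (K := F') _)
    obtain ⟨p', hp'⟩ := S24.exists_heightOneSpectrum_of_le _ h1
    have h2 := liesOver_of_restrict_eq S p' P hp'
    rw [hp']
    congr 1
    apply HeightOneSpectrum.ext
    rw [h2.over, hP.over]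

theorem pushforward_eq (hin : ∀ P : Ideal S, P.IsMaximal → P.inertiaDeg R = 1)
    (hin' : ∀ w : Place K F', w.inertiaDeg F = 1)
    (p : HeightOneSpectrum R) (f : F') (hf : f ≠ 0) (D : Divisor K F') (hD : ∀ w, D w = w.ord f) :
    Divisor.pushforward F D (Place.ofHeightOneSpectrum (K := K) (F := F) p) =
      (Place.ofHeightOneSpectrum (K := K) (F := F) p).ord (Algebra.norm F f) := by
  classical
  rw [Divisor.pushforward_apply, ord_norm S hin p f hf, ← Finset.sum_filter,
    ← Finset.sum_image (f := fun w => w.ord f)
      (g := fun P : HeightOneSpectrum S => Place.ofHeightOneSpectrum (K := K) (F := F') P)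
      (fun a _ b _ h => S24.ofHeightOneSpectrum_injective h)]
  have hsub : D.support.filter (fun w => w.restrict F = Place.ofHeightOneSpectrum (K := K) (F := F) p) ⊆
      (finite_liesOver S p).toFinset.image
        (fun P : HeightOneSpectrum S => Place.ofHeightOneSpectrum (K := K) (F := F') P) := by
    intro w hw
    rw [Finset.mem_filter, restrict_eq_iff S] at hw
    obtain ⟨-, P, hP, rfl⟩ := hw
    exact Finset.mem_image.mpr ⟨P, by rwa [Set.Finite.mem_toFinset], rfl⟩
  rw [← Finset.sum_subset hsub]
  · refine Finset.sum_congr rfl fun w _ => ?_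
    rw [hin', hD]; simp
  · intro w hw hw2
    obtain ⟨P, hP, rfl⟩ := Finset.mem_image.mp hw
    rw [Set.Finite.mem_toFinset] at hP
    rw [Finset.mem_filter, not_and] at hw2
    by_contra h0
    refine hw2 ?_ ((restrict_eq_iff S p _).mpr ⟨P, hP, rfl⟩)
    rw [Finsupp.mem_support_iff, hD]
    exact h0

end Norm

end Fermat.Agent.S37.FFN
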