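import Fermat.Agent.S37.FFBasic
import Fermat.Agent.S37.FFNormAux

/-!
# S37, piece FF-c: the norm formula `ord_v (N f) = ∑_{w ∣ v} ord_w f`

Same set-up as in `FFIdent.lean` (`R ⊂ R'` Dedekind, `v = ofHeightOneSpectrum p`).  Write
`f = a / b`, `a b : R'`; Mathlib: `Ideal.relNorm_singleton`, `Ideal.relNorm` multiplicative,
`Ideal.relNorm_eq_pow_of_isMaximal` (`PerfectField (FractionRing R)`: char. 0),
`Algebra.algebraMap_intNorm_fractionRing`; inertia degrees are `1`
(`S24.inertiaDeg'_eq_one`, `IsFF.inertiaDegAlong_eq_one`).  So the `p`-adic valuation of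
`N a` is `∑_{P ∣ p} ord_P a`.
-/

set_option autoImplicit false

open AlgebraicCurve IntermediateField IsDedekindDomain

namespace Fermat.Agent.S37

variable {K F F' : Type*} [Field K] [Field F] [Field F'] [Algebra K F] [Algebra K F']
  [IsAlgClosed K] [CharZero K]

open scoped IntermediateField.algebraAdjoinAdjoin

namespace FFN

theorem pushforward_eq_of_ring [Algebra F F'] [IsScalarTower K F F'] [Module.Finite F F']
    (hin' : ∀ w : Place K F', w.inertiaDeg F = 1)
    (R : Type*) [CommRing R] [IsDedekindDomain R] [Algebra R F] [IsFractionRing R F]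
    [Algebra K R] [IsScalarTower K R F] [Algebra.FiniteType K R]
    [Algebra R F'] [IsScalarTower R F F']
    (p : HeightOneSpectrum R)
    (f : F') (hf : f ≠ 0) (D : Divisor K F') (hD : ∀ w, D w = w.ord f) :
    Divisor.pushforward F D (Place.ofHeightOneSpectrum (K := K) (F := F) p) =
      (Place.ofHeightOneSpectrum (K := K) (F := F) p).ord (Algebra.norm F f) := by
  have : CharZero F := charZero_of_injective_algebraMap (algebraMap K F).injective
  have : IsScalarTower K R F' := IsScalarTower.of_algebraMap_eq fun k => by
    rw [IsScalarTower.algebraMap_apply K F F', IsScalarTower.algebraMap_apply K R F,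
      ← IsScalarTower.algebraMap_apply R F F']
  have := integralClosure.isDedekindDomain R F F'
  have := integralClosure.isFractionRing_of_finite_extension (A := R) F F'
  have : Module.Finite R (integralClosure R F') := IsIntegralClosure.finite R F F' _
  have : CharZero R := charZero_of_injective_algebraMap (algebraMap K R).injective
  have : CharZero (FractionRing R) :=
    charZero_of_injective_algebraMap (IsFractionRing.injective R (FractionRing R))
  have : FaithfulSMul R F' := by
    rw [faithfulSMul_iff_algebraMap_injective, IsScalarTower.algebraMap_eq R F F']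
    exact (algebraMap F F').injective.comp (IsFractionRing.injective R F)
  have := S24.isTorsionFree_of_tower (F := F') (A := R) (integralClosure R F')
  refine pushforward_eq (integralClosure R F') ?_ hin' p f hf D hD
  intro P hP
  have : (P.under R).IsMaximal := Ideal.IsMaximal.under R P
  rw [← Ideal.inertiaDeg'_eq_inertiaDeg (P.under R) P]
  exact S24.inertiaDeg'_eq_one K _ _

theorem pushforward_eq_of_mem [Algebra F F'] [IsScalarTower K F F'] [Module.Finite F F']
    (hin' : ∀ w : Place K F', w.inertiaDeg F = 1)
    (x : F) (hx : Transcendental K x) (hfin : FiniteDimensional K⟮x⟯ F)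
    (v : Place K F) (hv : x ∈ v.toValuationSubring)
    (f : F') (hf : f ≠ 0) (D : Divisor K F') (hD : ∀ w, D w = w.ord f) :
    Divisor.pushforward F D v = v.ord (Algebra.norm F f) := by
  have := S24.isPrincipalIdealRing_adjoin x hx
  have := S24.finiteType_adjoin (K := K) x
  have : CharZero K⟮x⟯ := charZero_of_injective_algebraMap (algebraMap K K⟮x⟯).injective
  have := integralClosure.isDedekindDomain (Algebra.adjoin K {x}) K⟮x⟯ F
  have := integralClosure.isFractionRing_of_finite_extension (A := Algebra.adjoin K {x}) K⟮x⟯ F
  have : Module.Finite (Algebra.adjoin K {x}) (integralClosure (Algebra.adjoin K {x}) F) :=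
    IsIntegralClosure.finite (Algebra.adjoin K {x}) K⟮x⟯ F _
  have : Algebra.FiniteType K (integralClosure (Algebra.adjoin K {x}) F) :=
    Algebra.FiniteType.trans (S := Algebra.adjoin K {x}) inferInstance inferInstance
  obtain ⟨p, rfl⟩ := S24.exists_heightOneSpectrum_of_le' (A := Algebra.adjoin K {x})
    (integralClosure (Algebra.adjoin K {x}) F) v
    (S24.adjoin_le_valuationSubring x _ v.algebraMap_mem' hv)
  exact pushforward_eq_of_ring hin' (integralClosure (Algebra.adjoin K {x}) F) p f hf D hD

theorem normFormula [Algebra F F'] [IsScalarTower K F F'] [Module.Finite F F'] (h : IsFF K F)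
    (hin' : ∀ w : Place K F', w.inertiaDeg F = 1) : Divisor.PushforwardNormFormula K F F' := by
  intro f hf D hD v
  obtain ⟨x, hx, hfin⟩ := h
  rcases v.toValuationSubring.mem_or_inv_mem x with hv | hv
  · exact pushforward_eq_of_mem hin' x hx hfin v hv f hf D hD
  · exact pushforward_eq_of_mem hin' x⁻¹ (S24.transcendental_inv x hx)
      (S24.finiteDimensional_adjoin_inv x hfin) v hv f hf D hD

end FFN

/-- [S37/FF-c] -/
theorem IsFF.normFormulaAlong (h : IsFF K F) (φ : F →ₐ[K] F') (hfin : FiniteAlong K φ) :
    NormFormulaAlong K φ hfin := by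
  let := algebraAlong φ
  have := isScalarTower_along φ
  have : Module.Finite F F' := hfin
  exact FFN.normFormula h fun w =>
    h.inertiaDegAlong_eq_one φ hfin (isIntegral_of_finiteAlong φ hfin) w

end Fermat.Agent.S37
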