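import Fermat.Agent.S37.FFIdent
import Fermat.Agent.S37.FFNorm
import Fermat.Agent.S18.Descent
import Fermat.Agent.ES.AtkinLehner
import Fermat.Prelude.Def_ModularCurve_HeckeOperatorTotal

/-!
# S37, modular pieces DEG, AL, HI

`Kb = AlgebraicClosure ℚ`, `FN N = modularFunctionFieldBar N` (notation of `S24/ModDefs.lean`).

## DEG
`isFF_FN`: `S24.transcendental_jN`, `S24.finiteDimensional_FN`.
`finiteAlong_incl`, `finrankAlong_alpha`: `S18.Descent.relfinrank_mul`, `S20.card_quotient_Gamma0`,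
`dedekindPsi (N * ℓ) = (ℓ + 1) * dedekindPsi N` for a prime `ℓ ∤ N`
(`S18/Descent.lean`, `mem_of_pow_mem_lcm` contains this kind of computation).

## AL  (Atkin–Lehner involution `W_ℓ` of `F_{Nℓ}`, `ℓ ∤ N`)
Choose `x y z w : ℤ` with `ℓ x w - N y z = 1` (Bezout) and let `Wm = !![ℓ x, y; N ℓ z, ℓ w]` (determinant `ℓ > 0`),
`φ τ = Wm • τ` on `ℍ` (`GL (Fin 2) ℝ` acts on `ℍ`; `φ` is `MDiff` and bijective, the inverse is the action of `Wm⁻¹`).
`S24.holComp φ _ : Hol →ₐ[ℂ] Hol` is injective, so it extends to `Mer →+* Mer` (`IsFractionRing.map` /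
`IsLocalization.map`, as `S24.merAct`).  For `d ∣ N`:
 `diag(d,1) Wm = !![x, d y; (N/d) z, ℓ w] * diag(dℓ,1)` and `diag(dℓ,1) Wm = ℓ • (!![ℓ x, d y; (N/d) z, w] * diag(d,1))`,
both matrices in front are in `SL(2,ℤ)`, so (`S24.jFun_GL_smul`, compare the proof of `S24.holAct_jHd`)
 `jHd d ∘ φ = jHd (d ℓ)`, `jHd (d ℓ) ∘ φ = jHd d`.
Hence `Ψ := (Mer-extension of holComp φ) ∘ iota (Nℓ)` maps the generators `jF (Nℓ) d'` (`d' ∣ Nℓ`, i.e. `d' = d` or `dℓ`)
and the constants into the subfield `(iota (Nℓ)).fieldRange`; by `S24.adjoin_jF` it maps everything into it, and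
`W := (iota (Nℓ))⁻¹ ∘ Ψ` is a `Kb`-algebra endomorphism of `FN (Nℓ)` exchanging `jF _ d` and `jF _ (dℓ)`; `W ∘ W = id` on
generators.  `heckeAlphaBar (jF N d) = jF (Nℓ) d`, `heckeBetaBar (jF N d) = jF (Nℓ) (dℓ)` (`qExpand_qExpand`,
`coeffMap_qExpand`), and two `Kb`-algebra homs out of `FN N` which agree on the `jF N d` are equal (`S24.adjoin_jF`).

## HI
`HeckeInputsAlong Kb N ℓ` from `IsFF.*` (pieces FF-a, b, c) + DEG + AL (`β = W ∘ α`, so `F_{Nℓ}` is finite along `β`).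
-/

set_option autoImplicit false

open ModularCurve AlgebraicCurve IntermediateField
open Fermat.Agent.S24

namespace Fermat.Agent.S37

/-- the inclusion `F_N → F_M` for `N ∣ M` -/
noncomputable def incl {N M : ℕ} [NeZero N] [NeZero M] (h : N ∣ M) : FN N →ₐ[Kb] FN M :=
  IntermediateField.inclusion (Fermat.Agent.S18.Descent.bar_le h)

@[simp] theorem coe_incl {N M : ℕ} [NeZero N] [NeZero M] (h : N ∣ M) (x : FN N) :
    (incl h x : LaurentSeries Kb) = (x : LaurentSeries Kb) :=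
  IntermediateField.coe_inclusion _ x

/-- [S37/DEG] -/
theorem isFF_FN (N : ℕ) [NeZero N] : IsFF Kb (FN N) :=
  ⟨jN N, transcendental_jN N, finiteDimensional_FN N⟩

theorem finrankAlong_incl_eq {N M : ℕ} [NeZero N] [NeZero M] (h : N ∣ M) :
    finrankAlong Kb (incl h) =
      IntermediateField.relfinrank (modularFunctionFieldBar N) (modularFunctionFieldBar M) := by
  rw [IntermediateField.relfinrank_eq_finrank_of_le (S18.Descent.bar_le h)]
  rfl

theorem card_mul_finrankAlong_incl {N M : ℕ} [NeZero N] [NeZero M] (h : N ∣ M) :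
    Nat.card (QN N) * finrankAlong Kb (incl h) = Nat.card (QN M) := by
  rw [finrankAlong_incl_eq]
  exact S18.Descent.relfinrank_mul h

/-- [S37/DEG] -/
theorem finiteAlong_incl {N M : ℕ} [NeZero N] [NeZero M] (h : N ∣ M) :
    FiniteAlong Kb (incl h) := by
  have h1 := card_mul_finrankAlong_incl h
  have h2 : 0 < finrankAlong Kb (incl h) := by
    rcases Nat.eq_zero_or_pos (finrankAlong Kb (incl h)) with h0 | h0
    · rw [h0, mul_zero] at h1
      exact absurd h1.symm (card_QN_pos M).ne'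
    · exact h0
  exact @Module.finite_of_finrank_pos (FN N) (FN M) _ _
    (algebraAlong (incl h)).toModule
    (@Module.Free.of_divisionRing (FN N) (FN M) _ _ (algebraAlong (incl h)).toModule) _ h2

theorem heckeAlphaBar_eq_incl (N ℓ : ℕ) [NeZero N] [NeZero ℓ] :
    heckeAlphaBar Kb N ℓ = incl (dvd_mul_right N ℓ) := rfl

/-- [S37/DEG] -/
theorem finrankAlong_alpha (N ℓ : ℕ) [NeZero N] [NeZero ℓ] (hℓ : ℓ.Prime) (hN : ¬ ℓ ∣ N) :
    finrankAlong Kb (heckeAlphaBar Kb N ℓ) = ℓ + 1 := by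
  have h1 := card_mul_finrankAlong_incl (dvd_mul_right N ℓ)
  have hidx : Nat.card (QN (N * ℓ)) = (ℓ + 1) * Nat.card (QN N) := by
    have := Fermat.Agent.S20.Count.index_Gamma0_mul_prime (N := N) hℓ
      (Nat.pos_of_ne_zero (NeZero.ne N))
    rw [if_neg hN] at this
    exact this
  rw [hidx, mul_comm] at h1
  exact Nat.eq_of_mul_eq_mul_right (card_QN_pos N) h1

/-- [S37/AL] the Atkin–Lehner involution -/
theorem exists_atkinLehner (N ℓ : ℕ) [NeZero N] [NeZero ℓ] (hℓ : ℓ.Prime) (hN : ¬ ℓ ∣ N) :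
    ∃ W : FN (N * ℓ) ≃ₐ[Kb] FN (N * ℓ),
      (∀ f : FN N, W (heckeAlphaBar Kb N ℓ f) = heckeBetaBar Kb N ℓ f) ∧
      (∀ f : FN N, W (heckeBetaBar Kb N ℓ f) = heckeAlphaBar Kb N ℓ f) := by
  obtain ⟨W, h1, h2, -⟩ := Fermat.Agent.ES.exists_atkinLehner N ℓ
    ((Nat.Prime.coprime_iff_not_dvd hℓ).mpr hN)
  exact ⟨W, h1, h2⟩

/-- [S37/HI] -/
theorem finiteAlong_beta (N ℓ : ℕ) [NeZero N] [NeZero ℓ] (hℓ : ℓ.Prime) (hN : ¬ ℓ ∣ N) :
    FiniteAlong Kb (heckeBetaBar Kb N ℓ) := by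
  obtain ⟨W, hW1, -⟩ := exists_atkinLehner N ℓ hℓ hN
  have hα : FiniteAlong Kb (heckeAlphaBar Kb N ℓ) :=
    finiteAlong_incl (dvd_mul_right N ℓ)
  exact @Module.Finite.of_equiv_equiv (FN N) (FN (N * ℓ)) (FN N) (FN (N * ℓ)) _ _ _ _
    (algebraAlong (heckeAlphaBar Kb N ℓ)) (algebraAlong (heckeBetaBar Kb N ℓ))
    (RingEquiv.refl _) W.toRingEquiv (RingHom.ext fun f => (hW1 f).symm) hα

/-- [S37/HI] -/
theorem heckeInputsAlong (N ℓ : ℕ) [NeZero N] [NeZero ℓ] (hℓ : ℓ.Prime) (hN : ¬ ℓ ∣ N) :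
    HeckeInputsAlong Kb N ℓ := by
  have hα : FiniteAlong Kb (heckeAlphaBar Kb N ℓ) :=
    finiteAlong_incl (dvd_mul_right N ℓ)
  have hβ : FiniteAlong Kb (heckeBetaBar Kb N ℓ) := finiteAlong_beta N ℓ hℓ hN
  have hP : HasPrincipalDivisors Kb (FN (N * ℓ)) := (isFF_FN (N * ℓ)).hasPrincipalDivisors
  exact ⟨isIntegral_of_finiteAlong _ hα, isIntegral_of_finiteAlong _ hβ, hP, hα,
    (isFF_FN N).fundamentalIdentityAlong _ hβ _, (isFF_FN N).normFormulaAlong _ hα⟩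

end Fermat.Agent.S37
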