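import Fermat.Agent.S37.Riemann
import Fermat.Prelude.Def_AlgebraicCurve_Correspondence

/-!
# S37 / MAIN, abstract part (pieces MA-1 .. MA-4)

`K` algebraically closed of characteristic `0`; `F`, `F1`, `FM` function fields over `K`; `α β : F → F1` (the Hecke correspondence
`T = α_* β^*`), `π : F → FM`; `r : Place K FM → X` any map ("reduction of places").
`Lam = r_* π^* : Div F → (X →₀ ℤ)`.

## MA-1 (Galois equivariance of the pull-back)
`g' ∘ φ = φ ∘ g`.  `restrictAlong_smul`: `Place.ext`; `x ∈ (g' • w).restrict ↔ g'⁻¹ • φ x ∈ w ↔ φ (g⁻¹ • x) ∈ w`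
(`ValuationSubring.mem_pointwise_smul_iff_inv_smul_mem`, `IntertwinesAlong.inv`).
`ramificationIndexAlong_smul`: the two sets in the definition (`sInf`) are equal: `(g' • w).ord (φ f) = w.ord (φ (g⁻¹ • f))`
(`SemilinearAut.ord_smul`).  `pullbackAlong_smul`: `Finsupp.ext`, `Divisor.pullbackAlong_apply`, `SemilinearAut.divisor_smul_apply`.

## MA-2 (positivity and bounds)
`pullbackAlong_apply`; `pushforwardAlong` by `Finsupp.induction_linear`-free argument: `pushforward_apply` is a sum of nonnegative terms;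
`mapDomain r D x = ∑ over the fibre` (`Finsupp.mapDomain`, `Finsupp.sum_apply`, `Finsupp.single_apply`), each term `≥ 0`, total `= degree D`
(`IsFF.degree_eq_sum`).

## MA-3 (principal divisors)
`pullbackAlong_of_ord`: `Divisor.pullback_apply_eq_ord`.  `correspondence_of_ord`: the same + `hN` (unfold `NormFormulaAlong`).
`smul_of_ord`: `SemilinearAut.divisor_smul_apply` + `SemilinearAut.ord_smul`.

## MA-4 (`key_abstract`)
Put `δ D := Lam (T D - σ • D - ℓ • σ⁻¹ • D)`.
(a) `δ` kills principal divisors: for `D = div u`, `T D - σ D - ℓ σ⁻¹ D = div h`, `h = N_α(β u) (σ u)⁻¹ ((σ⁻¹ u)^ℓ)⁻¹` (MA-3, `Place.ord_mul`, `ord_inv`,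
`ord_zpow`), `π^* div h = div (π h)`, `hES`.
(b) for every `x : X` the homomorphism `D ↦ δ D x` is bounded on places by
`c = d * e + d + ℓ * d`, `d = finrankAlong π`, `e = finrankAlong β` (MA-2, `degree_correspondence`, `degree_pullbackAlong`, `degree_smul`,
`IsFF.deg_eq_one`).
(c) `IsFF.rigid` ⟹ `δ = 0` on `degZero`.
(d) `Lam (τ • D) = Lam D` for `τ ∈ I` (MA-1; `Finsupp.mapDomain_comp`).
(e) `H := {x | ∃ D : degZero, Pic0.mk D = x ∧ Lam D = 0}` is an additive subgroup containing the generators: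
`τ • mk Z - mk Z = mk (τ Z - Z)` (`SemilinearAut.pic0_smul_mk`), `Pic0.correspondence_mk`;
`Lam (σ σ Z - T (σ Z) + ℓ Z) = - δ (σ Z) = 0`.
(f) `x = mk D`, `Lam D = 0`, `m • x = 0` ⟹ `m • D = div f` (`QuotientAddGroup.eq_zero_iff`), `Lam (div f) = m • Lam D = 0`, `hKL` gives `g ^ m = f`,
so `m • (D - div g) = 0`, `D = div g` (`Finsupp` over `ℤ` is torsion free), `x = 0`.
-/

set_option autoImplicit false

open AlgebraicCurve

noncomputable section

namespace Fermat.Agent.S37

section Gal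

variable {K F F' : Type*} [Field K] [Field F] [Field F'] [Algebra K F] [Algebra K F']
  (φ : F →ₐ[K] F') (hφ : φ.toRingHom.IsIntegral)
  {g : SemilinearAut K F} {g' : SemilinearAut K F'}

theorem mem_restrictAlong_iff (w : Place K F') (x : F) :
    x ∈ (w.restrictAlong φ hφ).toValuationSubring ↔ φ x ∈ w.toValuationSubring := Iff.rfl

/-- [S37/MA-1] -/
theorem restrictAlong_smul (h : SemilinearAut.IntertwinesAlong (φ : F →+* F') g g')
    (w : Place K F') : (g' • w).restrictAlong φ hφ = g • w.restrictAlong φ hφ := by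
  apply Place.ext
  ext x
  rw [mem_restrictAlong_iff, SemilinearAut.smul_toValuationSubring,
    SemilinearAut.smul_toValuationSubring,
    ValuationSubring.mem_pointwise_smul_iff_inv_smul_mem,
    ValuationSubring.mem_pointwise_smul_iff_inv_smul_mem, mem_restrictAlong_iff]
  have := h.inv x
  rw [show (φ x : F') = (φ : F →+* F') x from rfl, this]
  rfl

theorem ord_smul_along (h : SemilinearAut.IntertwinesAlong (φ : F →+* F') g g')
    (w : Place K F') (f : F) : (g' • w).ord (φ f) = w.ord (φ (g⁻¹ • f)) := by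
  have h1 := SemilinearAut.ord_smul g' w (φ (g⁻¹ • f))
  have h2 := h (g⁻¹ • f)
  rw [smul_inv_smul] at h2
  rw [← h1, show (φ (g⁻¹ • f) : F') = (φ : F →+* F') (g⁻¹ • f) from rfl, h2]
  rfl

/-- [S37/MA-1] -/
theorem ramificationIndexAlong_smul (h : SemilinearAut.IntertwinesAlong (φ : F →+* F') g g')
    (w : Place K F') :
    Place.ramificationIndexAlong φ (g' • w) = Place.ramificationIndexAlong φ w := by
  have key : ∀ w' : Place K F', Place.ramificationIndexAlong φ w' =
      sInf {n : ℕ | 0 < n ∧ ∃ f : F, f ≠ 0 ∧ w'.ord (φ f) = n} := fun _ => rfl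
  rw [key, key]
  congr 1
  ext n
  constructor
  · rintro ⟨hn, f, hf, hfn⟩
    refine ⟨hn, g⁻¹ • f, ?_, ?_⟩
    · rwa [Ne, smul_eq_zero_iff_eq]
    · rw [← ord_smul_along φ h, hfn]
  · rintro ⟨hn, f, hf, hfn⟩
    refine ⟨hn, g • f, ?_, ?_⟩
    · rwa [Ne, smul_eq_zero_iff_eq]
    · rw [ord_smul_along φ h, inv_smul_smul, hfn]

/-- [S37/MA-1] -/
theorem pullbackAlong_smul [HasPrincipalDivisors K F']
    (h : SemilinearAut.IntertwinesAlong (φ : F →+* F') g g') (D : Divisor K F) :
    Divisor.pullbackAlong φ hφ (g • D) = g' • Divisor.pullbackAlong φ hφ D := by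
  ext w
  rw [Divisor.pullbackAlong_apply, SemilinearAut.divisor_smul_apply,
    SemilinearAut.divisor_smul_apply, Divisor.pullbackAlong_apply,
    restrictAlong_smul φ hφ h.inv, ramificationIndexAlong_smul φ h.inv]

/-- [S37/MA-2] -/
theorem pullbackAlong_nonneg [HasPrincipalDivisors K F'] (D : Divisor K F) (hD : ∀ v, 0 ≤ D v)
    (w : Place K F') : 0 ≤ Divisor.pullbackAlong φ hφ D w := by
  rw [Divisor.pullbackAlong_apply]
  exact mul_nonneg (Int.natCast_nonneg _) (hD _)

/-- [S37/MA-2] -/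
theorem pushforwardAlong_nonneg (D : Divisor K F') (hD : ∀ w, 0 ≤ D w) (v : Place K F) :
    0 ≤ Divisor.pushforwardAlong φ hφ D v := by
  classical
  let _ := algebraAlong φ
  have := isScalarTower_along φ
  have := isIntegral_along φ hφ
  have : Divisor.pushforwardAlong φ hφ D v = Divisor.pushforward F D v := rfl
  rw [this, Divisor.pushforward_apply]
  refine Finset.sum_nonneg fun w _ => ?_
  split_ifs
  · exact mul_nonneg (hD w) (Int.natCast_nonneg _)
  · exact le_rfl

/-- [S37/MA-2] -/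
theorem smul_nonneg_divisor (g : SemilinearAut K F) (D : Divisor K F) (hD : ∀ v, 0 ≤ D v)
    (v : Place K F) : 0 ≤ (g • D) v := by
  rw [SemilinearAut.divisor_smul_apply]
  exact hD _

/-- [S37/MA-2] -/
theorem mapDomain_bound [IsAlgClosed K] [CharZero K] (hF : IsFF K F) {X : Type*}
    (r : Place K F → X) (D : Divisor K F) (hD : ∀ v, 0 ≤ D v) (x : X) :
    0 ≤ Finsupp.mapDomain r D x ∧ Finsupp.mapDomain r D x ≤ Divisor.degree D := by
  classical
  have h1 : Finsupp.mapDomain r D x = ∑ v ∈ D.support, if r v = x then D v else 0 := by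
    rw [Finsupp.mapDomain, Finsupp.sum_apply, Finsupp.sum]
    refine Finset.sum_congr rfl fun v _ => ?_
    rw [Finsupp.single_apply]
  rw [h1, hF.degree_eq_sum]
  constructor
  · refine Finset.sum_nonneg fun v _ => ?_
    split_ifs
    · exact hD v
    · exact le_rfl
  · refine Finset.sum_le_sum fun v _ => ?_
    split_ifs
    · exact le_rfl
    · exact hD v

/-- [S37/MA-3] -/
theorem pullbackAlong_of_ord [HasPrincipalDivisors K F'] {f : F} {D : Divisor K F}
    (hD : ∀ v, D v = v.ord f) (w : Place K F') :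
    Divisor.pullbackAlong φ hφ D w = w.ord (φ f) := by
  rw [Divisor.pullbackAlong_apply, hD, ← Place.ord_restrictAlong]

/-- [S37/MA-3] -/
theorem smul_of_ord (g : SemilinearAut K F) {f : F} {D : Divisor K F}
    (hD : ∀ v, D v = v.ord f) (v : Place K F) : (g • D) v = v.ord (g • f) := by
  rw [SemilinearAut.divisor_smul_apply, hD]
  have := SemilinearAut.ord_smul g (g⁻¹ • v) f
  rw [smul_inv_smul] at this
  exact this.symm

end Gal

section Main

variable {K F F1 FM : Type*} [Field K] [Field F] [Field F1] [Field FM]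
  [Algebra K F] [Algebra K F1] [Algebra K FM]

/-- the norm along `α` -/
def normAlong (α : F →ₐ[K] F1) : F1 →* F :=
  letI := algebraAlong α
  Algebra.norm F

/-- [S37/MA-3] -/
theorem correspondence_of_ord [HasPrincipalDivisors K F1] (α β : F →ₐ[K] F1)
    (hα : α.toRingHom.IsIntegral) (hβ : β.toRingHom.IsIntegral) (hfin : FiniteAlong K α)
    (hN : NormFormulaAlong K α hfin) {u : F} (hu : u ≠ 0) {D : Divisor K F}
    (hD : ∀ v, D v = v.ord u) (v : Place K F) :
    Divisor.correspondence β α hβ hα D v = v.ord (normAlong α (β u)) := by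
  rw [Divisor.correspondence_apply]
  have h1 : ∀ w, Divisor.pullbackAlong β hβ D w = w.ord (β u) :=
    pullbackAlong_of_ord β hβ hD
  have hu' : β u ≠ 0 := by rwa [Ne, map_eq_zero]
  exact hN (β u) hu' _ h1 v

/-- `r_* π^*` -/
def Lam [HasPrincipalDivisors K FM] (π : F →ₐ[K] FM) (hπ : π.toRingHom.IsIntegral) {X : Type*}
    (r : Place K FM → X) : Divisor K F →+ (X →₀ ℤ) :=
  (Finsupp.mapDomain.addMonoidHom r).comp (Divisor.pullbackAlong π hπ)

/-- [S37/MA-4] -/
theorem key_abstract [IsAlgClosed K] [CharZero K] (hF : IsFF K F) (hFM : IsFF K FM)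
    [HasPrincipalDivisors K F1] [HasPrincipalDivisors K FM]
    (α β : F →ₐ[K] F1) (hα : α.toRingHom.IsIntegral) (hβ : β.toRingHom.IsIntegral)
    (hFI : FundamentalIdentityAlong K β hβ) (hfin : FiniteAlong K α)
    (hN : NormFormulaAlong K α hfin)
    (π : F →ₐ[K] FM) (hπ : π.toRingHom.IsIntegral) (hFIπ : FundamentalIdentityAlong K π hπ)
    {X : Type*} (r : Place K FM → X)
    (σ : SemilinearAut K F) (I : Set (SemilinearAut K F)) (ℓ m : ℕ) (hm : m ≠ 0)
    (hI : ∀ τ ∈ I, ∃ τ' : SemilinearAut K FM,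
      SemilinearAut.IntertwinesAlong (π : F →+* FM) τ τ' ∧ ∀ P, r (τ' • P) = r P)
    (hES : ∀ u : F, u ≠ 0 → ∀ D : Divisor K FM,
      (∀ P, D P = P.ord (π (normAlong α (β u) * (σ • u)⁻¹ * ((σ⁻¹ • u) ^ ℓ)⁻¹))) →
      Finsupp.mapDomain r D = 0)
    (hKL : ∀ f : F, f ≠ 0 → (∀ v : Place K F, (m : ℤ) ∣ v.ord f) →
      (∀ D : Divisor K FM, (∀ P, D P = P.ord (π f)) → Finsupp.mapDomain r D = 0) →
      ∃ g : F, g ^ m = f)
    (x : Pic0 K F) (hx : m • x = 0)
    (hxW : x ∈ AddSubgroup.closure ({y | ∃ τ ∈ I, ∃ z : Pic0 K F, y = τ • z - z} ∪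
      {y | ∃ z : Pic0 K F,
        y = σ • σ • z - Pic0.correspondence β α hβ hα hFI hfin hN (σ • z) + ℓ • z})) :
    x = 0 := by
  classical
  have hLam : ∀ E : Divisor K F, Lam π hπ r E =
      Finsupp.mapDomain r (Divisor.pullbackAlong π hπ E) := fun _ => rfl
  -- the operator `T - σ - ℓ σ⁻¹`
  let Θ : Divisor K F →+ Divisor K F :=
    Divisor.correspondence β α hβ hα - DistribSMul.toAddMonoidHom (Divisor K F) σ -
      ℓ • DistribSMul.toAddMonoidHom (Divisor K F) σ⁻¹
  have hΘ : ∀ E : Divisor K F, Θ E =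
      Divisor.correspondence β α hβ hα E - σ • E - ℓ • σ⁻¹ • E := fun _ => rfl
  -- bounds for effective divisors
  have hbd : ∀ E : Divisor K F, (∀ v, 0 ≤ E v) → ∀ y : X,
      0 ≤ Lam π hπ r E y ∧ Lam π hπ r E y ≤ (finrankAlong K π : ℤ) * Divisor.degree E := by
    intro E hE y
    have h1 := mapDomain_bound hFM r (Divisor.pullbackAlong π hπ E)
      (pullbackAlong_nonneg π hπ E hE) y
    rw [Divisor.degree_pullbackAlong π hπ hFIπ] at h1
    exact h1
  -- (a)
  have ha : ∀ E ∈ Divisor.principal (K := K) (F := F), Lam π hπ r (Θ E) = 0 := by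
    rintro E ⟨u, hu, hE⟩
    have hn0 : normAlong α (β u) ≠ 0 := by
      let _ := algebraAlong α
      have : Module.Finite F F1 := hfin
      exact Algebra.norm_ne_zero_iff.mpr ((map_ne_zero β).2 hu)
    have hs0 : σ • u ≠ 0 := by simpa using hu
    have hs1 : σ⁻¹ • u ≠ 0 := (smul_ne_zero_iff_ne σ⁻¹).2 hu
    refine hES u hu _ (pullbackAlong_of_ord π hπ fun v => ?_)
    rw [hΘ, Finsupp.sub_apply, Finsupp.sub_apply, Finsupp.smul_apply,
      correspondence_of_ord α β hα hβ hfin hN hu hE, smul_of_ord σ hE, smul_of_ord σ⁻¹ hE,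
      v.ord_mul (mul_ne_zero hn0 (inv_ne_zero hs0)) (inv_ne_zero (pow_ne_zero _ hs1)),
      v.ord_mul hn0 (inv_ne_zero hs0), v.ord_inv, v.ord_inv, RiemannAux.ord_pow']
    simp only [nsmul_eq_mul]
    ring
  -- (b), (c)
  have hc : ∀ E ∈ Divisor.degZero (K := K) (F := F), Lam π hπ r (Θ E) = 0 := by
    intro E hE
    ext y
    rw [Finsupp.zero_apply]
    refine hF.rigid ((Finsupp.applyAddHom y).comp ((Lam π hπ r).comp Θ))
      ((finrankAlong K π : ℤ) * finrankAlong K β + finrankAlong K π + ℓ * finrankAlong K π)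
      (fun v => ?_) (fun E' hE' => ?_) E hE
    · have hs : ∀ w, 0 ≤ (Finsupp.single v (1 : ℤ) : Divisor K F) w := fun w => by
        rw [Finsupp.single_apply]; split_ifs <;> simp
      have hd1 : Divisor.degree (Finsupp.single v (1 : ℤ) : Divisor K F) = 1 := by
        rw [Divisor.degree_single, hF.deg_eq_one]; simp
      have h1 := hbd (Divisor.correspondence β α hβ hα (Finsupp.single v 1))
        (pushforwardAlong_nonneg α hα _ (pullbackAlong_nonneg β hβ _ hs)) y
      have h2 := hbd (σ • Finsupp.single v 1) (smul_nonneg_divisor σ _ hs) y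
      have h3 := hbd (σ⁻¹ • Finsupp.single v 1) (smul_nonneg_divisor σ⁻¹ _ hs) y
      rw [Divisor.degree_correspondence β α hβ hα hFI, hd1, mul_one] at h1
      rw [SemilinearAut.degree_smul, hd1, mul_one] at h2 h3
      have h4 : ((Finsupp.applyAddHom y).comp ((Lam π hπ r).comp Θ)) (Finsupp.single v 1) =
          Lam π hπ r (Divisor.correspondence β α hβ hα (Finsupp.single v 1)) y -
            Lam π hπ r (σ • Finsupp.single v 1) y -
            ℓ * Lam π hπ r (σ⁻¹ • Finsupp.single v 1) y := by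
        simp only [AddMonoidHom.comp_apply, Finsupp.applyAddHom_apply, hΘ, map_sub, map_nsmul,
          nsmul_eq_mul]
      rw [h4, abs_le]
      have h5 : (ℓ : ℤ) * Lam π hπ r (σ⁻¹ • Finsupp.single v 1) y ≤ ℓ * finrankAlong K π :=
        mul_le_mul_of_nonneg_left h3.2 (Int.natCast_nonneg _)
      have h6 : 0 ≤ (ℓ : ℤ) * Lam π hπ r (σ⁻¹ • Finsupp.single v 1) y :=
        mul_nonneg (Int.natCast_nonneg _) h3.1
      have h7 : (0 : ℤ) ≤ (finrankAlong K π : ℤ) * finrankAlong K β :=
        mul_nonneg (Int.natCast_nonneg _) (Int.natCast_nonneg _)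
      have h8 : (0 : ℤ) ≤ (ℓ : ℤ) * finrankAlong K π :=
        mul_nonneg (Int.natCast_nonneg _) (Int.natCast_nonneg _)
      have h9 : (0 : ℤ) ≤ (finrankAlong K π : ℤ) := Int.natCast_nonneg _
      constructor <;> linarith [h1.1, h1.2, h2.1, h2.2]
    · simp only [AddMonoidHom.comp_apply, Finsupp.applyAddHom_apply]
      rw [ha E' hE', Finsupp.zero_apply]
  -- (d)
  have hd : ∀ τ ∈ I, ∀ E : Divisor K F, Lam π hπ r (τ • E) = Lam π hπ r E := by
    intro τ hτ E
    obtain ⟨τ', hint, hr⟩ := hI τ hτ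
    rw [hLam, hLam, pullbackAlong_smul π hπ hint, SemilinearAut.divisor_smul_def,
      ← Finsupp.mapDomain_comp]
    congr 1
    funext P
    exact hr P
  -- (e)
  let H : AddSubgroup (Pic0 K F) :=
    (((Lam π hπ r).comp (Divisor.degZero (K := K) (F := F)).subtype).ker).map
      (QuotientAddGroup.mk' _)
  have hH : ∀ E : Divisor.degZero (K := K) (F := F), Lam π hπ r (E : Divisor K F) = 0 →
      Pic0.mk E ∈ H := fun E hE => ⟨E, hE, rfl⟩
  have hle : AddSubgroup.closure ({y | ∃ τ ∈ I, ∃ z : Pic0 K F, y = τ • z - z} ∪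
      {y | ∃ z : Pic0 K F,
        y = σ • σ • z - Pic0.correspondence β α hβ hα hFI hfin hN (σ • z) + ℓ • z}) ≤ H := by
    rw [AddSubgroup.closure_le]
    rintro y (⟨τ, hτ, z, rfl⟩ | ⟨z, rfl⟩)
    · obtain ⟨Z, rfl⟩ := Pic0.mk_surjective z
      rw [SemilinearAut.pic0_smul_mk]
      refine hH (SemilinearAut.degZeroSMulHom τ Z - Z) ?_
      rw [AddSubgroup.coe_sub, SemilinearAut.coe_degZeroSMulHom, map_sub, hd τ hτ, sub_self]
    · obtain ⟨Z, rfl⟩ := Pic0.mk_surjective z
      rw [SemilinearAut.pic0_smul_mk, SemilinearAut.pic0_smul_mk, Pic0.correspondence_mk]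
      refine hH (SemilinearAut.degZeroSMulHom σ (SemilinearAut.degZeroSMulHom σ Z) -
        Pic0.degZeroCorrespondence β α hβ hα hFI (SemilinearAut.degZeroSMulHom σ Z) + ℓ • Z) ?_
      have h1 := hc (σ • (Z : Divisor K F)) (SemilinearAut.smul_mem_degZero σ Z.2)
      rw [hΘ, inv_smul_smul] at h1
      rw [AddSubgroup.coe_add, AddSubgroup.coe_sub, AddSubgroup.coe_nsmul,
        Pic0.coe_degZeroCorrespondence, SemilinearAut.coe_degZeroSMulHom,
        SemilinearAut.coe_degZeroSMulHom]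
      have h2 : σ • σ • (Z : Divisor K F) -
          Divisor.correspondence β α hβ hα (σ • (Z : Divisor K F)) + ℓ • (Z : Divisor K F) =
          -(Divisor.correspondence β α hβ hα (σ • (Z : Divisor K F)) - σ • σ • (Z : Divisor K F) -
            ℓ • (Z : Divisor K F)) := by abel
      rw [h2, map_neg, h1, neg_zero]
  -- (f)
  obtain ⟨D, hD, rfl⟩ := hle hxW
  have hD' : Lam π hπ r (D : Divisor K F) = 0 := hD
  have hmD : ((m • D : Divisor.degZero (K := K) (F := F)) : Divisor K F) ∈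
      Divisor.principal (K := K) (F := F) := by
    have h1 : (QuotientAddGroup.mk' ((Divisor.principal (K := K) (F := F)).addSubgroupOf
        (Divisor.degZero (K := K) (F := F)))) (m • D) = 0 := by
      rw [map_nsmul]; exact hx
    exact (QuotientAddGroup.eq_zero_iff (m • D)).1 h1
  obtain ⟨f, hf, hfD⟩ := hmD
  have hfD' : ∀ v : Place K F, (m : ℤ) * (D : Divisor K F) v = v.ord f := by
    intro v
    rw [← hfD v, AddSubgroup.coe_nsmul, Finsupp.smul_apply, nsmul_eq_mul]
  obtain ⟨g, hg⟩ := hKL f hf (fun v => ⟨_, (hfD' v).symm⟩) (by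
    intro D' hD''
    have h1 : D' = Divisor.pullbackAlong π hπ (m • (D : Divisor K F)) := by
      ext P
      rw [hD'' P, pullbackAlong_of_ord π hπ (f := f) (fun v => ?_)]
      rw [← hfD' v, Finsupp.smul_apply, nsmul_eq_mul]
    rw [h1, ← hLam, map_nsmul, hD', smul_zero])
  have hg0 : g ≠ 0 := by
    rintro rfl
    rw [zero_pow hm] at hg
    exact hf hg.symm
  refine (QuotientAddGroup.eq_zero_iff _).2 ?_
  refine ⟨g, hg0, fun v => ?_⟩
  have h1 := hfD' v
  rw [← hg, RiemannAux.ord_pow'] at h1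
  exact mul_left_cancel₀ (Nat.cast_ne_zero.2 hm) h1

end Main

end Fermat.Agent.S37
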