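import Fermat.Agent.S37.BrDefs

/-!
# S37 / BM-1 : the residue field of the Gauss valuation ring `VV` (helper21)
-/

set_option autoImplicit false
set_option linter.unusedSectionVars false

noncomputable section

namespace Fermat.Agent.S37.ModRedAux

open Polynomial Fermat.Agent.S18.KL

universe uF

variable {K : Type*} [Field K] (A : ValuationSubring K)
variable {L : Type*} [Field L] [Algebra K L] (τ : L)
variable (F : Type uF) [Field F] [Algebra L F]

/-- the ideal `𝔪 VV` -/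
def mVV : Ideal (VV A τ F) where
  carrier := {x | SmV A τ F (x : F)}
  add_mem' := fun ha hb => SmV.add A ha hb
  zero_mem' := ⟨0, zero_mem _, 0, zero_mem _, by simp⟩
  smul_mem' := fun c _ hx => SmV.mul_left A hx c.2

theorem mem_mVV {x : VV A τ F} : x ∈ mVV A τ F ↔ SmV A τ F (x : F) := Iff.rfl

variable {A τ F}

theorem mVV_isMaximal [FiniteDimensional L F] (hτ : Transcendental K τ) (hgen : IsGen K τ)
    (hfld : ∀ x ∈ VV A τ F, ¬ SmV A τ F x → x⁻¹ ∈ VV A τ F) : (mVV A τ F).IsMaximal := by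
  rw [Ideal.isMaximal_iff]
  refine ⟨fun h => not_SmV_one A hτ hgen h, fun J x _ hx hxJ => ?_⟩
  have hinv := hfld x x.2 hx
  have hx0 : (x : F) ≠ 0 := by
    intro h0
    apply hx
    have : x = 0 := Subtype.ext h0
    rw [this]
    exact (mVV A τ F).zero_mem
  have h1 : (1 : VV A τ F) = ⟨(x : F)⁻¹, hinv⟩ * x := by
    apply Subtype.ext
    rw [Subring.coe_mul, Subring.coe_one, inv_mul_cancel₀ hx0]
  rw [h1]
  exact J.mul_mem_left _ hxJ

variable [Algebra K F] [IsScalarTower K L F]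

variable (A τ F) in
/-- `A → VV` -/
def toVV : A →+* VV A τ F :=
  ((algebraMap K F).comp A.subtype).codRestrict (VV A τ F)
    (fun a => C0_le_VV A τ F (algebraMap_mem_C0 A τ F a))

theorem toVV_mem {a : A} (ha : a ∈ IsLocalRing.maximalIdeal A) : toVV A τ F a ∈ mVV A τ F := by
  rw [mem_mVV]
  refine ⟨a, ha, 1, (VV A τ F).one_mem, ?_⟩
  rw [mul_one, evE_C_eq]
  rfl

theorem exists_redData [FiniteDimensional L F]
    (hτ : Transcendental K τ) (hgen : IsGen K τ)
    (hfld : ∀ x ∈ VV A τ F, ¬ SmV A τ F x → x⁻¹ ∈ VV A τ F) :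
    ∃ (Ft : Type uF) (_ : Field Ft) (_ : Algebra (kk A) Ft) (red : VV A τ F →+* Ft),
      RedData A τ F (VV A τ F) red := by
  have hmax := mVV_isMaximal hτ hgen hfld
  let _ : Field (VV A τ F ⧸ mVV A τ F) := Ideal.Quotient.field _
  let f : kk A →+* (VV A τ F ⧸ mVV A τ F) :=
    Ideal.Quotient.lift (IsLocalRing.maximalIdeal A)
      ((Ideal.Quotient.mk (mVV A τ F)).comp (toVV A τ F)) (fun a ha => by
        rw [RingHom.comp_apply, Ideal.Quotient.eq_zero_iff_mem]
        exact toVV_mem ha)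
  let _ : Algebra (kk A) (VV A τ F ⧸ mVV A τ F) := f.toAlgebra
  refine ⟨VV A τ F ⧸ mVV A τ F, inferInstance, inferInstance, Ideal.Quotient.mk (mVV A τ F),
    rfl, Ideal.Quotient.mk_surjective, fun x => ?_, fun a h => ?_, hfld⟩
  · rw [Ideal.Quotient.eq_zero_iff_mem, mem_mVV]
  · rfl

section Red

variable {Ft : Type*} [Field Ft] [Algebra (kk A) Ft] {O : Subring F} {red : O →+* Ft}

theorem red_eq_one (h : RedData A τ F O red) {x : F} (hx : x ∈ O)
    (h1 : SmV A τ F (x - 1)) : red ⟨x, hx⟩ = 1 := by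
  have : red (⟨x, hx⟩ - 1) = 0 := (h.ker _).mpr h1
  rwa [map_sub, map_one, sub_eq_zero] at this

theorem red_ne_zero [FiniteDimensional L F] (hτ : Transcendental K τ) (hgen : IsGen K τ)
    (h : RedData A τ F O red) {x : F} (hx : x ∈ O) (hx0 : x ≠ 0) (hinv : x⁻¹ ∈ VV A τ F) :
    red ⟨x, hx⟩ ≠ 0 := by
  intro h0
  have h1 : SmV A τ F x := (h.ker _).mp h0
  have h2 := SmV.mul_left A h1 hinv
  rw [inv_mul_cancel₀ hx0] at h2
  exact not_SmV_one A hτ hgen h2

theorem smV_sub_const (h : RedData A τ F O red) {x : F} (hx : x ∈ O) (a : A)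
    (he : red ⟨x, hx⟩ = algebraMap (kk A) Ft (IsLocalRing.residue A a)) :
    SmV A τ F (x - algebraMap K F (a : K)) := by
  have ha : algebraMap K F (a : K) ∈ O := h.C0_le (algebraMap_mem_C0 A τ F a)
  have : red (⟨x, hx⟩ - ⟨_, ha⟩) = 0 := by rw [map_sub, he, h.alg a ha, sub_self]
  exact (h.ker _).mp this

open AlgebraicCurve in
theorem abs_cong (h : RedData A τ F O red) (r : Place K F → Place (kk A) Ft)
    (hRED : ∀ y : O, red y ≠ 0 → ∀ D : Divisor K F, (∀ P, D P = P.ord (y : F)) →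
        ∀ x : Place (kk A) Ft, Finsupp.mapDomain r D x = x.ord (red y))
    {x : F} (hx : x ∈ O) (h1 : SmV A τ F (x - 1)) (D : Divisor K F) (hD : ∀ P, D P = P.ord x) :
    Finsupp.mapDomain r D = 0 := by
  have hred1 := red_eq_one h hx h1
  ext pl
  rw [hRED ⟨x, hx⟩ (by rw [hred1]; exact one_ne_zero) D hD pl, hred1, Place.ord_one]
  rfl

open AlgebraicCurve in
theorem abs_conv [FiniteDimensional L F] (hτ : Transcendental K τ) (hgen : IsGen K τ)
    (h : RedData A τ F O red) (r : Place K F → Place (kk A) Ft)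
    (hRED : ∀ y : O, red y ≠ 0 → ∀ D : Divisor K F, (∀ P, D P = P.ord (y : F)) →
        ∀ x : Place (kk A) Ft, Finsupp.mapDomain r D x = x.ord (red y))
    (hCONST : ∀ z : Ft, z ≠ 0 → (∀ x : Place (kk A) Ft, x.ord z = 0) →
        ∃ c : kk A, z = algebraMap (kk A) Ft c)
    {u : F} (hu : u ∈ O) (hu0 : u ≠ 0) (hinv : u⁻¹ ∈ VV A τ F) (D : Divisor K F)
    (hD : ∀ P, D P = P.ord u) (h0 : Finsupp.mapDomain r D = 0) :
    ∃ c1 : A, IsUnit c1 ∧ SmV A τ F (u - algebraMap K F (c1 : K)) := by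
  have hne := red_ne_zero hτ hgen h hu hu0 hinv
  obtain ⟨c, hc⟩ := hCONST _ hne (fun pl => by
    rw [← hRED ⟨u, hu⟩ hne D hD pl, h0]
    rfl)
  obtain ⟨c1, rfl⟩ := IsLocalRing.residue_surjective c
  refine ⟨c1, ?_, smV_sub_const h hu c1 hc⟩
  by_contra hnu
  apply hne
  rw [hc, (IsLocalRing.residue_eq_zero_iff c1).mpr ((IsLocalRing.mem_maximalIdeal c1).mpr hnu),
    map_zero]

end Red

end Fermat.Agent.S37.ModRedAux
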