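import Fermat.Agent.S37.BrMain
import Fermat.Agent.S37.Mod
import Fermat.Agent.S18.ModGood
import Fermat.Agent.S18.Haupt
import Fermat.Agent.S18.Branch
import Fermat.Agent.S18.Arch
import Fermat.Agent.ES.AlgES
import Fermat.Agent.S37.ModRedAux

/-!
# S37 / modular bridge (pieces BM-1 .. BM-4): the place reduction package `RedPkg`

Level `M = N * r`, `r ∈ {2, 3}`, `r ≠ ℓ`; `τ = tauL H hrM` (helper13), `H = haupt M r hr hrM` (helper7); `V = KL.VV A τ (FN M)`.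
`IntRed A M x z` (helper17, `ES/AlgES.lean`): `x : FN M` has coefficients in `A` and reduction `z`.

## BM-1 (abstract) `exists_redData`
`𝔪V := {x : V | SmV x}` is an ideal (`SmV.add`, `SmV.mul_left`), proper (`not_SmV_one`), and every `x ∉ 𝔪V` is a unit of `V` (`hfld`), so it is maximal;
`Ft := V ⧸ 𝔪V` (`Ideal.Quotient.field`), `red := Ideal.Quotient.mk _`; `kk A → Ft` is `Ideal.Quotient.lift (maximalIdeal A)` of
`a ↦ red (algebraMap K F a)` (`a ∈ 𝔪_A` ⟹ `SmV (algebraMap a)`: `a * 1`, `evE_C_eq`).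

## BM-2
* `mem_VV_of_intRed`, `smV_of_intRed_zero`: `S18.mem_VV_of_quot`, `S18.smV_of_quot` with `y2 = 1`.
* `inv_mem_VV_of_intRed`: `mem_VV_of_quot` for `x⁻¹ * y = 1`.  `not_smV_of_intRed`: otherwise `SmV (x⁻¹ * x)` contradicts `KL.not_SmV_one`.
* `const_mem_of_mem_VV`: `KL.mem_OG_of_algebraMap_mem_VV` + `KL.algebraMap_mem_OG_iff` (`algebraMap Kb (FN M) c = algebraMap L (FN M) (algebraMap Kb L c)`).
* `exists_quot_of_mem_VV`: `x = 0` trivial.  `ES.Alg.exists_intRed`: `x * x2 = c * x1`, `z1, z2 ≠ 0`; `c = x * x2 * x1⁻¹ ∈ V`, so `c ∈ A`;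
  replace `x1` by `c * x1` (reduction `residue c • z1`).
* `fld_mod`: with the same notation, `¬ SmV x` ⟹ `c ∉ 𝔪_A` (else `SmV (c * (x1 * x2⁻¹))`) ⟹ `c⁻¹ ∈ A` ⟹ `x⁻¹ = c⁻¹ * x2 * x1⁻¹ ∈ V`.

## BM-3
* `gal_tauF`: the `q`-expansion of `tauF (haupt ..)` is `tq Kb r` (`coeff_tauF`/`corr_tauF.qexp_eq`, `eps_tA`, `coeffMap_tq`, injectivity of `qExpand`), and
  `coeffMap σ (tq Kb r) = tq Kb r` (`coeffMap_tq`).
* `inertia_VV`: `x * x2 = x1` (`exists_quot_of_mem_VV`); `γ x * γ x2 = γ x1` and `γ x_i` has the same reduction as `x_i` (`IntRed.inertia`).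
  `γ x ∈ V` (`mem_VV_of_quot`); `(γ x - x) * (x2 * γ x2) = γ x1 * x2 - x1 * γ x2` has reduction `0`: `smV_of_quot`.

## BM-4 `exists_redPkg`
`r := if ℓ = 2 then 3 else 2`, `M := N * r`.  `exists_redData` (with `fld_mod`) + `exists_reduction` (`S18.arch`, `transcendental_tauL`, `isGen_tauL`,
`finiteDimensional_LT`, `exists_goodRed`, `Branch.exists_unit_Br` with `t = tauF`, `(corr_tauF ..).iota_eq`) give `r`, (RED), (INV), (CONST).
* `cong`: `x := incl (c * f)`, `x * y2 = y1` with equal nonzero reductions: `x ∈ V`, `SmV (x - 1)` (`smV_of_quot` for `y1 - y2`), so `red x = 1`;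
  (RED) gives `mapDomain r D' = 0` for `D' = div x`, and `D' = D` because `ord_P` of a nonzero constant is `0`.
* `conv`: `f * x2 = c * x1` (`exists_intRed`), `u := c⁻¹ * f`; `incl u`, `(incl u)⁻¹ ∈ V`, so `red (incl u) ≠ 0`; (RED) + hypothesis: `ord_x (red (incl u)) = 0`
  for all `x`; (CONST): `red (incl u) = residue c1`, `c1 ∈ Aˣ`; then `SmV (incl (x1 - c1 * x2))`, so by `not_smV_of_intRed` the reduction
  `z1 - residue c1 • z2` is `0`; `Cong.of_intRed` for `(c1⁻¹ c⁻¹) * f`, `x1`, `c1 * x2`.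
* `inv`: (INV) + `gal_tauF` + `inertia_VV` for `τ` and `τ⁻¹`.
-/

set_option autoImplicit false
set_option linter.unusedSectionVars false
set_option synthInstance.maxHeartbeats 400000

open HahnSeries ModularCurve AlgebraicCurve Polynomial
open Fermat.Agent.S24 Fermat.Agent.S29 Fermat.Agent.S18 Fermat.Agent.ES.Alg

noncomputable section

namespace Fermat.Agent.S37

universe uF in
/-- [S37/BM-1] -/
theorem exists_redData {K : Type*} [Field K] {A : ValuationSubring K}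
    {L : Type*} [Field L] [Algebra K L] {τ : L}
    {F : Type uF} [Field F] [Algebra L F] [Algebra K F] [IsScalarTower K L F] [FiniteDimensional L F]
    (hτ : Transcendental K τ) (hgen : KL.IsGen K τ)
    (hfld : ∀ x ∈ KL.VV A τ F, ¬ KL.SmV A τ F x → x⁻¹ ∈ KL.VV A τ F) :
    ∃ (Ft : Type uF) (_ : Field Ft) (_ : Algebra (KL.kk A) Ft) (red : KL.VV A τ F →+* Ft),
      RedData A τ F (KL.VV A τ F) red :=
  ModRedAux.exists_redData hτ hgen hfld

/-- constants of `A` -/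
theorem intRed_const {A : ValuationSubring Kb} {N : ℕ} (a : A) :
    IntRed A N (algebraMap Kb (FN N) (a : Kb)) (red A (HahnSeries.single 0 a)) :=
  ⟨HahnSeries.single 0 a, coeffMap_subtype_single a, rfl⟩

theorem intRed_sub {A : ValuationSubring Kb} {N : ℕ} {x x' : FN N} {r r' : LaurentSeries (kA A)}
    (h : IntRed A N x r) (h' : IntRed A N x' r') : IntRed A N (x - x') (r - r') := by
  obtain ⟨y, hy, rfl⟩ := h
  obtain ⟨y', hy', rfl⟩ := h'
  exact ⟨y - y', by rw [map_sub, hy, hy']; rfl, map_sub _ _ _⟩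

theorem coe_tauF_haupt (M r : ℕ) [NeZero M] [NeZero r] (hr : r = 2 ∨ r = 3) (hrM : r ∣ M) :
    (tauF (haupt M r hr hrM) hrM : LaurentSeries Kb) = tq Kb r := by
  ext n
  rw [coeff_tauF]
  show zk ((Fermat.Agent.S28.eps M (tA M r hr hrM)).coeff ((M : ℤ) * n)) = _
  rw [eps_tA, qExpand_coeff_mul, ← coeffMap_coeff, coeffMap_tq]

section Level

variable {M r : ℕ} [NeZero M] (H : Haupt M r) (hrM : r ∣ M) (A : ValuationSubring Kb) {l : ℕ}
  (hl : l.Prime) (hA : A.LiesOverPrime l) (hlM : ¬ l ∣ M)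

include hl hA hlM

/-- [S37/BM-2] -/
theorem mem_VV_of_intRed {x : FN M} {z : LaurentSeries (kA A)} (h : IntRed A M x z) :
    x ∈ KL.VV A (tauL H hrM) (FN M) := by
  obtain ⟨y, hy, -⟩ := h
  refine mem_VV_of_quot H hrM A hl hA hlM x y 1 ?_ ?_
  · rw [map_one, mul_one, hy]
  · rw [map_one]; exact one_ne_zero

/-- [S37/BM-2] -/
theorem smV_of_intRed_zero {x : FN M} (h : IntRed A M x 0) :
    KL.SmV A (tauL H hrM) (FN M) x := by
  obtain ⟨y, hy, hz⟩ := h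
  refine smV_of_quot H hrM A hl hA hlM x y 1 ?_ hz ?_
  · rw [map_one, mul_one, hy]
  · rw [map_one]; exact one_ne_zero

/-- [S37/BM-2] -/
theorem inv_mem_VV_of_intRed {x : FN M} {z : LaurentSeries (kA A)} (h : IntRed A M x z)
    (hz : z ≠ 0) : x⁻¹ ∈ KL.VV A (tauL H hrM) (FN M) := by
  have hx : x ≠ 0 := h.ne_zero hz
  obtain ⟨y, hy, rfl⟩ := h
  refine mem_VV_of_quot H hrM A hl hA hlM x⁻¹ 1 y ?_ hz
  rw [hy, map_one]
  have : ((x⁻¹ * x : FN M) : LaurentSeries Kb) = ((1 : FN M) : LaurentSeries Kb) := by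
    rw [inv_mul_cancel₀ hx]
  exact this

/-- [S37/BM-2] -/
theorem not_smV_of_intRed {x : FN M} {z : LaurentSeries (kA A)} (h : IntRed A M x z)
    (hz : z ≠ 0) : ¬ KL.SmV A (tauL H hrM) (FN M) x := by
  intro hs
  have hfin := finiteDimensional_LT H hrM
  have hx : x ≠ 0 := h.ne_zero hz
  have h1 := KL.SmV.mul_left A hs (inv_mem_VV_of_intRed H hrM A hl hA hlM h hz)
  rw [inv_mul_cancel₀ hx] at h1
  exact KL.not_SmV_one A (transcendental_tauL H hrM) (isGen_tauL H hrM) h1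

/-- [S37/BM-2] -/
theorem const_mem_of_mem_VV {c : Kb} (h : algebraMap Kb (FN M) c ∈ KL.VV A (tauL H hrM) (FN M)) :
    c ∈ A := by
  have hfin := finiteDimensional_LT H hrM
  have h1 : algebraMap (LT H hrM) (FN M) (algebraMap Kb (LT H hrM) c) ∈
      KL.VV A (tauL H hrM) (FN M) := by
    rw [← IsScalarTower.algebraMap_apply]; exact h
  exact (KL.algebraMap_mem_OG_iff A (transcendental_tauL H hrM) c).1
    (KL.mem_OG_of_algebraMap_mem_VV A (transcendental_tauL H hrM) (isGen_tauL H hrM) h1)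

/-- [S37/BM-2] -/
theorem exists_quot_of_mem_VV {x : FN M} (hx : x ∈ KL.VV A (tauL H hrM) (FN M)) :
    ∃ (x1 x2 : FN M) (z1 z2 : LaurentSeries (kA A)), IntRed A M x1 z1 ∧ IntRed A M x2 z2 ∧
      z2 ≠ 0 ∧ x * x2 = x1 := by
  by_cases hx0 : x = 0
  · refine ⟨0, 1, 0, 1, ⟨0, by rw [map_zero]; rfl, map_zero _⟩, ⟨1, by rw [map_one]; rfl, map_one _⟩,
      one_ne_zero, by rw [hx0, zero_mul]⟩
  obtain ⟨c, x1, x2, z1, z2, hc, h1, h2, hz1, hz2, hmul⟩ := exists_intRed A x hx0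
  have hx1 : x1 ≠ 0 := h1.ne_zero hz1
  have hcV : algebraMap Kb (FN M) c ∈ KL.VV A (tauL H hrM) (FN M) := by
    have : algebraMap Kb (FN M) c = x * x2 * x1⁻¹ := by
      rw [hmul, mul_assoc, mul_inv_cancel₀ hx1, mul_one]
    rw [this]
    exact mul_mem (mul_mem hx (mem_VV_of_intRed H hrM A hl hA hlM h2))
      (inv_mem_VV_of_intRed H hrM A hl hA hlM h1 hz1)
  have hcA := const_mem_of_mem_VV H hrM A hl hA hlM hcV
  exact ⟨_, x2, _, z2, (intRed_const (N := M) (⟨c, hcA⟩ : A)).mul h1, h2, hz2, hmul⟩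

/-- [S37/BM-2] -/
theorem fld_mod : ∀ x ∈ KL.VV A (tauL H hrM) (FN M), ¬ KL.SmV A (tauL H hrM) (FN M) x →
    x⁻¹ ∈ KL.VV A (tauL H hrM) (FN M) := by
  intro x hx hs
  have hx0 : x ≠ 0 := by
    rintro rfl
    exact hs ⟨0, zero_mem _, 0, zero_mem _, by rw [mul_zero]⟩
  obtain ⟨c, x1, x2, z1, z2, hc, h1, h2, hz1, hz2, hmul⟩ := exists_intRed A x hx0
  have hx1 : x1 ≠ 0 := h1.ne_zero hz1
  have hx2 : x2 ≠ 0 := h2.ne_zero hz2
  have hcV : algebraMap Kb (FN M) c ∈ KL.VV A (tauL H hrM) (FN M) := by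
    have : algebraMap Kb (FN M) c = x * x2 * x1⁻¹ := by
      rw [hmul, mul_assoc, mul_inv_cancel₀ hx1, mul_one]
    rw [this]
    exact mul_mem (mul_mem hx (mem_VV_of_intRed H hrM A hl hA hlM h2))
      (inv_mem_VV_of_intRed H hrM A hl hA hlM h1 hz1)
  have hcA := const_mem_of_mem_VV H hrM A hl hA hlM hcV
  have hxe : x = algebraMap Kb (FN M) c * (x1 * x2⁻¹) := by
    rw [← mul_assoc, ← hmul, mul_assoc, mul_inv_cancel₀ hx2, mul_one]
  have hcm : (⟨c, hcA⟩ : A) ∉ IsLocalRing.maximalIdeal A := by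
    intro hm
    refine hs ⟨⟨c, hcA⟩, hm, x1 * x2⁻¹, mul_mem (mem_VV_of_intRed H hrM A hl hA hlM h1)
      (inv_mem_VV_of_intRed H hrM A hl hA hlM h2 hz2), ?_⟩
    rw [evE_C_eq]
    exact hxe
  have hcu : IsUnit (⟨c, hcA⟩ : A) := by
    by_contra hnu
    exact hcm ((IsLocalRing.mem_maximalIdeal _).2 hnu)
  obtain ⟨d, hd⟩ := hcu.exists_right_inv
  have hd' : c * (d : Kb) = 1 := congrArg Subtype.val hd
  have hxi : x⁻¹ = algebraMap Kb (FN M) (d : Kb) * (x2 * x1⁻¹) := by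
    apply inv_eq_of_mul_eq_one_right
    rw [hxe]
    calc algebraMap Kb (FN M) c * (x1 * x2⁻¹) * (algebraMap Kb (FN M) (d : Kb) * (x2 * x1⁻¹))
        = algebraMap Kb (FN M) (c * (d : Kb)) * ((x1 * x1⁻¹) * (x2 * x2⁻¹)) := by
          rw [map_mul]; ring
      _ = 1 := by rw [hd', map_one, mul_inv_cancel₀ hx1, mul_inv_cancel₀ hx2, mul_one, mul_one]
  rw [hxi]
  exact mul_mem (mem_VV_of_intRed H hrM A hl hA hlM (intRed_const (N := M) d))
    (mul_mem (mem_VV_of_intRed H hrM A hl hA hlM h2)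
      (inv_mem_VV_of_intRed H hrM A hl hA hlM h1 hz1))

/-- [S37/BM-3] -/
theorem inertia_VV {τ0 : GQ} (hτ0 : τ0 ∈ A.inertiaSubgroupIn ℚ) :
    ∀ x ∈ KL.VV A (tauL H hrM) (FN M),
      arithmeticGalois (modularFunctionFieldFull M) τ0 • x ∈ KL.VV A (tauL H hrM) (FN M) ∧
      KL.SmV A (tauL H hrM) (FN M) (arithmeticGalois (modularFunctionFieldFull M) τ0 • x - x) := by
  intro x hx
  obtain ⟨x1, x2, z1, z2, h1, h2, hz2, hmul⟩ := exists_quot_of_mem_VV H hrM A hl hA hlM hx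
  show gal M τ0 x ∈ KL.VV A (tauL H hrM) (FN M) ∧
    KL.SmV A (tauL H hrM) (FN M) (gal M τ0 x - x)
  have g1 := h1.inertia hτ0
  have g2 := h2.inertia hτ0
  have hx2 : x2 ≠ 0 := h2.ne_zero hz2
  have hgx2 : gal M τ0 x2 ≠ 0 := g2.ne_zero hz2
  have hgmul : gal M τ0 x * gal M τ0 x2 = gal M τ0 x1 := by rw [← map_mul, hmul]
  have e1 : gal M τ0 x = gal M τ0 x1 * (gal M τ0 x2)⁻¹ := by
    rw [← hgmul, mul_assoc, mul_inv_cancel₀ hgx2, mul_one]
  have e2 : x = x1 * x2⁻¹ := by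
    rw [← hmul, mul_assoc, mul_inv_cancel₀ hx2, mul_one]
  have i1 := inv_mem_VV_of_intRed H hrM A hl hA hlM g2 hz2
  have i2 := inv_mem_VV_of_intRed H hrM A hl hA hlM h2 hz2
  refine ⟨?_, ?_⟩
  · rw [e1]
    exact mul_mem (mem_VV_of_intRed H hrM A hl hA hlM g1) i1
  · have e3 : gal M τ0 x - x =
        ((gal M τ0 x2)⁻¹ * x2⁻¹) * (gal M τ0 x1 * x2 - x1 * gal M τ0 x2) := by
      rw [e1, e2]
      field_simp
    rw [e3]
    refine KL.SmV.mul_left A ?_ (mul_mem i1 i2)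
    apply smV_of_intRed_zero H hrM A hl hA hlM
    have := intRed_sub (g1.mul h2) (h1.mul g2)
    rwa [mul_comm z1 z2, sub_self] at this

end Level

/-- [S37/BM-3] -/
theorem gal_tauF (M r : ℕ) [NeZero M] [NeZero r] (hr : r = 2 ∨ r = 3) (hrM : r ∣ M) (τ0 : GQ) :
    arithmeticGalois (modularFunctionFieldFull M) τ0 • tauF (haupt M r hr hrM) hrM =
      tauF (haupt M r hr hrM) hrM := by
  apply Subtype.ext
  rw [coe_arithmeticGalois_smul, coe_tauF_haupt, coeffMap_tq]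

/-- the modular place reduction package -/
structure RedPkg (N : ℕ) [NeZero N] (A : ValuationSubring Kb) (M : ℕ) [NeZero M] (hNM : N ∣ M)
    {X : Type*} (r : Place Kb (FN M) → X) : Prop where
  cong : ∀ (f : FN N) (c : Kb), c ≠ 0 → Cong A N (algebraMap Kb (FN N) c * f) →
    ∀ D : Divisor Kb (FN M), (∀ P, D P = P.ord (incl hNM f)) → Finsupp.mapDomain r D = 0
  conv : ∀ f : FN N, f ≠ 0 → ∀ D : Divisor Kb (FN M), (∀ P, D P = P.ord (incl hNM f)) →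
    Finsupp.mapDomain r D = 0 → ∃ c : Kb, c ≠ 0 ∧ Cong A N (algebraMap Kb (FN N) c * f)
  inv : ∀ τ0 ∈ A.inertiaSubgroupIn ℚ, ∀ P : Place Kb (FN M),
    r (arithmeticGalois (modularFunctionFieldFull M) τ0 • P) = r P

namespace RedPkgAux

theorem inv_natCast_mem (A : ValuationSubring Kb) {ℓ : ℕ} (hℓ : ℓ.Prime) (hA : A.LiesOverPrime ℓ)
    {n : ℕ} (hn : ¬ ℓ ∣ n) : ((n : Kb))⁻¹ ∈ A := by
  have h1 : ¬ (ℓ : ℤ) ∣ (n : ℤ) := by exact_mod_cast hn
  obtain ⟨u, hu⟩ := Arch.isUnit_intCast A hℓ hA h1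
  have h2 : ((u : A) : Kb) = (n : Kb) := by rw [hu]; simp
  have h3 : (((u⁻¹ : Aˣ) : A) : Kb) = ((n : Kb))⁻¹ := by
    rw [← h2]
    apply eq_inv_of_mul_eq_one_left
    exact congrArg Subtype.val u.inv_mul
  rw [← h3]
  exact ((u⁻¹ : Aˣ) : A).2

variable {A : ValuationSubring Kb} {N M : ℕ} [NeZero N] [NeZero M]

theorem intRed_incl (h : N ∣ M) {x : FN N} {z : LaurentSeries (kA A)} (hx : IntRed A N x z) :
    IntRed A M (incl h x) z := by
  obtain ⟨y, hy, hz⟩ := hx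
  exact ⟨y, by rw [hy, coe_incl], hz⟩

section Level

variable {r0 : ℕ} (H : Haupt M r0) (hrM : r0 ∣ M) {ℓ : ℕ}
  (hℓ : ℓ.Prime) (hA : A.LiesOverPrime ℓ) (hℓM : ¬ ℓ ∣ M) (hNM : N ∣ M)

include hℓ hA hℓM

/-- the concrete input of `cong` -/
theorem cong_input {g : FN N} (hg : Cong A N g) :
    incl hNM g ∈ KL.VV A (tauL H hrM) (FN M) ∧ KL.SmV A (tauL H hrM) (FN M) (incl hNM g - 1) := by
  obtain ⟨y1, y2, -, -, hmul, h12, h2⟩ := hg
  have hxc : (incl hNM g : LaurentSeries Kb) = (g : LaurentSeries Kb) := coe_incl _ _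
  refine ⟨mem_VV_of_quot H hrM A hℓ hA hℓM _ y1 y2 (by rw [hxc]; exact hmul) h2,
    smV_of_quot H hrM A hℓ hA hℓM _ (y1 - y2) y2 ?_ (by rw [map_sub, h12, sub_self]) h2⟩
  rw [map_sub, ← hmul, ← hxc]
  push_cast
  ring

/-- the concrete input of `conv` -/
theorem conv_input {f : FN N} (hf : f ≠ 0) :
    ∃ c : Kb, c ≠ 0 ∧ incl hNM (algebraMap Kb (FN N) c * f) ∈ KL.VV A (tauL H hrM) (FN M) ∧
      (incl hNM (algebraMap Kb (FN N) c * f))⁻¹ ∈ KL.VV A (tauL H hrM) (FN M) ∧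
      ∀ c1 : A, IsUnit c1 →
        KL.SmV A (tauL H hrM) (FN M)
          (incl hNM (algebraMap Kb (FN N) c * f) - algebraMap Kb (FN M) (c1 : Kb)) →
        ∃ c' : Kb, c' ≠ 0 ∧ Cong A N (algebraMap Kb (FN N) c' * f) := by
  obtain ⟨c, x1, x2, r1, r2, hc, h1, h2, hr1, hr2, hmul⟩ := exists_intRed A f hf
  have hx1 : x1 ≠ 0 := h1.ne_zero hr1
  have hx2 : x2 ≠ 0 := h2.ne_zero hr2
  have hc' : algebraMap Kb (FN N) c ≠ 0 := by rw [Ne, map_eq_zero]; exact hc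
  have hu : algebraMap Kb (FN N) c⁻¹ * f = x1 * x2⁻¹ := by
    rw [map_inv₀]
    field_simp
    rw [hmul, mul_comm]
  have i1 := intRed_incl hNM h1
  have i2 := intRed_incl hNM h2
  refine ⟨c⁻¹, inv_ne_zero hc, ?_, ?_, ?_⟩
  · rw [hu, map_mul, map_inv₀]
    exact mul_mem (mem_VV_of_intRed H hrM A hℓ hA hℓM i1)
      (inv_mem_VV_of_intRed H hrM A hℓ hA hℓM i2 hr2)
  · rw [hu, map_mul, map_inv₀, mul_inv, inv_inv]
    exact mul_mem (inv_mem_VV_of_intRed H hrM A hℓ hA hℓM i1 hr1)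
      (mem_VV_of_intRed H hrM A hℓ hA hℓM i2)
  · intro c1 hc1 hs
    have hc10 : (c1 : Kb) ≠ 0 := fun h => hc1.ne_zero (Subtype.ext h)
    have hs2 := KL.SmV.mul_left A hs (mem_VV_of_intRed H hrM A hℓ hA hℓM i2)
    have e : incl hNM x2 * (incl hNM (algebraMap Kb (FN N) c⁻¹ * f) - algebraMap Kb (FN M) (c1 : Kb))
        = incl hNM (x1 - algebraMap Kb (FN N) (c1 : Kb) * x2) := by
      rw [hu, map_sub, map_mul, map_mul, map_inv₀, AlgHom.commutes]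
      have : incl hNM x2 ≠ 0 := by rw [Ne, map_eq_zero]; exact hx2
      field_simp
    rw [e] at hs2
    have i3 : IntRed A N (algebraMap Kb (FN N) (c1 : Kb) * x2)
        (ES.Alg.red A (HahnSeries.single 0 c1) * r2) := (intRed_const c1).mul h2
    have i4 := intRed_incl hNM (intRed_sub h1 i3)
    have hz : r1 - ES.Alg.red A (HahnSeries.single 0 c1) * r2 = 0 := by
      by_contra hne
      exact not_smV_of_intRed H hrM A hℓ hA hℓM i4 hne hs2
    rw [sub_eq_zero] at hz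
    rw [← hz] at i3
    refine ⟨(c1 : Kb)⁻¹ * c⁻¹, mul_ne_zero (inv_ne_zero hc10) (inv_ne_zero hc), ?_⟩
    refine Cong.of_intRed h1 i3 hr1 ?_
    have hc1' : algebraMap Kb (FN N) (c1 : Kb) ≠ 0 := by rw [Ne, map_eq_zero]; exact hc10
    have e2 : algebraMap Kb (FN N) ((c1 : Kb)⁻¹ * c⁻¹) * f * (algebraMap Kb (FN N) (c1 : Kb) * x2) =
        algebraMap Kb (FN N) (c1 : Kb)⁻¹ * algebraMap Kb (FN N) (c1 : Kb) *
          ((algebraMap Kb (FN N) c⁻¹ * f) * x2) := by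
      rw [map_mul]; ring
    rw [e2, hu, map_inv₀, inv_mul_cancel₀ hc1', one_mul, mul_assoc, inv_mul_cancel₀ hx2, mul_one]

end Level

end RedPkgAux

open RedPkgAux in
theorem redPkg_level (N : ℕ) [NeZero N] {ℓ : ℕ} (hℓ : ℓ.Prime)
    (A : ValuationSubring Kb) (hA : A.LiesOverPrime ℓ) (M r0 : ℕ) [NeZero M] [NeZero r0]
    (hr : r0 = 2 ∨ r0 = 3) (hrM : r0 ∣ M) (hℓM : ¬ ℓ ∣ M) (hNM : N ∣ M) :
    ∃ (X : Type) (r : Place Kb (FN M) → X), RedPkg N A M hNM r := by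
  let H : Haupt M r0 := haupt M r0 hr hrM
  have hfin := finiteDimensional_LT H hrM
  have hτ := transcendental_tauL H hrM
  have hgen := isGen_tauL H hrM
  obtain ⟨G⟩ := exists_goodRed H hrM A hℓ hA hℓM
  have hrl : ¬ ℓ ∣ r0 := fun h => hℓM (h.trans hrM)
  obtain ⟨c0, hc0, hbr⟩ := Branch.exists_unit_Br hr hrM H A (inv_natCast_mem A hℓ hA hrl)
    (tauF H hrM) (corr_tauF H hrM).iota_eq
  obtain ⟨Ft, _, _, red, hRD⟩ := exists_redData hτ hgen (fld_mod H hrM A hℓ hA hℓM)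
  obtain ⟨r, hRED, hINV, hCONST⟩ :=
    exists_reduction (Arch.arch A hℓ hA) hτ hgen G c0 hc0 hbr hRD
  have hord : ∀ (f : FN N) (c : Kb), c ≠ 0 → f ≠ 0 → ∀ P : Place Kb (FN M),
      P.ord (incl hNM (algebraMap Kb (FN N) c * f)) = P.ord (incl hNM f) := by
    intro f c hc hf0 P
    have hc' : algebraMap Kb (FN M) c ≠ 0 := by rw [Ne, map_eq_zero]; exact hc
    have hf' : incl hNM f ≠ 0 := by rw [Ne, map_eq_zero]; exact hf0
    rw [map_mul, AlgHom.commutes, P.ord_mul hc' hf', Diff.ord_algebraMap, zero_add]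
  refine ⟨Place (KL.kk A) Ft, r, ?_, ?_, ?_⟩
  · intro f c hc hcong D hD
    have hf0 : f ≠ 0 := right_ne_zero_of_mul hcong.ne_zero
    obtain ⟨hxV, hx1⟩ := cong_input H hrM hℓ hA hℓM hNM hcong
    exact ModRedAux.abs_cong hRD r hRED hxV hx1 D (fun P => by rw [hD P, hord f c hc hf0 P])
  · intro f hf D hD h0
    obtain ⟨c, hc, hu, hinv, hfin⟩ := conv_input (A := A) H hrM hℓ hA hℓM hNM hf
    have hu0 : incl hNM (algebraMap Kb (FN N) c * f) ≠ 0 := by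
      rw [Ne, map_eq_zero]
      exact mul_ne_zero (by rw [Ne, map_eq_zero]; exact hc) hf
    obtain ⟨c1, hc1, hs⟩ := ModRedAux.abs_conv hτ hgen hRD r hRED hCONST hu hu0 hinv D
      (fun P => by rw [hD P, hord f c hc hf P]) h0
    exact hfin c1 hc1 hs
  · intro τ0 hτ0 P
    refine hINV (arithmeticGalois (modularFunctionFieldFull M) τ0) ?_
      (inertia_VV H hrM A hℓ hA hℓM hτ0) ?_ P
    · rw [algebraMap_tauL]
      exact gal_tauF M r0 hr hrM τ0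
    · rw [← map_inv]
      exact inertia_VV H hrM A hℓ hA hℓM (inv_mem hτ0)

/-- [S37/BM-4] -/
theorem exists_redPkg (N ℓ : ℕ) [NeZero N] (hℓ : ℓ.Prime) (hN : ¬ ℓ ∣ N)
    (A : ValuationSubring Kb) (hA : A.LiesOverPrime ℓ) :
    ∃ (M : ℕ) (_ : NeZero M) (hNM : N ∣ M) (X : Type) (r : Place Kb (FN M) → X),
      RedPkg N A M hNM r := by
  obtain ⟨r0, hr, hrℓ⟩ : ∃ r0 : ℕ, (r0 = 2 ∨ r0 = 3) ∧ r0 ≠ ℓ := by
    by_cases h2 : ℓ = 2
    · exact ⟨3, Or.inr rfl, by omega⟩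
    · exact ⟨2, Or.inl rfl, fun h => h2 h.symm⟩
  have hrp : r0.Prime := by rcases hr with rfl | rfl <;> norm_num
  have : NeZero r0 := ⟨hrp.ne_zero⟩
  have hM : NeZero (N * r0) := ⟨mul_ne_zero (NeZero.ne N) hrp.ne_zero⟩
  have hℓM : ¬ ℓ ∣ N * r0 := by
    intro h
    rcases (hℓ.dvd_mul).mp h with h1 | h1
    · exact hN h1
    · exact hrℓ ((Nat.prime_dvd_prime_iff_eq hℓ hrp).mp h1).symm
  obtain ⟨X, r, h⟩ := redPkg_level N hℓ A hA (N * r0) r0 hr (dvd_mul_left r0 N) hℓM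
    (dvd_mul_right N r0)
  exact ⟨N * r0, hM, dvd_mul_right N r0, X, r, h⟩

end Fermat.Agent.S37
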