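import Fermat.Agent.S37.Alg
import Fermat.Agent.S37.MainAbs
import Fermat.Agent.S37.ModRed
import Fermat.Agent.Lib.Frobenius
import Fermat.Prelude.Def_ModularCurve_HeckeModule

/-!
# S37 / MAIN : final wiring (helper2)
-/

set_option autoImplicit false
set_option linter.style.haveILetI false
set_option synthInstance.maxHeartbeats 400000

open HahnSeries ModularCurve AlgebraicCurve
open Fermat.Agent.S24 Fermat.Agent.S29 Fermat.Agent.S18 Fermat.Agent.ES.Alg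

noncomputable section

namespace Fermat.Agent.S37

theorem intertwines_incl {N M : ℕ} [NeZero N] [NeZero M] (h : N ∣ M) (τ : GQ) :
    SemilinearAut.IntertwinesAlong ((incl h : FN N →ₐ[Kb] FN M) : FN N →+* FN M)
      (arithmeticGalois (modularFunctionFieldFull N) τ)
      (arithmeticGalois (modularFunctionFieldFull M) τ) := by
  intro x
  apply Subtype.ext
  have h1 : (((incl h : FN N →ₐ[Kb] FN M) : FN N →+* FN M) x) = incl h x := rfl
  have h2 : (((incl h : FN N →ₐ[Kb] FN M) : FN N →+* FN M)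
      (arithmeticGalois (modularFunctionFieldFull N) τ • x)) =
      incl h (arithmeticGalois (modularFunctionFieldFull N) τ • x) := rfl
  rw [h1, h2, coe_arithmeticGalois_smul, coe_incl, coe_incl, coe_arithmeticGalois_smul]

theorem key_modular (N : ℕ) [NeZero N] (ℓ : ℕ) [NeZero ℓ] (hℓ : ℓ.Prime) (hN : ¬ ℓ ∣ N)
    (A : ValuationSubring Kb) (hA : A.LiesOverPrime ℓ) (hKL : KLStatement N ℓ A)
    (σ : GQ) (hσ : A.IsFrobeniusAt σ ℓ) (m : ℕ) (hm : ¬ ℓ ∣ m) (x : JZero N) (hx : m • x = 0)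
    (hxW : x ∈ AddSubgroup.closure
      ({y | ∃ τ ∈ A.inertiaSubgroupIn ℚ, ∃ z : JZero N, y = τ • z - z} ∪
        {y | ∃ z : JZero N, y = σ • σ • z - heckeOperatorAlong Kb N ℓ (σ • z) + ℓ • z})) :
    x = 0 := by
  obtain ⟨M, hM, hNM, X, r, pkg⟩ := exists_redPkg N ℓ hℓ hN A hA
  obtain ⟨hα, hβ, hP, hfin, hFI, hNF⟩ := heckeInputsAlong N ℓ hℓ hN
  haveI := hP
  haveI : HasPrincipalDivisors Kb (FN M) := (isFF_FN M).hasPrincipalDivisors
  have hπfin : FiniteAlong Kb (incl hNM) := finiteAlong_incl hNM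
  have hπ : (incl hNM).toRingHom.IsIntegral := isIntegral_of_finiteAlong _ hπfin
  have hFIπ : FundamentalIdentityAlong Kb (incl hNM) hπ :=
    (isFF_FN N).fundamentalIdentityAlong _ hπfin _
  have hm0 : m ≠ 0 := by
    rintro rfl
    exact hm (dvd_zero ℓ)
  refine key_abstract (isFF_FN N) (isFF_FN M) (heckeAlphaBar Kb N ℓ) (heckeBetaBar Kb N ℓ)
    hα hβ hFI hfin hNF (incl hNM) hπ hFIπ r
    (arithmeticGalois (modularFunctionFieldFull N) σ)
    ((arithmeticGalois (modularFunctionFieldFull N)) '' (A.inertiaSubgroupIn ℚ : Set GQ))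
    ℓ m hm0 ?_ ?_ ?_ x hx ?_
  · rintro _ ⟨τ, hτ, rfl⟩
    exact ⟨arithmeticGalois (modularFunctionFieldFull M) τ, intertwines_incl hNM τ, pkg.inv τ hτ⟩
  · intro u hu D hD
    obtain ⟨c, hc, hcong⟩ := cong_frob hℓ hN hA hσ u hu
    refine pkg.cong _ c hc hcong D ?_
    intro P
    rw [hD P, ← map_inv]
    rfl
  · intro f hf hdiv hD
    obtain ⟨D, hD1, -⟩ := HasPrincipalDivisors.exists_divisor (K := Kb) (incl hNM f)
      (by simpa using hf)
    obtain ⟨c, hc, hcong⟩ := pkg.conv f hf D hD1 (hD D hD1)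
    exact KL_general hKL m hm f ⟨hf, hdiv⟩ c hc hcong
  · rw [heckeOperatorAlong_eq hα hβ hFI hfin hNF] at hxW
    refine AddSubgroup.closure_mono ?_ hxW
    rintro y (⟨τ, hτ, z, rfl⟩ | ⟨z, rfl⟩)
    · exact Or.inl ⟨_, ⟨τ, hτ, rfl⟩, z, rfl⟩
    · exact Or.inr ⟨z, rfl⟩

/-- the frozen statement, modulo (KL) -/
theorem result_of_KL (N p : ℕ) [NeZero N]
    (hKL : ∀ ℓ : ℕ, ℓ.Prime → ¬ ℓ ∣ N → ∀ A : ValuationSubring Kb, A.LiesOverPrime ℓ →
      KLStatement N ℓ A)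
    (hcomm : ModularCurve.HeckeOperatorsCommuteBar N) :
    letI := ModularCurve.heckeModuleBar N
    ∀ (_ : SMulCommClass (AlgebraicClosure ℚ ≃ₐ[ℚ] AlgebraicClosure ℚ) ModularCurve.HeckeAlg
      (ModularCurve.JZero N)),
      ModularCurve.SpecializationExists (K := ℚ) (L := AlgebraicClosure ℚ) N p
        (ModularCurve.JZero N) := by
  letI := ModularCurve.heckeModuleBar N
  intro _
  refine specializationExists_of_key N p (JZero N)
    (fun ℓ hℓ A hA => Fermat.Agent.Frob.exists_isFrobeniusAt A hℓ hA) ?_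
  rintro ℓ hℓ hnd A hA σ hσ x ⟨n, hn⟩ hxW
  haveI : NeZero ℓ := ⟨hℓ.ne_zero⟩
  have hN : ¬ ℓ ∣ N := fun h => hnd (h.mul_right p)
  have hp : ¬ ℓ ∣ p := fun h => hnd (h.mul_left N)
  have hm : ¬ ℓ ∣ p ^ n := fun h => hp (hℓ.dvd_of_dvd_pow h)
  refine key_modular N ℓ hℓ hN A hA (hKL ℓ hℓ hN A hA) σ hσ (p ^ n) hm x hn ?_
  refine AddSubgroup.closure_mono ?_ hxW
  rintro y (⟨τ, hτ, z, rfl⟩ | ⟨z, rfl⟩)
  · exact Or.inl ⟨τ, hτ, z, rfl⟩
  · refine Or.inr ⟨z, ?_⟩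
    have h1 := heckeModuleBar_heckeGen_smul hcomm (⟨ℓ, hℓ⟩ : Nat.Primes) (σ • z)
    have h2 := heckeOperatorBar_apply N (⟨ℓ, hℓ⟩ : Nat.Primes) (σ • z)
    exact congrArg (fun w => σ • σ • z - w + ℓ • z) (h1.trans h2)

end Fermat.Agent.S37
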