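import Fermat.Agent.S37.Mod
import Fermat.Agent.ES.AlgSeries
import Fermat.Agent.S24.Embed
import Fermat.Prelude.Def_EllipticCurve_FrobeniusTrace
import Fermat.Prelude.Def_ModularCurve_ReductionModL

/-!
# S37, pieces NQ-a, NQ-b: the `q`-expansion of `N_α (β g)` and its reduction

`α = heckeAlphaBar`, `β = heckeBetaBar : F_N → F_{Nℓ}`, `W` = Atkin–Lehner (`exists_atkinLehner`),
`normAlpha` = norm of `F_{Nℓ}` over `α F_N`.

## NQ-a   `(N_α h)(q^ℓ) = h(q^ℓ) * ∏_{b < ℓ} (W h)(ζ^b q)`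
`Ω := LaurentSeries Kb`, an `F_N`-algebra via `f ↦ f(q^ℓ)` (`qExpand Kb ℓ`).  The `ℓ + 1` maps `F_{Nℓ} → Ω`
 `e_∞ h = h(q^ℓ)`,  `e_b h = twist (ζ^b) (W h)`  (`b < ℓ`)
are `F_N`-algebra homs (`e_b (α f) = twist (ζ^b) (f(q^ℓ)) = f(q^ℓ)` since `ζ^ℓ = 1`) and pairwise distinct: evaluate at
`β j` (`j = jN N`): `e_b (β j) = j(ζ^b q)` has `q⁻¹`-coefficient `ζ^(-b)`, `e_∞ (β j) = j(q^(ℓ^2))` has order `-ℓ^2`.
`[F_{Nℓ} : F_N] = ℓ + 1` (`finrankAlong_alpha`), char. 0: after composing with `Ω → AlgebraicClosure Ω` these are ALL the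
embeddings (`AlgHom.card`), and `Algebra.norm_eq_prod_embeddings` gives the formula
(general lemma `norm_eq_prod_of_injective` below).

## NQ-b   reduction
`g = y_K`, `y ∈ A((q))`.  By NQ-a with `h = β g`: `(N_α β g)(q^ℓ) = g(q^(ℓ^2)) ∏_b g(ζ^b q)`.  All factors have coefficients
in `A` (`ζ ∈ A`, integral), so `N_α β g` has coefficients in `A` (compare coefficients of `q^(ℓ n)`).
`ζ ≡ 1 mod 𝔪_A` (`ζ^ℓ = 1` in the residue field of characteristic `ℓ`), so `red (g(ζ^b q)) = red g =: z`, and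
`z ^ ℓ = (Frob z)(q^ℓ)` (`pow_char_eq`).  Hence `red (N_α β g)(q^ℓ) = z(q^(ℓ^2)) (Frob z)(q^ℓ)`, i.e.
`red (N_α β g) = z(q^ℓ) * Frob z` (`qExpand_injective`).
On the other side `σ g` has reduction `Frob z` (`IsFrobeniusAt`; `S29.AbstractAux.frob_sub_mem`), `σ⁻¹ g` has a reduction
`z₁` with `Frob z₁ = z`, and `z₁ ^ ℓ = (Frob z₁)(q^ℓ) = z(q^ℓ)`.
-/

set_option autoImplicit false
set_option linter.style.haveILetI false

open ModularCurve AlgebraicCurve IntermediateField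
open Fermat.Agent.S24

namespace Fermat.Agent.S37

/-- `f(q) ↦ f(c q)` -/
noncomputable def twistFun {R : Type*} [CommRing R] (c : Rˣ) (f : LaurentSeries R) :
    LaurentSeries R where
  coeff n := ((c ^ n : Rˣ) : R) * f.coeff n
  isPWO_support' := f.isPWO_support.mono fun n hn => by
    simp only [Function.mem_support, ne_eq] at hn
    exact fun h => hn (by rw [h, mul_zero])

@[simp] theorem twistFun_coeff {R : Type*} [CommRing R] (c : Rˣ) (f : LaurentSeries R) (n : ℤ) :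
    (twistFun c f).coeff n = ((c ^ n : Rˣ) : R) * f.coeff n := rfl

/-- the norm of `F_{Nℓ}` over `F_N` (along `α`) -/
noncomputable def normAlpha (N ℓ : ℕ) [NeZero N] [NeZero ℓ] (h : FN (N * ℓ)) : FN N :=
  letI := algebraAlong (heckeAlphaBar Kb N ℓ)
  Algebra.norm (FN N) h

/-- [S37/NQ-a] general lemma -/
theorem norm_eq_prod_of_injective {F E Ω ι : Type*} [Field F] [Field E] [Field Ω] [Algebra F E]
    [Algebra F Ω] [FiniteDimensional F E] [Algebra.IsSeparable F E] [Fintype ι]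
    (e : ι → E →ₐ[F] Ω) (he : Function.Injective e) (hcard : Fintype.card ι = Module.finrank F E)
    (x : E) : algebraMap F Ω (Algebra.norm F x) = ∏ i, e i x := by
  have hpos : 0 < Fintype.card ι := hcard ▸ Module.finrank_pos
  obtain ⟨i⟩ := Fintype.card_pos_iff.mp hpos
  have h := S24.norm_eq_prod_of_card (E := F) (F := E) (L := Ω) (fun j => (e j : E →+* Ω))
    (fun j k hjk => he (AlgHom.coe_ringHom_injective hjk)) hcard
    (fun j k a => by
      show e j (algebraMap F E a) = e k (algebraMap F E a)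
      rw [(e j).commutes, (e k).commutes]) i x
  have h2 : (e i : E →+* Ω) (algebraMap F E (Algebra.norm F x)) =
      algebraMap F Ω (Algebra.norm F x) := (e i).commutes _
  rw [← h2, h]
  rfl

theorem twistFun_eq_twist {R : Type*} [CommRing R] (c : Rˣ) (f : LaurentSeries R) :
    twistFun c f = ES.Alg.twist c f := rfl

theorem coeff_jN_neg_one (N : ℕ) : ((jN N : FN N) : LaurentSeries Kb).coeff (-1) = 1 := by
  show (coeffEmb Kb (qExpand ℚ 1 jq)).coeff (-1) = 1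
  rw [qExpand_one_apply, coeffEmb_coeff, coeff_jq_neg_one, map_one]

/-- the `ℓ + 1` embeddings of `F_{Nℓ}` into `Kb((q))` -/
noncomputable def embQ (N ℓ : ℕ) [NeZero N] [NeZero ℓ] (W : FN (N * ℓ) ≃ₐ[Kb] FN (N * ℓ))
    (ζ : Kbˣ) : Option (Fin ℓ) → FN (N * ℓ) →+* LaurentSeries Kb
  | none => (qExpand Kb ℓ).comp (algebraMap (FN (N * ℓ)) (LaurentSeries Kb))
  | some b => (ES.Alg.twist (ζ ^ (b : ℕ))).comp
      ((algebraMap (FN (N * ℓ)) (LaurentSeries Kb)).comp (W : FN (N * ℓ) →+* FN (N * ℓ)))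

theorem embQ_none (N ℓ : ℕ) [NeZero N] [NeZero ℓ] (W : FN (N * ℓ) ≃ₐ[Kb] FN (N * ℓ))
    (ζ : Kbˣ) (h : FN (N * ℓ)) : embQ N ℓ W ζ none h = qExpand Kb ℓ (h : LaurentSeries Kb) := rfl

theorem embQ_some (N ℓ : ℕ) [NeZero N] [NeZero ℓ] (W : FN (N * ℓ) ≃ₐ[Kb] FN (N * ℓ))
    (ζ : Kbˣ) (b : Fin ℓ) (h : FN (N * ℓ)) :
    embQ N ℓ W ζ (some b) h = ES.Alg.twist (ζ ^ (b : ℕ)) (W h : LaurentSeries Kb) := rfl

theorem embQ_alpha (N ℓ : ℕ) [NeZero N] [NeZero ℓ] (W : FN (N * ℓ) ≃ₐ[Kb] FN (N * ℓ))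
    (hW : ∀ f : FN N, W (heckeAlphaBar Kb N ℓ f) = heckeBetaBar Kb N ℓ f)
    (ζ : Kbˣ) (hζ : ζ ^ ℓ = 1) (i : Option (Fin ℓ)) (a : FN N) :
    embQ N ℓ W ζ i (heckeAlphaBar Kb N ℓ a) = qExpand Kb ℓ (a : LaurentSeries Kb) := by
  cases i with
  | none => rw [embQ_none, coe_heckeAlphaBar]
  | some b =>
    rw [embQ_some, hW, coe_heckeBetaBar, ES.Alg.twist_qExpand]
    rw [← pow_mul, mul_comm, pow_mul, hζ, one_pow]

theorem embQ_injective (N ℓ : ℕ) [NeZero N] [NeZero ℓ] (hℓ : ℓ.Prime)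
    (W : FN (N * ℓ) ≃ₐ[Kb] FN (N * ℓ))
    (hW' : ∀ f : FN N, W (heckeBetaBar Kb N ℓ f) = heckeAlphaBar Kb N ℓ f)
    (ζ : Kbˣ) (hζ : IsPrimitiveRoot ζ ℓ) : Function.Injective (embQ N ℓ W ζ) := by
  have hn : (embQ N ℓ W ζ none (heckeBetaBar Kb N ℓ (jN N))).coeff (-1) = 0 := by
    rw [embQ_none]
    refine qExpand_coeff_of_not_dvd ℓ _ ?_
    intro hd
    have h1 : (ℓ : ℤ) ∣ 1 := (dvd_neg.mp hd)
    have h2 : ℓ ∣ 1 := by exact_mod_cast h1
    exact hℓ.one_lt.ne' (Nat.dvd_one.mp h2)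
  have hs : ∀ b : Fin ℓ, (embQ N ℓ W ζ (some b) (heckeBetaBar Kb N ℓ (jN N))).coeff (-1) =
      (((ζ ^ (b : ℕ)) ^ (-1 : ℤ) : Kbˣ) : Kb) := by
    intro b
    rw [embQ_some, hW', coe_heckeAlphaBar, ES.Alg.twist_coeff, coeff_jN_neg_one, mul_one]
  intro i j hij
  have hc := congrArg (fun φ : FN (N * ℓ) →+* LaurentSeries Kb =>
    (φ (heckeBetaBar Kb N ℓ (jN N))).coeff (-1)) hij
  cases i with
  | none =>
    cases j with
    | none => rfl
    | some b =>
      rw [hn, hs] at hc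
      exact absurd hc.symm (Units.ne_zero _)
  | some a =>
    cases j with
    | none =>
      rw [hn, hs] at hc
      exact absurd hc (Units.ne_zero _)
    | some b =>
      rw [hs, hs] at hc
      have h1 : (ζ ^ (a : ℕ)) ^ (-1 : ℤ) = (ζ ^ (b : ℕ)) ^ (-1 : ℤ) := Units.ext hc
      rw [zpow_neg_one, zpow_neg_one, inv_inj] at h1
      have h2 := hζ.pow_inj a.2 b.2 h1
      exact congrArg some (Fin.ext h2)

/-- [S37/NQ-a] -/
theorem qExpand_normAlpha (N ℓ : ℕ) [NeZero N] [NeZero ℓ] (hℓ : ℓ.Prime) (hN : ¬ ℓ ∣ N)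
    (W : FN (N * ℓ) ≃ₐ[Kb] FN (N * ℓ))
    (hW : ∀ f : FN N, W (heckeAlphaBar Kb N ℓ f) = heckeBetaBar Kb N ℓ f)
    (hW' : ∀ f : FN N, W (heckeBetaBar Kb N ℓ f) = heckeAlphaBar Kb N ℓ f)
    (ζ : Kbˣ) (hζ : IsPrimitiveRoot ζ ℓ) (h : FN (N * ℓ)) :
    qExpand Kb ℓ (normAlpha N ℓ h : LaurentSeries Kb) =
      qExpand Kb ℓ (h : LaurentSeries Kb) *
        ∏ b ∈ Finset.range ℓ, twistFun (ζ ^ b) (W h : LaurentSeries Kb) := by
  letI := algebraAlong (heckeAlphaBar Kb N ℓ)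
  haveI : Module.Finite (FN N) (FN (N * ℓ)) := finiteAlong_incl (dvd_mul_right N ℓ)
  haveI : CharZero (FN N) := charZero_of_injective_algebraMap (algebraMap Kb (FN N)).injective
  have hcard : Fintype.card (Option (Fin ℓ)) = Module.finrank (FN N) (FN (N * ℓ)) := by
    rw [Fintype.card_option, Fintype.card_fin]
    exact (finrankAlong_alpha N ℓ hℓ hN).symm
  have key := S24.norm_eq_prod_of_card (E := FN N) (F := FN (N * ℓ)) (L := LaurentSeries Kb)
    (embQ N ℓ W ζ) (embQ_injective N ℓ hℓ W hW' ζ hζ) hcard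
    (fun i j a => by
      show embQ N ℓ W ζ i (heckeAlphaBar Kb N ℓ a) = embQ N ℓ W ζ j (heckeAlphaBar Kb N ℓ a)
      rw [embQ_alpha N ℓ W hW ζ hζ.pow_eq_one, embQ_alpha N ℓ W hW ζ hζ.pow_eq_one]) none h
  have h1 : embQ N ℓ W ζ none (algebraMap (FN N) (FN (N * ℓ)) (Algebra.norm (FN N) h)) =
      qExpand Kb ℓ (normAlpha N ℓ h : LaurentSeries Kb) :=
    embQ_alpha N ℓ W hW ζ hζ.pow_eq_one none _
  rw [← h1, key, Fintype.prod_option, embQ_none, Finset.prod_range]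
  rfl

/-- [S37/NQ-b] Frobenius on Laurent series in characteristic `ℓ` -/
theorem pow_char_eq {k : Type*} [Field k] (ℓ : ℕ) [NeZero ℓ] [CharP k ℓ] [Fact ℓ.Prime]
    (z : LaurentSeries k) : z ^ ℓ = qExpand k ℓ (coeffMap (frobenius k ℓ) z) :=
  ES.Alg.pow_char_eq_qExpand ℓ z

/-- `f ∈ F_N` has an integral `q`-expansion with reduction `z` -/
def IntQ (A : ValuationSubring Kb) (N : ℕ) (f : FN N)
    (z : LaurentSeries (IsLocalRing.ResidueField A)) : Prop :=
  ∃ y : LaurentSeries A, coeffMap A.subtype y = (f : LaurentSeries Kb) ∧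
    coeffMap (IsLocalRing.residue A) y = z

section IntQ

variable (A : ValuationSubring Kb)

theorem coeffMap_subtype_injective : Function.Injective (coeffMap A.subtype) := by
  intro x y h
  ext n
  have := congrArg (fun s : LaurentSeries Kb => s.coeff n) h
  exact this

theorem exists_lift_of_coeff_mem (ν : LaurentSeries Kb) (h : ∀ n, ν.coeff n ∈ A) :
    ∃ Y : LaurentSeries A, coeffMap A.subtype Y = ν := by
  refine ⟨⟨fun n => ⟨ν.coeff n, h n⟩, ν.isPWO_support.mono fun n hn h0 => hn ?_⟩, ?_⟩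
  · exact Subtype.ext h0
  · ext n
    rfl

/-- the action of the decomposition group on `A` -/
noncomputable def decMap (τ : A.decompositionSubgroup ℚ) : A →+* A :=
  MulSemiringAction.toRingHom (A.decompositionSubgroup ℚ) A τ

variable {A}

theorem IntQ.mul {N : ℕ} {f g : FN N} {z w : LaurentSeries (IsLocalRing.ResidueField A)}
    (hf : IntQ A N f z) (hg : IntQ A N g w) : IntQ A N (f * g) (z * w) := by
  obtain ⟨y, hy, hz⟩ := hf
  obtain ⟨y', hy', hw⟩ := hg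
  exact ⟨y * y', by rw [map_mul, hy, hy']; rfl, by rw [map_mul, hz, hw]⟩

theorem IntQ.pow {N : ℕ} {f : FN N} {z : LaurentSeries (IsLocalRing.ResidueField A)}
    (hf : IntQ A N f z) (n : ℕ) : IntQ A N (f ^ n) (z ^ n) := by
  obtain ⟨y, hy, hz⟩ := hf
  exact ⟨y ^ n, by rw [map_pow, hy]; rfl, by rw [map_pow, hz]⟩

theorem IntQ.gal {N : ℕ} {g : FN N} {z : LaurentSeries (IsLocalRing.ResidueField A)}
    (hg : IntQ A N g z) (τ : A.decompositionSubgroup ℚ)
    (φ : IsLocalRing.ResidueField A →+* IsLocalRing.ResidueField A)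
    (hφ : ∀ x : IsLocalRing.ResidueField A, τ • x = φ x) :
    IntQ A N (arithmeticGalois (modularFunctionFieldFull N) (τ : Kb ≃ₐ[ℚ] Kb) • g)
      (coeffMap φ z) := by
  obtain ⟨y, hy, hz⟩ := hg
  refine ⟨coeffMap (decMap A τ) y, ?_, ?_⟩
  · rw [coe_arithmeticGalois_smul, ← hy, coeffMap_coeffMap, coeffMap_coeffMap]
    exact coeffMap_congr (RingHom.ext fun a => rfl) y
  · rw [← hz, coeffMap_coeffMap, coeffMap_coeffMap]
    refine coeffMap_congr (RingHom.ext fun a => ?_) y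
    exact hφ (IsLocalRing.residue A a)

end IntQ

theorem charP_residueField (A : ValuationSubring Kb) {ℓ : ℕ} (hℓ : ℓ.Prime)
    (hA : A.LiesOverPrime ℓ) : CharP (IsLocalRing.ResidueField A) ℓ := by
  have h1 : ((ℓ : ℕ) : IsLocalRing.ResidueField A) = 0 := by
    have h0 : ((ℓ : A) : Kb) ∈ A.nonunits := by
      have : ((ℓ : A) : Kb) = (ℓ : Kb) := by simp
      rw [this]; exact hA
    have := (IsLocalRing.residue_eq_zero_iff (ℓ : A)).mpr
      (ValuationSubring.coe_mem_nonunits_iff.mp h0)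
    rwa [map_natCast] at this
  exact (CharP.charP_iff_prime_eq_zero hℓ).mpr h1

/-- the first half of `norm_congr` -/
theorem intQ_normAlpha_beta (N ℓ : ℕ) [NeZero N] [NeZero ℓ] (hℓ : ℓ.Prime) (hN : ¬ ℓ ∣ N)
    (A : ValuationSubring Kb) (hA : A.LiesOverPrime ℓ) (g : FN N)
    (z : LaurentSeries (IsLocalRing.ResidueField A)) (hg : IntQ A N g z) :
    haveI := charP_residueField A hℓ hA
    haveI : Fact ℓ.Prime := ⟨hℓ⟩
    IntQ A N (normAlpha N ℓ (heckeBetaBar Kb N ℓ g))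
      (qExpand _ ℓ z * coeffMap (frobenius (IsLocalRing.ResidueField A) ℓ) z) := by
  haveI := charP_residueField A hℓ hA
  haveI : Fact ℓ.Prime := ⟨hℓ⟩
  obtain ⟨y, hy, hz⟩ := hg
  obtain ⟨W, hW, hW'⟩ := exists_atkinLehner N ℓ hℓ hN
  obtain ⟨ζ₀, hζ₀⟩ := HasEnoughRootsOfUnity.exists_primitiveRoot Kb ℓ
  -- `ζ` as a unit of `A`
  have hζA : ζ₀ ∈ A := S24.mem_valuationSubring_of_isIntegral (A := ℤ) A
    (fun a => by simpa using A.toSubring.intCast_mem a) (hζ₀.isIntegral hℓ.pos)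
  have hpow : (⟨ζ₀, hζA⟩ : A) ^ ℓ = 1 := Subtype.ext hζ₀.pow_eq_one
  obtain ⟨u, hu⟩ : IsUnit (⟨ζ₀, hζA⟩ : A) := IsUnit.of_pow_eq_one hpow hℓ.ne_zero
  set ζ : Kbˣ := Units.map (A.subtype : A →* Kb) u with hζdef
  have hζval : (ζ : Kb) = ζ₀ := by
    rw [hζdef, Units.coe_map, hu]; rfl
  have hζ : IsPrimitiveRoot ζ ℓ := by
    rw [← IsPrimitiveRoot.coe_units_iff, hζval]; exact hζ₀
  have hures : Units.map (IsLocalRing.residue A : A →* IsLocalRing.ResidueField A) u = 1 := by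
    apply Units.ext
    rw [Units.coe_map, Units.val_one]
    have h1 : ((IsLocalRing.residue A : A →* IsLocalRing.ResidueField A) (u : A)) ^ ℓ = 1 := by
      rw [← map_pow, hu, hpow, map_one]
    have h2 : ((IsLocalRing.residue A : A →* IsLocalRing.ResidueField A) (u : A) - 1) ^ ℓ = 0 := by
      rw [sub_pow_char, h1, one_pow, sub_self]
    exact sub_eq_zero.mp (pow_eq_zero_iff hℓ.ne_zero |>.mp h2)
  -- the product over `A`
  set P : LaurentSeries A := qExpand A ℓ (qExpand A ℓ y) *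
    ∏ b ∈ Finset.range ℓ, ES.Alg.twist (u ^ b) y with hP
  set ν : LaurentSeries Kb := (normAlpha N ℓ (heckeBetaBar Kb N ℓ g) : LaurentSeries Kb) with hν
  have hPν : coeffMap A.subtype P = qExpand Kb ℓ ν := by
    rw [hν, qExpand_normAlpha N ℓ hℓ hN W hW hW' ζ hζ, hP, map_mul, map_prod, coeffMap_qExpand,
      coeffMap_qExpand, hy, coe_heckeBetaBar]
    congr 1
    refine Finset.prod_congr rfl fun b _ => ?_
    rw [ES.Alg.coeffMap_twist, hy, hW', coe_heckeAlphaBar, twistFun_eq_twist, map_pow]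
  obtain ⟨Y, hY⟩ := exists_lift_of_coeff_mem A ν (fun n => by
    rw [← qExpand_coeff_mul ℓ ν n, ← hPν, coeffMap_coeff]
    exact (P.coeff _).2)
  have hYP : qExpand A ℓ Y = P := by
    apply coeffMap_subtype_injective A
    rw [coeffMap_qExpand, hY, hPν]
  refine ⟨Y, hY, ?_⟩
  apply qExpand_injective (R := IsLocalRing.ResidueField A) ℓ
  rw [← coeffMap_qExpand, hYP, hP, map_mul, map_prod, coeffMap_qExpand, coeffMap_qExpand, hz,
    map_mul, ← pow_char_eq]
  congr 1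
  rw [← Finset.card_range ℓ, ← Finset.prod_const]
  rw [Finset.card_range]
  refine Finset.prod_congr rfl fun b _ => ?_
  rw [ES.Alg.coeffMap_twist, hz, map_pow, hures, one_pow, ES.Alg.twist_one]

/-- [S37/NQ-b] the Eichler–Shimura congruence for functions -/
theorem norm_congr (N ℓ : ℕ) [NeZero N] [NeZero ℓ] (hℓ : ℓ.Prime) (hN : ¬ ℓ ∣ N)
    (A : ValuationSubring Kb) (hA : A.LiesOverPrime ℓ) (σ : Kb ≃ₐ[ℚ] Kb)
    (hσ : A.IsFrobeniusAt σ ℓ) (g : FN N) (z : LaurentSeries (IsLocalRing.ResidueField A))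
    (hg : IntQ A N g z) (hz : z ≠ 0) :
    ∃ z' : LaurentSeries (IsLocalRing.ResidueField A), z' ≠ 0 ∧
      IntQ A N (normAlpha N ℓ (heckeBetaBar Kb N ℓ g)) z' ∧
      IntQ A N ((arithmeticGalois (modularFunctionFieldFull N) σ • g) *
        (arithmeticGalois (modularFunctionFieldFull N) σ⁻¹ • g) ^ ℓ) z' := by
  haveI := charP_residueField A hℓ hA
  haveI : Fact ℓ.Prime := ⟨hℓ⟩
  obtain ⟨hd, hfr⟩ := hσ
  set τ : A.decompositionSubgroup ℚ := ⟨σ, hd⟩ with hτ
  set Fr := frobenius (IsLocalRing.ResidueField A) ℓ with hFr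
  refine ⟨qExpand _ ℓ z * coeffMap Fr z, ?_, intQ_normAlpha_beta N ℓ hℓ hN A hA g z hg, ?_⟩
  · refine mul_ne_zero ?_ ?_
    · exact fun h => hz (qExpand_injective (R := IsLocalRing.ResidueField A) ℓ
        (h.trans (map_zero _).symm))
    · intro h
      apply hz
      ext n
      have := congrArg (fun s : LaurentSeries (IsLocalRing.ResidueField A) => s.coeff n) h
      simp only [coeffMap_coeff, HahnSeries.coeff_zero] at this
      exact (map_eq_zero Fr).mp this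
  · have h1 := hg.gal τ Fr (fun x => hfr x)
    set ψ : IsLocalRing.ResidueField A →+* IsLocalRing.ResidueField A :=
      MulSemiringAction.toRingHom (A.decompositionSubgroup ℚ) (IsLocalRing.ResidueField A) τ⁻¹
      with hψ
    have h2 := hg.gal τ⁻¹ ψ (fun x => rfl)
    have h3 : coeffMap Fr (coeffMap ψ z) = z := by
      rw [coeffMap_coeffMap]
      have : Fr.comp ψ = RingHom.id _ := by
        ext x
        show Fr (τ⁻¹ • x) = x
        have := hfr (τ⁻¹ • x)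
        rw [smul_inv_smul] at this
        exact this.symm
      rw [this, coeffMap_id]
    have h4 : (coeffMap ψ z) ^ ℓ = qExpand _ ℓ z := by
      rw [pow_char_eq, h3]
    have h5 := h1.mul (h2.pow ℓ)
    rw [h4, mul_comm (coeffMap Fr z)] at h5
    exact h5

/-- [S37/NQ-b] inertia acts trivially on reductions -/
theorem intQ_inertia (N : ℕ) [NeZero N] (A : ValuationSubring Kb) (τ : Kb ≃ₐ[ℚ] Kb)
    (hτ : τ ∈ A.inertiaSubgroupIn ℚ) (g : FN N) (z : LaurentSeries (IsLocalRing.ResidueField A))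
    (hg : IntQ A N g z) : IntQ A N (arithmeticGalois (modularFunctionFieldFull N) τ • g) z := by
  obtain ⟨τ', hτ', rfl⟩ := Subgroup.mem_map.mp hτ
  have hker : MulSemiringAction.toRingAut (A.decompositionSubgroup ℚ)
      (IsLocalRing.ResidueField A) τ' = 1 := hτ'
  have h := hg.gal τ' (RingHom.id _) (fun x => by
    have := congrArg (fun f : RingAut (IsLocalRing.ResidueField A) => f x) hker
    exact this)
  rwa [coeffMap_id] at h

end Fermat.Agent.S37
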