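import Fermat.Agent.S37.BrDefs

/-!
# S37 / BRIDGE, piece BR-6 : automorphisms acting trivially on `VV / 𝔪 VV` fix the charts

`γ : SemilinearAut K F` with `γ τ = τ` and `γ x ∈ VV`, `γ x - x ∈ 𝔪 VV` for all `x ∈ VV`.
* `baseFixed`: for `a : A`, `γ • algebraMap K F a = algebraMap K F (baseAut γ a)` (`SemilinearAut.smul_algebraMap`) lies in `VV`, so
  `baseAut γ a ∈ A` (`mem_OG_of_algebraMap_mem_VV`, `algebraMap_mem_OG_iff`); `c := baseAut γ a - a ∈ A` has `SmV (algebraMap c)`; if `c` were a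
  unit of `A` then `SmV 1` (`SmV.mul_left`), contradicting `not_SmV_one`; so `residue c = 0`.
* `chartFixed`: `y ∈ C0`.  `γ • evE A τ F P = evE A τ F (P.map γ_A)` where `γ_A : A →+* A` is the restriction of `baseAut γ`
  (`Polynomial.induction_on`), so `γ` maps a monic equation of `y` over `A[τ]` to one of `γ y`: `γ y ∈ C0`.
  `SmV (γ y - y)` + `γ y - y ∈ C0` ⟹ `Sm0` (`Sm0_of_SmV`) ⟹ `rdC (γ y) = rdC y`.
-/

set_option autoImplicit false
set_option linter.unusedSectionVars false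

noncomputable section

namespace Fermat.Agent.S37

open Polynomial Fermat.Agent.S18.KL IsDedekindDomain AlgebraicCurve

variable {K : Type*} [Field K] {A : ValuationSubring K}
variable {L : Type*} [Field L] [Algebra K L] {τ : L}
variable {F : Type*} [Field F] [Algebra L F] [Algebra K F] [IsScalarTower K L F]

namespace BrInvAux

theorem baseAut_mem [FiniteDimensional L F] (hτ : Transcendental K τ) (hgen : IsGen K τ)
    (γ : SemilinearAut K F)
    (hV : ∀ x ∈ VV A τ F, γ • x ∈ VV A τ F ∧ SmV A τ F (γ • x - x)) (a : A) :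
    SemilinearAut.baseAut γ (a : K) ∈ A := by
  have h1 := (hV _ (C0_le_VV A τ F (algebraMap_mem_C0 A τ F a))).1
  rw [SemilinearAut.smul_algebraMap, IsScalarTower.algebraMap_apply K L F] at h1
  exact (algebraMap_mem_OG_iff A hτ _).mp (mem_OG_of_algebraMap_mem_VV A hτ hgen h1)

/-- the restriction of the base automorphism to `A` -/
def baseA [FiniteDimensional L F] (hτ : Transcendental K τ) (hgen : IsGen K τ)
    (γ : SemilinearAut K F)
    (hV : ∀ x ∈ VV A τ F, γ • x ∈ VV A τ F ∧ SmV A τ F (γ • x - x)) : A →+* A :=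
  (((SemilinearAut.baseAut γ : K ≃+* K) : K →+* K).comp A.subtype).codRestrict A
    (fun a => baseAut_mem hτ hgen γ hV a)

theorem smul_evE [FiniteDimensional L F] (hτ : Transcendental K τ) (hgen : IsGen K τ)
    (γ : SemilinearAut K F) (hγ : γ • algebraMap L F τ = algebraMap L F τ)
    (hV : ∀ x ∈ VV A τ F, γ • x ∈ VV A τ F ∧ SmV A τ F (γ • x - x)) :
    ((SemilinearAut.toRingAut γ : F ≃+* F) : F →+* F).comp (evE A τ F) =
      (evE A τ F).comp (Polynomial.mapRingHom (baseA hτ hgen γ hV)) := by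
  apply Polynomial.ringHom_ext
  · intro a
    show γ • evE A τ F (C a) = evE A τ F ((C a).map (baseA hτ hgen γ hV))
    rw [Polynomial.map_C, evE_C_eq, evE_C_eq, SemilinearAut.smul_algebraMap]
    rfl
  · show γ • evE A τ F X = evE A τ F (X.map (baseA hτ hgen γ hV))
    rw [Polynomial.map_X, evE_apply, evL_X, hγ]

theorem smul_mem_C0 [FiniteDimensional L F] (hτ : Transcendental K τ) (hgen : IsGen K τ)
    (γ : SemilinearAut K F) (hγ : γ • algebraMap L F τ = algebraMap L F τ)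
    (hV : ∀ x ∈ VV A τ F, γ • x ∈ VV A τ F ∧ SmV A τ F (γ • x - x)) {y : F}
    (hy : y ∈ C0 A τ F) : γ • y ∈ C0 A τ F := by
  obtain ⟨p, hp, hpy⟩ := hy
  refine ⟨p.map (Polynomial.mapRingHom (baseA hτ hgen γ hV)), hp.map _, ?_⟩
  rw [Polynomial.eval₂_map, ← smul_evE hτ hgen γ hγ hV]
  have h1 := congrArg ((SemilinearAut.toRingAut γ : F ≃+* F) : F →+* F) hpy
  rw [Polynomial.hom_eval₂, map_zero] at h1
  exact h1

end BrInvAux

/-- [S37/BR-6] -/
theorem baseFixed [FiniteDimensional L F] (hτ : Transcendental K τ) (hgen : IsGen K τ)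
    (γ : SemilinearAut K F)
    (hV : ∀ x ∈ VV A τ F, γ • x ∈ VV A τ F ∧ SmV A τ F (γ • x - x)) :
    BaseFixed A (IsLocalRing.residue A) γ := by
  intro a
  refine ⟨⟨_, BrInvAux.baseAut_mem hτ hgen γ hV a⟩, rfl, ?_⟩
  set a' : A := ⟨_, BrInvAux.baseAut_mem hτ hgen γ hV a⟩ with ha'
  rw [← sub_eq_zero, ← map_sub, IsLocalRing.residue_eq_zero_iff, IsLocalRing.mem_maximalIdeal,
    mem_nonunits_iff]
  intro hu
  obtain ⟨c, hc⟩ := hu.exists_left_inv
  have h2 := (hV _ (C0_le_VV A τ F (algebraMap_mem_C0 A τ F a))).2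
  rw [SemilinearAut.smul_algebraMap, ← map_sub] at h2
  have h3 := SmV.mul_left A h2 (C0_le_VV A τ F (algebraMap_mem_C0 A τ F c))
  rw [← map_mul] at h3
  have h4 : (c : K) * (SemilinearAut.baseAut γ (a : K) - (a : K)) = 1 := congrArg Subtype.val hc
  rw [h4, map_one] at h3
  exact not_SmV_one A hτ hgen h3

/-- [S37/BR-6] -/
theorem chartFixed [FiniteDimensional L F] (hτ : Transcendental K τ) (hgen : IsGen K τ)
    (γ : SemilinearAut K F) (hγ : γ • algebraMap L F τ = algebraMap L F τ)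
    (hV : ∀ x ∈ VV A τ F, γ • x ∈ VV A τ F ∧ SmV A τ F (γ • x - x)) :
    ChartFixed (CC A τ F) (rdC A τ F) γ := by
  intro y
  have hy : ((y : ↥(B0 K τ F)) : F) ∈ C0 A τ F := y.2
  have h1 := BrInvAux.smul_mem_C0 hτ hgen γ hγ hV hy
  refine ⟨ofC0 A τ F ⟨_, h1⟩, rfl, ?_⟩
  rw [← sub_eq_zero, ← map_sub, rdC_eq_zero_iff]
  exact Sm0_of_SmV A hτ hgen ((C0 A τ F).sub_mem h1 hy) (hV _ (C0_le_VV A τ F hy)).2

end Fermat.Agent.S37
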