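import Fermat.Agent.S37.BrInter
import Fermat.Agent.S37.BrInv

/-!
# S37 / BRIDGE : Theorem R (assembly, helper2)

`K` algebraically closed of characteristic `0`, `A` a rank one valuation subring, `L = K(τ)`, `F / L` finite with good reduction (`GoodRed`) and
tame branching (`Br`), `red : VV → Ft` the reduction onto the residue field of the Gauss valuation.  Then there is a map
`r : Place K F → Place (kk A) Ft` such that
* (RED)   `div (red y) = r_* div y` for all `y ∈ VV` with `red y ≠ 0`;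
* (INV)   `r (γ P) = r P` for semilinear automorphisms `γ` fixing `τ` and acting trivially on `VV / 𝔪 VV`;
* (CONST) a function on the special fibre without zeros and poles is constant.
-/

set_option autoImplicit false
set_option linter.unusedSectionVars false
set_option linter.style.haveILetI false

noncomputable section

namespace Fermat.Agent.S37

open Polynomial Fermat.Agent.S18.KL IsDedekindDomain AlgebraicCurve

variable {K : Type*} [Field K] {A : ValuationSubring K}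
variable {L : Type*} [Field L] [Algebra K L] {τ : L}
variable {F : Type*} [Field F] [Algebra L F] [Algebra K F] [IsScalarTower K L F]
variable {Ft : Type*} [Field Ft] [Algebra (kk A) Ft] {O : Subring F} {red : O →+* Ft}

theorem exists_reduction [IsAlgClosed K] [CharZero K] [FiniteDimensional L F] (hA : Arch A)
    (hτ : Transcendental K τ) (hgen : IsGen K τ) {ι : Type*} [Fintype ι] (g : GoodRed A τ F ι)
    (c0 : A) (hc0 : IsUnit c0) (hbr : Br K τ F (c0 : K)) (h : RedData A τ F O red) :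
    ∃ r : Place K F → Place (kk A) Ft,
      (∀ y : O, red y ≠ 0 → ∀ D : Divisor K F, (∀ P, D P = P.ord (y : F)) →
        ∀ x : Place (kk A) Ft, Finsupp.mapDomain r D x = x.ord (red y)) ∧
      (∀ γ : SemilinearAut K F, γ • algebraMap L F τ = algebraMap L F τ →
        (∀ x ∈ VV A τ F, γ • x ∈ VV A τ F ∧ SmV A τ F (γ • x - x)) →
        (∀ x ∈ VV A τ F, γ⁻¹ • x ∈ VV A τ F ∧ SmV A τ F (γ⁻¹ • x - x)) →
        ∀ P : Place K F, r (γ • P) = r P) ∧
      (∀ z : Ft, z ≠ 0 → (∀ x : Place (kk A) Ft, x.ord z = 0) →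
        ∃ c : kk A, z = algebraMap (kk A) Ft c) := by
  classical
  have hτ' := transcendental_inv' hτ
  have hgen' := isGen_inv hτ hgen
  have h' : RedData A τ⁻¹ F O red := h.inv hτ
  obtain ⟨gb⟩ := exists_goodBasis hτ hgen g
  obtain ⟨gb'⟩ := exists_goodBasis hτ' hgen' (g.inv hτ)
  obtain ⟨c0u, rfl⟩ := hc0
  have hc0ne : ((c0u : A)) ≠ 0 := c0u.ne_zero
  have hc0inv : (((c0u⁻¹ : Aˣ) : A) : K) = ((c0u : A) : K)⁻¹ := by
    have : ((c0u : A) : K) * (((c0u⁻¹ : Aˣ) : A) : K) = 1 := by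
      have h := congrArg (Subtype.val) (c0u.mul_inv)
      exact h
    exact eq_inv_of_mul_eq_one_right this
  have hD : DiffHyp A τ F (X * (X - C (c0u : A))) := diffHyp hτ hgen _ hc0ne hbr
  have hD' : DiffHyp A τ⁻¹ F (X * (X - C ((c0u⁻¹ : Aˣ) : A))) :=
    diffHyp hτ' hgen' _ (c0u⁻¹).ne_zero (by rw [hc0inv]; exact hbr.inv hτ)
  have hfg : FgC0 A τ F := fgC0 hτ hgen hA gb
  have hfg' : FgC0 A τ⁻¹ F := fgC0 hτ' hgen' hA gb'
  haveI := isDomain_Cbar hτ hgen h
  haveI := isDomain_Cbar hτ' hgen' h'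
  haveI : IsDedekindDomain (Cbar A τ F) :=
    isDedekindDomain_Cbar hτ hgen gb _ (squarefree_theta _ c0u.isUnit) hD
  haveI : IsDedekindDomain (Cbar A τ⁻¹ F) :=
    isDedekindDomain_Cbar hτ' hgen' gb' _ (squarefree_theta _ (c0u⁻¹).isUnit) hD'
  haveI : IsDedekindDomain ↥(B0 K τ F) := isDedekindDomain_B0 hτ hgen
  haveI : IsDedekindDomain ↥(B0 K τ⁻¹ F) := isDedekindDomain_B0 hτ' hgen'
  haveI : IsFractionRing ↥(B0 K τ F) F := isFractionRing_B0 hτ hgen
  haveI : IsFractionRing ↥(B0 K τ⁻¹ F) F := isFractionRing_B0 hτ' hgen'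
  letI : Algebra (Cbar A τ F) Ft := h.barToFt.toAlgebra
  letI : Algebra (Cbar A τ⁻¹ F) Ft := h'.barToFt.toAlgebra
  have hbar : BarCompat A τ F O red := h.barCompat
  have hbar' : BarCompat A τ⁻¹ F O red := h'.barCompat
  haveI : IsFractionRing (Cbar A τ F) Ft := isFractionRing_Cbar hτ hgen h hbar
  haveI : IsFractionRing (Cbar A τ⁻¹ F) Ft := isFractionRing_Cbar hτ' hgen' h' hbar'
  haveI : IsScalarTower (kk A) (Cbar A τ F) Ft := isScalarTower_Cbar h hbar
  haveI : IsScalarTower (kk A) (Cbar A τ⁻¹ F) Ft := isScalarTower_Cbar h' hbar'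
  have hc : ChartCompat A (IsLocalRing.residue A) O red (CC A τ F) (rdC A τ F) (algebraMap L F τ) :=
    chartCompat hτ hgen hfg gb h hbar
  have hc' : ChartCompat A (IsLocalRing.residue A) O red (CC A τ⁻¹ F) (rdC A τ⁻¹ F)
      (algebraMap L F τ)⁻¹ := by
    rw [← map_inv₀]
    exact chartCompat hτ' hgen' hfg' gb' h' hbar'
  have ht0 : algebraMap L F τ ≠ 0 := by
    simpa using ne_zero_of_transcendental hτ
  obtain ⟨r, hred, hinv⟩ := exists_placeReduction A (IsLocalRing.residue A) O red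
    (algebraMap L F τ) (CC A τ F) (rdC A τ F) (CC A τ⁻¹ F) (rdC A τ⁻¹ F) ht0 hc hc'
  refine ⟨r, hred, ?_, ?_⟩
  · intro γ hγ hV hV' P
    have hγ' : γ⁻¹ • algebraMap L F τ = algebraMap L F τ := by
      rw [inv_smul_eq_iff, hγ]
    have hγi : γ • algebraMap L F τ⁻¹ = algebraMap L F τ⁻¹ := by
      rw [map_inv₀, smul_inv'', hγ]
    have hγi' : γ⁻¹ • algebraMap L F τ⁻¹ = algebraMap L F τ⁻¹ := by
      rw [map_inv₀, smul_inv'', hγ']
    have hVi : ∀ x ∈ VV A τ⁻¹ F, γ • x ∈ VV A τ⁻¹ F ∧ SmV A τ⁻¹ F (γ • x - x) := by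
      intro x hx
      rw [VV_inv A hτ] at hx ⊢
      rw [SmV_inv A hτ]
      exact hV x hx
    have hVi' : ∀ x ∈ VV A τ⁻¹ F, γ⁻¹ • x ∈ VV A τ⁻¹ F ∧ SmV A τ⁻¹ F (γ⁻¹ • x - x) := by
      intro x hx
      rw [VV_inv A hτ] at hx ⊢
      rw [SmV_inv A hτ]
      exact hV' x hx
    exact hinv γ (baseFixed hτ hgen γ hV) (baseFixed hτ hgen γ⁻¹ hV')
      (chartFixed hτ hgen γ hγ hV) (chartFixed hτ hgen γ⁻¹ hγ' hV')
      (chartFixed hτ' hgen' γ hγi hVi) (chartFixed hτ' hgen' γ⁻¹ hγi' hVi') P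
  · intro z hz hord
    exact const_of_ord_eq_zero A (IsLocalRing.residue A) O red (algebraMap L F τ)
      (CC A τ F) (rdC A τ F) (CC A τ⁻¹ F) (rdC A τ⁻¹ F) ht0 hc hc'
      (fun b0 b1 hb => inter_Cbar hτ hgen gb gb' h hbar hbar' b0 b1 hb) z hz hord

end Fermat.Agent.S37
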