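import Fermat.Agent.S37.FFTower

/-!
# S37, piece FF-b: the fundamental identity `∑ e(w|v) = [F' : F]`

`x ∈ F` transcendental with `F / K(x)` finite.  Given a place `v` of `F`, replace `x` by `x⁻¹` if necessary
so that `x ∈ O_v`.  `R` := integral closure of `K[x]` in `F`, `R'` := integral closure of `K[x]` in `F'`
(= integral closure of `R`), both Dedekind, finite over `K[x]` (char. 0).  Dictionary of
`S24/PlacesCore.lean` (`exists_heightOneSpectrum_of_le'`, `ord_ofHeightOneSpectrum`,
`ofHeightOneSpectrum_injective`, `ord_eq_ramificationIdx'`, `inertiaDeg'_eq_one`):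
`v = ofHeightOneSpectrum p`, the places of `F'` over `v` are the `ofHeightOneSpectrum P`, `P ∣ p`,
`ramificationIndex = Ideal.ramificationIdx`; conclude with Mathlib `Ideal.sum_ramification_inertia`.
(`S24.sum_ord_zeroPlaces_aux` is the same argument for `R = K[y]`.)
The set-up is in `FFTower.lean`.
-/

set_option autoImplicit false
set_option linter.unusedSectionVars false
set_option linter.style.haveILetI false

open AlgebraicCurve IntermediateField IsDedekindDomain

namespace Fermat.Agent.S37

variable {K F F' : Type*} [Field K] [Field F] [Field F'] [Algebra K F] [Algebra K F']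
  [IsAlgClosed K] [CharZero K]

set_option linter.deprecated false in
/-- [S37/FF-b] -/
theorem IsFF.fundamentalIdentityAlong (h : IsFF K F) (φ : F →ₐ[K] F') (hfin : FiniteAlong K φ)
    (hφ : φ.toRingHom.IsIntegral) [HasPrincipalDivisors K F'] :
    FundamentalIdentityAlong K φ hφ := by
  have h' := h.of_finiteAlong φ hfin
  letI := algebraAlong φ
  haveI := isScalarTower_along φ
  haveI := isIntegral_along φ hφ
  haveI : Module.Finite F F' := hfin
  refine ⟨fun v => ?_⟩
  rw [h.deg_eq_one v]
  refine h.tower_induction (F' := F') v _ ?_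
  intro R _ _ _ _ _ _ _ S _ _ _ _ _ _ _ _ _ _ _ _ _ _ p hp
  subst hp
  have := p.isMaximal
  rw [sum_fiber_eq (S := S) p _
    (fun P => ((Ideal.ramificationIdx' p.asIdeal P * Ideal.inertiaDeg' p.asIdeal P : ℕ) : ℤ)),
    ← Nat.cast_sum, Ideal.sum_ramification_inertia S F F' p.ne_bot]
  · simp
  · intro P hP
    have := P.isMaximal
    rw [h'.deg_eq_one, ramificationIndex_ofHeightOneSpectrum p P, S24.inertiaDeg'_eq_one K]
    simp

end Fermat.Agent.S37
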