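import Fermat.Agent.S37.FFBasic

/-!
# S37, pieces RI (Riemann's inequality, existence form) and RG (rigidity)

## RI.  `∃ γ, ∀ D, γ ≤ deg D → ∃ g ≠ 0, D + div g ≥ 0`.

`x ∈ F` transcendental, `n = [F : K(x)]`, `B = (x)_∞ = ∑_{ord_v x < 0} (- ord_v x) v`, `deg B = n`
(`S24.sum_ord_zeroPlaces x⁻¹`).  For a divisor `D` put `L D = {g | g = 0 ∨ ∀ v, 0 ≤ D v + ord_v g}`
(a `K`-subspace of `F`).
(1) [one condition] `V ≤ L D` a finite dimensional subspace, `v` a place: there is `V' ≤ V`, `V' ≤ L (D - v)`,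
 `finrank V ≤ finrank V' + 1`.  [`V'` = kernel of `g ↦ residue of g * π ^ (D v)`, residue field `= K` by
 `IsFF.residue_bijective`.]  By induction: `Y ≥ 0`, `V ≤ L D`, `deg Y < finrank V` ⟹ `∃ g ≠ 0, g ∈ V ∩ L (D - Y)`.
(2) [many functions] a `K(x)`-basis `u_1 .. u_n` of `F` consisting of elements integral over `K[x]`; they have
 poles only at the poles of `x`, so `u_j ∈ L (c B)` for some `c`; `V_l := span {x^i u_j | i ≤ l}` has dimension
 `n (l + 1)` and `V_l ≤ L ((l + c) B)`.
(3) Let `deg D > n (c - 1)`, `D = D₊ - D₋`.  Take `l` large; by (1), (2) there is `z ≠ 0` in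
 `V_l ∩ L ((l + c) B - D₊)`; `Z := div z + (l + c) B - D₊ ≥ 0` has degree `n (l + c) - deg D₊`.  By (1), (2) again
 there is `h ≠ 0` in `V_l ∩ L ((l + c) B - Z - D₋)` because `deg (Z + D₋) = n (l + c) - deg D < n (l + 1)`.
 Then `g = h / z` works: `div g + D = (div h + (l + c) B - Z - D₋) ≥ 0`.

## RG.  An additive `a : Div F → ℤ` which kills principal divisors and is bounded on places kills `Div⁰`.
`n (a v₀ - a v₁) + γ a v₁ = a (n (v₀ - v₁) + γ v₁) = a R` with `R ≥ 0` of degree `γ`, so
`n |a v₀ - a v₁| ≤ 2 γ c` for all `n`; hence `a v₀ = a v₁` and `a D = (deg D) a v₀`.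
-/

set_option autoImplicit false

open AlgebraicCurve IntermediateField

namespace Fermat.Agent.S37

namespace RiemannAux

section Basic

variable {K F : Type*} [Field K] [Field F] [Algebra K F]

open WithZero

theorem val_eq_exp (v : Place K F) {g : F} (hg : g ≠ 0) :
    v.adicValuation g = exp (-(v.ord g)) := by
  unfold Place.ord
  rw [neg_neg, WithZero.exp_log (v.adicValuation_ne_zero hg)]

theorem val_le_exp_iff (v : Place K F) {g : F} (hg : g ≠ 0) (d : ℤ) :
    v.adicValuation g ≤ exp d ↔ 0 ≤ d + v.ord g := by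
  rw [val_eq_exp v hg, WithZero.exp_le_exp]
  constructor <;> intro h <;> omega

theorem val_le_one_iff (v : Place K F) (f : F) :
    v.adicValuation f ≤ 1 ↔ f ∈ v.toValuationSubring := by
  by_cases hf : f = 0
  · simp [hf, zero_mem]
  · rw [← WithZero.exp_zero, val_le_exp_iff v hf, zero_add, S24.mem_iff_ord_nonneg]

theorem val_algebraMap_le_one (v : Place K F) (a : K) : v.adicValuation (algebraMap K F a) ≤ 1 :=
  (val_le_one_iff v _).2 (v.algebraMap_mem' a)

theorem val_lt_one_of_mem (v : Place K F) (a : v.toValuationSubring)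
    (ha : a ∈ IsLocalRing.maximalIdeal v.toValuationSubring) : v.adicValuation (a : F) < 1 := by
  refine lt_of_le_of_ne ((val_le_one_iff v _).2 a.2) ?_
  rw [Ne, v.adicValuation_coe_eq_one_iff]
  exact (IsLocalRing.mem_maximalIdeal a).1 ha

theorem le_exp_pred {x : ℤᵐ⁰} {d : ℤ} (h : x < exp d) : x ≤ exp (d - 1) := by
  by_cases hx : x = 0
  · simp [hx]
  · rw [← WithZero.exp_log hx] at h ⊢
    rw [WithZero.exp_lt_exp] at h
    rw [WithZero.exp_le_exp]
    omega

/-- the Riemann–Roch space `L(D)`. -/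
def LL (D : Divisor K F) : Submodule K F where
  carrier := {g | ∀ v : Place K F, v.adicValuation g ≤ exp (D v)}
  add_mem' := fun ha hb v => (v.adicValuation.map_add _ _).trans (max_le (ha v) (hb v))
  zero_mem' := fun v => by simp
  smul_mem' := fun a g hg v => by
    rw [Algebra.smul_def, map_mul]
    exact (mul_le_of_le_one_left' (val_algebraMap_le_one v a)).trans (hg v)

theorem mem_LL {D : Divisor K F} {g : F} :
    g ∈ LL D ↔ ∀ v : Place K F, v.adicValuation g ≤ exp (D v) := Iff.rfl

theorem mem_LL_iff {D : Divisor K F} {g : F} (hg : g ≠ 0) :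
    g ∈ LL D ↔ ∀ v : Place K F, 0 ≤ D v + v.ord g := by
  rw [mem_LL]
  exact forall_congr' fun v => val_le_exp_iff v hg _

end Basic

section Step

variable {K F : Type*} [Field K] [Field F] [Algebra K F] [IsAlgClosed K] [CharZero K]

open WithZero

omit [IsAlgClosed K] [CharZero K] in
theorem sub_single_apply_of_ne (E : Divisor K F) {v w : Place K F} (hw : ¬ w = v) :
    (E - Finsupp.single v (1 : ℤ) : Divisor K F) w = E w := by
  classical
  rw [Finsupp.sub_apply, Finsupp.single_apply, if_neg (Ne.symm hw), sub_zero]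

omit [IsAlgClosed K] [CharZero K] in
theorem sub_single_apply_self (E : Divisor K F) (v : Place K F) :
    (E - Finsupp.single v (1 : ℤ) : Divisor K F) v = E v - 1 := by
  rw [Finsupp.sub_apply, Finsupp.single_eq_same]

theorem exists_sub_smul_mem (h : IsFF K F) (E : Divisor K F) (v : Place K F) {g₁ g₂ : F}
    (h1 : g₁ ∈ LL E) (h2 : g₂ ∈ LL E) (h2' : g₂ ∉ LL (E - Finsupp.single v 1)) :
    ∃ a : K, g₁ - a • g₂ ∈ LL (E - Finsupp.single v 1) := by
  classical
  -- the valuation of `g₂` at `v` is exactly `exp (E v)`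
  have hv2 : v.adicValuation g₂ = exp (E v) := by
    by_contra hne
    apply h2'
    intro w
    by_cases hw : w = v
    · subst hw
      rw [sub_single_apply_self]
      exact le_exp_pred (lt_of_le_of_ne (h2 w) hne)
    · rw [sub_single_apply_of_ne E hw]; exact h2 w
  have hg2 : g₂ ≠ 0 := by
    rintro rfl
    rw [map_zero] at hv2
    exact WithZero.exp_ne_zero hv2.symm
  have hq : g₁ / g₂ ∈ v.toValuationSubring := by
    rw [← val_le_one_iff, map_div₀, hv2]
    exact div_le_one_of_le₀ (h1 v) zero_le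
  obtain ⟨a, ha⟩ := (h.residue_bijective v).2 (IsLocalRing.residue _ ⟨g₁ / g₂, hq⟩)
  refine ⟨a, ?_⟩
  have hmem : (⟨g₁ / g₂, hq⟩ - algebraMap K v.toValuationSubring a : v.toValuationSubring) ∈
      IsLocalRing.maximalIdeal v.toValuationSubring := by
    rw [← IsLocalRing.residue_eq_zero_iff, map_sub, ← ha, sub_eq_zero]
    rfl
  have hlt := val_lt_one_of_mem v _ hmem
  have hsub : g₁ - a • g₂ ∈ LL E := sub_mem h1 (Submodule.smul_mem _ _ h2)
  intro w
  by_cases hw : w = v
  · subst hw
    have h3 : g₁ - a • g₂ = (g₁ / g₂ - algebraMap K F a) * g₂ := by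
      rw [Algebra.smul_def]; field_simp
    have h4 : w.adicValuation (g₁ - a • g₂) < exp (E w) := by
      rw [h3, map_mul, hv2]
      have : w.adicValuation (g₁ / g₂ - algebraMap K F a) < 1 := hlt
      calc _ < 1 * exp (E w) := by
            apply mul_lt_mul_of_pos_right this
            exact WithZero.exp_pos
        _ = _ := one_mul _
    rw [sub_single_apply_self]
    exact le_exp_pred h4
  · rw [sub_single_apply_of_ne E hw]; exact hsub w

theorem finrank_le_step (h : IsFF K F) (E : Divisor K F) (v : Place K F) (V : Submodule K F)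
    [FiniteDimensional K V] (hV : V ≤ LL E) :
    Module.finrank K V ≤ Module.finrank K ↥(V ⊓ LL (E - Finsupp.single v 1)) + 1 := by
  by_cases hle : V ≤ LL (E - Finsupp.single v 1)
  · rw [inf_eq_left.2 hle]; omega
  obtain ⟨g₂, hg2, hg2'⟩ := SetLike.not_le_iff_exists.1 hle
  have hfin : FiniteDimensional K ↥(V ⊓ LL (E - Finsupp.single v 1)) :=
    Submodule.finiteDimensional_of_le inf_le_left
  have h1 : V ≤ (V ⊓ LL (E - Finsupp.single v 1)) ⊔ Submodule.span K {g₂} := by
    intro g₁ hg1
    obtain ⟨a, ha⟩ := exists_sub_smul_mem h E v (hV hg1) (hV hg2) hg2'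
    have : g₁ = (g₁ - a • g₂) + a • g₂ := by abel
    rw [this]
    exact Submodule.add_mem_sup ⟨sub_mem hg1 (Submodule.smul_mem _ _ hg2), ha⟩
      (Submodule.smul_mem _ _ (Submodule.mem_span_singleton_self _))
  calc Module.finrank K V
      ≤ Module.finrank K ↥((V ⊓ LL (E - Finsupp.single v 1)) ⊔ Submodule.span K {g₂}) :=
        Submodule.finrank_mono h1
    _ ≤ Module.finrank K ↥(V ⊓ LL (E - Finsupp.single v 1)) +
          Module.finrank K ↥(Submodule.span K {g₂}) :=
        Submodule.finrank_add_le_finrank_add_finrank _ _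
    _ ≤ _ := by
        have := finrank_span_le_card (R := K) ({g₂} : Set F)
        simp at this
        omega


theorem eq_zero_of_degree_eq_zero (h : IsFF K F) (Y : Divisor K F) (hY : ∀ v, 0 ≤ Y v)
    (hd : Divisor.degree Y = 0) : Y = 0 := by
  rw [h.degree_eq_sum, Finsupp.sum] at hd
  have h1 := (Finset.sum_eq_zero_iff_of_nonneg (fun v _ => hY v)).1 hd
  ext v
  by_cases hv : v ∈ Y.support
  · exact h1 v hv
  · exact Finsupp.notMem_support_iff.1 hv

theorem degree_single_one (h : IsFF K F) (v : Place K F) :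
    Divisor.degree (Finsupp.single v (1 : ℤ)) = 1 := by
  rw [Divisor.degree_single, h.deg_eq_one]; simp

theorem finrank_le_of_degree (h : IsFF K F) (d : ℕ) : ∀ (Y : Divisor K F), (∀ v, 0 ≤ Y v) →
    Divisor.degree Y = d → ∀ (E : Divisor K F) (V : Submodule K F) [FiniteDimensional K V],
    V ≤ LL E → Module.finrank K V ≤ Module.finrank K ↥(V ⊓ LL (E - Y)) + d := by
  induction d with
  | zero =>
    intro Y hY hd E V _ hV
    have := eq_zero_of_degree_eq_zero h Y hY (by simpa using hd)
    subst this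
    rw [sub_zero, inf_eq_left.2 hV]; simp
  | succ d ih =>
    intro Y hY hd E V _ hV
    obtain ⟨v, hv⟩ : ∃ v, 0 < Y v := by
      by_contra hcon
      push Not at hcon
      have : Y = 0 := by ext v; exact le_antisymm (hcon v) (hY v)
      rw [this, map_zero] at hd
      have : (0 : ℤ) < ((d + 1 : ℕ) : ℤ) := by positivity
      omega
    set Y' : Divisor K F := Y - Finsupp.single v 1 with hY'def
    have hY' : ∀ w, 0 ≤ Y' w := by
      intro w
      by_cases hw : w = v
      · subst hw; rw [hY'def, sub_single_apply_self]; omega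
      · rw [hY'def, sub_single_apply_of_ne Y hw]; exact hY w
    have hd' : Divisor.degree Y' = d := by
      rw [hY'def, map_sub, hd, degree_single_one h]; push_cast; ring
    have h1 := ih Y' hY' hd' E V hV
    have hfin : FiniteDimensional K ↥(V ⊓ LL (E - Y')) :=
      Submodule.finiteDimensional_of_le inf_le_left
    have hfin2 : FiniteDimensional K ↥(V ⊓ LL (E - Y)) :=
      Submodule.finiteDimensional_of_le inf_le_left
    have h2 := finrank_le_step h (E - Y') v (V ⊓ LL (E - Y')) inf_le_right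
    have h3 : (V ⊓ LL (E - Y')) ⊓ LL (E - Y' - Finsupp.single v 1) ≤ V ⊓ LL (E - Y) := by
      have : E - Y' - Finsupp.single v 1 = E - Y := by rw [hY'def]; abel
      rw [this]; exact inf_le_inf_right _ inf_le_left
    have h4 := Submodule.finrank_mono h3
    omega

theorem exists_ne_zero_mem (h : IsFF K F) (Y : Divisor K F) (hY : ∀ v, 0 ≤ Y v)
    (E : Divisor K F) (V : Submodule K F) [FiniteDimensional K V] (hV : V ≤ LL E)
    (hd : Divisor.degree Y < Module.finrank K V) :
    ∃ g ∈ V, g ≠ 0 ∧ g ∈ LL (E - Y) := by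
  have hd0 : 0 ≤ Divisor.degree Y := by
    rw [h.degree_eq_sum, Finsupp.sum]
    exact Finset.sum_nonneg fun v _ => hY v
  obtain ⟨d, hdd⟩ := Int.eq_ofNat_of_zero_le hd0
  have h1 := finrank_le_of_degree h d Y hY hdd E V hV
  have h2 : 0 < Module.finrank K ↥(V ⊓ LL (E - Y)) := by
    rw [hdd] at hd
    have : d < Module.finrank K V := by exact_mod_cast hd
    omega
  have hfin2 : FiniteDimensional K ↥(V ⊓ LL (E - Y)) :=
    Submodule.finiteDimensional_of_le inf_le_left
  obtain ⟨⟨g, hg⟩, hg0⟩ := Module.finrank_pos_iff_exists_ne_zero.1 h2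
  exact ⟨g, hg.1, fun h0 => hg0 (Subtype.ext h0), hg.2⟩


omit [IsAlgClosed K] [CharZero K] in
theorem linearIndependent_pow_of_transcendental {x : F} (hx : Transcendental K x) :
    LinearIndependent K (fun i : ℕ => x ^ i) := by
  have h1 : LinearIndependent K (fun i : ℕ => (Polynomial.monomial i (1 : K))) := by
    have := (Polynomial.basisMonomials K).linearIndependent
    simpa [Polynomial.coe_basisMonomials] using this
  have h2 := h1.map' (Polynomial.aeval x : Polynomial K →ₐ[K] F).toLinearMap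
    (LinearMap.ker_eq_bot.2 (transcendental_iff_injective.1 hx))
  have h3 : (fun i : ℕ => x ^ i) = ((Polynomial.aeval x : Polynomial K →ₐ[K] F).toLinearMap ∘
      fun i : ℕ => (Polynomial.monomial i (1 : K))) := by
    ext i
    simp [Polynomial.aeval_monomial]
  rw [h3]; exact h2

omit [IsAlgClosed K] [CharZero K] in
theorem ord_pow' (v : Place K F) (f : F) (n : ℕ) : v.ord (f ^ n) = n * v.ord f := by
  rw [← zpow_natCast, v.ord_zpow]

open scoped IntermediateField.algebraAdjoinAdjoin in
theorem exists_family (h : IsFF K F) : ∃ (n : ℕ) (B : Divisor K F) (c : ℕ), 0 < n ∧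
    Divisor.degree B = n ∧ ∀ l : ℕ, ∃ V : Submodule K F, FiniteDimensional K V ∧
      V ≤ LL (((l + c : ℕ) : ℤ) • B) ∧ Module.finrank K V = (l + 1) * n := by
  classical
  have h' := h
  obtain ⟨x, hx, hfin⟩ := h
  have hx0 : x ≠ 0 := by rintro rfl; exact hx isAlgebraic_zero
  have hP : {v : Place K F | 0 < v.ord x⁻¹}.Finite :=
    S24.finite_zeroPlaces x⁻¹ (S24.transcendental_inv x hx) (S24.finiteDimensional_adjoin_inv x hfin)
  let B : Divisor K F := Finsupp.onFinset hP.toFinset (fun v => max 0 (v.ord x⁻¹)) (by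
    intro v hv
    rw [Set.Finite.mem_toFinset, Set.mem_ofPred_eq]
    by_contra hcon
    exact hv (max_eq_left (not_lt.1 hcon)))
  have hB : ∀ v, B v = max 0 (-(v.ord x)) := fun v => by
    show max 0 (v.ord x⁻¹) = _
    rw [v.ord_inv]
  obtain ⟨s, b, hb⟩ := FiniteDimensional.exists_is_basis_integral (Algebra.adjoin K {x}) K⟮x⟯ F
  have hn : Module.finrank K⟮x⟯ F = Fintype.card s := Module.finrank_eq_card_basis b
  have hdeg : Divisor.degree B = (Fintype.card s : ℕ) := by
    rw [h'.degree_eq_sum, Finsupp.onFinset_sum _ (fun _ => rfl), ← hn]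
    have h1 := S24.sum_ord_zeroPlaces x⁻¹ (S24.transcendental_inv x hx)
      (S24.finiteDimensional_adjoin_inv x hfin)
    rw [finsum_mem_eq_finite_toFinset_sum _ hP] at h1
    have h2 : Module.finrank K⟮x⁻¹⟯ F = Module.finrank K⟮x⟯ F := by rw [S24.adjoin_inv_eq]
    rw [← h2, ← h1]
    apply Finset.sum_congr rfl
    intro v hv
    rw [Set.Finite.mem_toFinset, Set.mem_ofPred_eq] at hv
    exact max_eq_right hv.le
  let c : ℕ := ∑ j : s, ∑ v ∈ hP.toFinset, (v.ord (b j)).natAbs
  have hc : ∀ (j : s) (v : Place K F), v.ord x < 0 → -(c : ℤ) ≤ v.ord (b j) := by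
    intro j v hv
    have hv' : v ∈ hP.toFinset := by
      rw [Set.Finite.mem_toFinset, Set.mem_ofPred_eq, v.ord_inv]; omega
    have h1 : (v.ord (b j)).natAbs ≤ ∑ v ∈ hP.toFinset, (v.ord (b j)).natAbs :=
      Finset.single_le_sum (f := fun v : Place K F => (v.ord (b j)).natAbs)
        (fun _ _ => Nat.zero_le _) hv'
    have h2 : ∑ v ∈ hP.toFinset, (v.ord (b j)).natAbs ≤ c :=
      Finset.single_le_sum (f := fun j : s => ∑ v ∈ hP.toFinset, (v.ord (b j)).natAbs)
        (fun _ _ => Nat.zero_le _) (Finset.mem_univ j)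
    omega
  have hnonneg : ∀ (j : s) (v : Place K F), 0 ≤ v.ord x → 0 ≤ v.ord (b j) := by
    intro j v hv
    apply S24.ord_nonneg_of_mem
    exact S24.mem_valuationSubring_of_isIntegral v.toValuationSubring
      (S24.adjoin_le_valuationSubring x _ v.algebraMap_mem' (S24.mem_of_ord_nonneg v hv)) (hb j)
  refine ⟨Fintype.card s, B, c, ?_, hdeg, fun l => ?_⟩
  · rw [← hn]; exact Module.finrank_pos
  let f : Fin (l + 1) × s → F := fun p => x ^ (p.1 : ℕ) * b p.2
  have hlin : LinearIndependent K f := by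
    have h1 : LinearIndependent K (fun i : ℕ => (AdjoinSimple.gen K x) ^ i) := by
      apply LinearIndependent.of_comp (K⟮x⟯.val.toLinearMap)
      have h4 : (K⟮x⟯.val.toLinearMap ∘ fun i : ℕ => (AdjoinSimple.gen K x) ^ i) =
          fun i : ℕ => x ^ i := by
        ext i
        simp
      rw [h4]; exact linearIndependent_pow_of_transcendental hx
    have h2 : LinearIndependent K (fun i : Fin (l + 1) => (AdjoinSimple.gen K x) ^ (i : ℕ)) :=
      h1.comp _ Fin.val_injective
    have h3 := linearIndependent_smul h2 b.linearIndependent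
    have h5 : f = fun p : Fin (l + 1) × s => (AdjoinSimple.gen K x) ^ (p.1 : ℕ) • b p.2 := by
      ext p
      rw [Algebra.smul_def]
      simp [f]
    rw [h5]; exact h3
  refine ⟨Submodule.span K (Set.range f), FiniteDimensional.span_of_finite K (Set.finite_range f),
    ?_, ?_⟩
  · rw [Submodule.span_le]
    rintro _ ⟨⟨i, j⟩, rfl⟩
    have hbj : b j ≠ 0 := b.ne_zero j
    have hne : f (i, j) ≠ 0 := mul_ne_zero (pow_ne_zero _ hx0) hbj
    rw [SetLike.mem_coe, mem_LL_iff hne]
    intro v
    have hord : v.ord (f (i, j)) = (i : ℕ) * v.ord x + v.ord (b j) := by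
      show v.ord (x ^ (i : ℕ) * b j) = _
      rw [v.ord_mul (pow_ne_zero _ hx0) hbj, ord_pow']
    rw [hord, Finsupp.smul_apply, hB, smul_eq_mul]
    have hi : ((i : ℕ) : ℤ) ≤ l := by have := i.2; omega
    rcases lt_or_ge (v.ord x) 0 with hv | hv
    · have h1 := hc j v hv
      rw [max_eq_right (by omega)]
      push_cast
      nlinarith
    · have h1 := hnonneg j v hv
      rw [max_eq_left (by omega), mul_zero, zero_add]
      positivity
  · rw [finrank_span_eq_card hlin, Fintype.card_prod, Fintype.card_fin]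

end Step

end RiemannAux

variable {K F : Type*} [Field K] [Field F] [Algebra K F] [IsAlgClosed K] [CharZero K]

open RiemannAux in
/-- [S37/RI] -/
theorem IsFF.riemann (h : IsFF K F) : ∃ γ : ℤ, ∀ D : Divisor K F, γ ≤ Divisor.degree D →
    ∃ g : F, g ≠ 0 ∧ ∀ v : Place K F, 0 ≤ D v + v.ord g := by
  classical
  obtain ⟨n, B, c, hn, hB, hfam⟩ := exists_family h
  refine ⟨(n : ℤ) * ((c : ℤ) - 1) + 1, fun D hD => ?_⟩
  -- an effective divisor `P ≥ D`
  let P : Divisor K F := D.mapRange (fun m => max m 0) (by simp)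
  have hP : ∀ v, P v = max (D v) 0 := fun v => Finsupp.mapRange_apply ..
  have hP0 : ∀ v, 0 ≤ P v := fun v => by rw [hP]; exact le_max_right _ _
  have hPD : ∀ v, 0 ≤ (P - D) v := fun v => by
    rw [Finsupp.sub_apply, hP]; have := le_max_left (D v) 0; omega
  set l : ℕ := (Divisor.degree P).toNat with hl
  obtain ⟨V, hVfin, hV, hVr⟩ := hfam l
  set E : Divisor K F := ((l + c : ℕ) : ℤ) • B with hE
  have hdegE : Divisor.degree E = ((l + c : ℕ) : ℤ) * n := by
    rw [hE, map_zsmul, hB, smul_eq_mul]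
  -- first function
  obtain ⟨z, -, hz0, hz⟩ := exists_ne_zero_mem h P hP0 E V hV (by
    rw [hVr]
    have h1 : Divisor.degree P ≤ l := Int.self_le_toNat _
    have h2 : ((l : ℤ) + 1) * 1 ≤ ((l : ℤ) + 1) * n := by
      apply mul_le_mul_of_nonneg_left _ (by positivity)
      exact_mod_cast hn
    push_cast
    omega)
  obtain ⟨Dz, hDz, hDz0⟩ := h.hasPrincipalDivisors.exists_divisor z hz0
  rw [mem_LL_iff hz0] at hz
  set Y : Divisor K F := (Dz + E - P) + (P - D) with hY
  have hY0 : ∀ v, 0 ≤ Y v := by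
    intro v
    have h1 := hz v
    have h2 := hPD v
    rw [hY, Finsupp.add_apply, Finsupp.sub_apply, Finsupp.add_apply, hDz]
    rw [Finsupp.sub_apply] at h1
    omega
  obtain ⟨g, -, hg0, hg⟩ := exists_ne_zero_mem h Y hY0 E V hV (by
    rw [hVr, hY]
    simp only [map_add, map_sub, hDz0, hdegE]
    push_cast
    nlinarith)
  rw [mem_LL_iff hg0] at hg
  refine ⟨g / z, div_ne_zero hg0 hz0, fun v => ?_⟩
  have h1 := hg v
  rw [div_eq_mul_inv, v.ord_mul hg0 (inv_ne_zero hz0), v.ord_inv]
  rw [hY] at h1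
  simp only [Finsupp.sub_apply, Finsupp.add_apply, hDz] at h1
  omega

omit [IsAlgClosed K] [CharZero K] in
theorem RiemannAux.map_eq_sum (a : Divisor K F →+ ℤ) (D : Divisor K F) :
    a D = D.sum fun v m => m * a (Finsupp.single v 1) := by
  conv_lhs => rw [← Finsupp.sum_single D]
  rw [map_finsuppSum]
  apply Finsupp.sum_congr
  intro v _
  have : Finsupp.single v (D v) = (D v) • (Finsupp.single v (1 : ℤ) : Divisor K F) := by
    rw [Finsupp.smul_single, smul_eq_mul, mul_one]
  rw [this, map_zsmul, smul_eq_mul]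

open RiemannAux in
/-- [S37/RG] -/
theorem IsFF.rigid (h : IsFF K F) (a : Divisor K F →+ ℤ) (c : ℤ)
    (hc : ∀ v : Place K F, |a (Finsupp.single v 1)| ≤ c)
    (hprin : ∀ D ∈ Divisor.principal (K := K) (F := F), a D = 0) :
    ∀ D ∈ Divisor.degZero (K := K) (F := F), a D = 0 := by
  classical
  obtain ⟨γ₀, hγ₀⟩ := h.riemann
  set γ : ℤ := max γ₀ 0 with hγ
  have hγ0 : 0 ≤ γ := le_max_right _ _
  -- bound on effective divisors
  have hbound : ∀ R : Divisor K F, (∀ v, 0 ≤ R v) → |a R| ≤ c * Divisor.degree R := by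
    intro R hR
    rw [map_eq_sum a R, h.degree_eq_sum, Finsupp.sum, Finsupp.sum, Finset.mul_sum]
    refine (Finset.abs_sum_le_sum_abs _ _).trans (Finset.sum_le_sum fun v _ => ?_)
    rw [abs_mul, abs_of_nonneg (hR v), mul_comm]
    exact mul_le_mul_of_nonneg_right (hc v) (hR v)
  have hconst : ∀ v₀ v₁ : Place K F, a (Finsupp.single v₀ 1) = a (Finsupp.single v₁ 1) := by
    intro v₀ v₁
    by_contra hne
    set δ : ℤ := a (Finsupp.single v₀ 1) - a (Finsupp.single v₁ 1) with hδ
    have hδ0 : 1 ≤ |δ| := Int.one_le_abs (sub_ne_zero.2 hne)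
    have key : ∀ n : ℕ, (n : ℤ) * |δ| ≤ 2 * (c * γ) := by
      intro n
      set D : Divisor K F := (n : ℤ) • (Finsupp.single v₀ 1 - Finsupp.single v₁ 1) +
        γ • Finsupp.single v₁ 1 with hD
      have hdeg : Divisor.degree D = γ := by
        rw [hD, map_add, map_zsmul, map_zsmul, map_sub, degree_single_one h, degree_single_one h]
        simp
      obtain ⟨g, hg0, hg⟩ := hγ₀ D (by rw [hdeg]; exact le_max_left _ _)
      obtain ⟨Dg, hDg, hDg0⟩ := h.hasPrincipalDivisors.exists_divisor g hg0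
      have h1 := hbound (D + Dg) (fun v => by rw [Finsupp.add_apply, hDg]; exact hg v)
      have h2 : a Dg = 0 := hprin Dg ⟨g, hg0, hDg⟩
      rw [map_add a D Dg, map_add Divisor.degree D Dg, h2, hDg0, add_zero, add_zero, hdeg] at h1
      have h3 : a D = n * δ + γ * a (Finsupp.single v₁ 1) := by
        rw [hD, map_add, map_zsmul, map_zsmul, map_sub, smul_eq_mul, smul_eq_mul]
      have h4 : |γ * a (Finsupp.single v₁ 1)| ≤ c * γ := by
        rw [abs_mul, abs_of_nonneg hγ0, mul_comm]
        exact mul_le_mul_of_nonneg_right (hc v₁) hγ0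
      have h5 : |(n : ℤ) * δ| ≤ |a D| + |γ * a (Finsupp.single v₁ 1)| := by
        have : (n : ℤ) * δ = a D - γ * a (Finsupp.single v₁ 1) := by rw [h3]; ring
        rw [this]; exact abs_sub _ _
      rw [abs_mul, Nat.abs_cast] at h5
      omega
    have hcγ : 0 ≤ 2 * (c * γ) := by have := key 0; simpa using this
    have := key ((2 * (c * γ)).toNat + 1)
    have h6 : ((2 * (c * γ)).toNat : ℤ) = 2 * (c * γ) := Int.toNat_of_nonneg hcγ
    push_cast at this
    rw [h6] at this
    nlinarith
  intro D hD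
  by_cases hD0 : D = 0
  · rw [hD0, map_zero]
  obtain ⟨v₀, -⟩ := Finsupp.support_nonempty_iff.2 hD0
  rw [Divisor.mem_degZero, h.degree_eq_sum, Finsupp.sum] at hD
  rw [map_eq_sum a D, Finsupp.sum]
  have : ∀ v ∈ D.support, D v * a (Finsupp.single v 1) = D v * a (Finsupp.single v₀ 1) :=
    fun v _ => by rw [hconst v v₀]
  rw [Finset.sum_congr rfl this, ← Finset.sum_mul, hD, zero_mul]

end Fermat.Agent.S37
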