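import Fermat.Agent.S37.BrHyp

/-!
# S37 / BRIDGE, piece BR-5 : functions on the special fibre which are regular on both charts are constant

`z ∈ Ft` in the image of `Cbar A τ F` and of `Cbar A τ⁻¹ F`.  Put `k = kk A` (algebraically closed, `isAlgClosed_kk`),
`tb = red τ ∈ Ft`; `red τ⁻¹ = tb⁻¹`.  `z` is integral over `k[tb]` and over `k[tb⁻¹]` (the `Cbar`'s are finite over `k[X]`, `X ↦ tb`, resp.
`tb⁻¹`); `tb` is transcendental over `k` (`algebraMap_poly_injective` + injectivity of `Cbar → Ft`).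

ROUTE A (reuse): apply helper28's `S18.KL.C0_inter_C0_inv` to the field `k`, its valuation subring `⊤`,
`L' := IntermediateField.adjoin k {tb}` (`τ' := AdjoinSimple.gen k tb`, `IsGen` as in helper13's `S18.isGen_tauL`), `E := Ft`
(`FiniteDimensional L' Ft`: spanned by the images of `gb.w i`).  `C0 ⊤ τ' Ft` is the integral closure of `k[tb]`.
ROUTE B (direct): the minimal polynomial of `z` over `k(tb)` has coefficients integral over `k[tb]` and over `k[tb⁻¹]`, hence in
`k[tb] ∩ k[tb⁻¹] = k`; so `z` is algebraic over `k`, so `z ∈ k`.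
-/

set_option autoImplicit false
set_option linter.unusedSectionVars false

noncomputable section

namespace Fermat.Agent.S37

open Polynomial Fermat.Agent.S18.KL IsDedekindDomain AlgebraicCurve

variable {K : Type*} [Field K] {A : ValuationSubring K}
variable {L : Type*} [Field L] [Algebra K L] {τ : L}
variable {F : Type*} [Field F] [Algebra L F] [Algebra K F] [IsScalarTower K L F]
variable {Ft : Type*} [Field Ft] [Algebra (kk A) Ft] {O : Subring F} {red : O →+* Ft}

namespace Inter

open IntermediateField in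
theorem isGen_gen {k M : Type*} [Field k] [Field M] [Algebra k M] (t : M) :
    IsGen k (AdjoinSimple.gen k t) := by
  intro x
  obtain ⟨P, Q, hx⟩ := (IntermediateField.mem_adjoin_simple_iff k (x : M)).mp x.2
  have hco : ∀ R : k[X], ((aeval (AdjoinSimple.gen k t) R : k⟮t⟯) : M) = aeval t R := by
    intro R
    exact (Polynomial.aeval_algebraMap_apply M (AdjoinSimple.gen k t) R).symm
  by_cases hQ : aeval t Q = 0
  · refine ⟨0, 1, one_ne_zero, ?_⟩
    rw [hQ, div_zero] at hx
    have : x = 0 := Subtype.ext hx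
    simp [this]
  · refine ⟨P, Q, fun h => hQ (by rw [h, map_zero]), Subtype.ext ?_⟩
    show (x : M) * ((aeval (AdjoinSimple.gen k t) Q : k⟮t⟯) : M) = _
    rw [hco, hco, hx, div_mul_cancel₀ _ hQ]

/-- the reduction of the coordinate -/
def tb (h : RedData A τ F O red) : Ft := red ⟨algebraMap L F τ, h.C0_le (tau_mem_C0 A τ F)⟩

/-- `k[X] → Cbar → Ft` -/
def phiB (A : ValuationSubring K) (τ : L) (F : Type*) [Field F] [Algebra L F]
    (Ft : Type*) [Field Ft] [Algebra (Cbar A τ F) Ft] : (kk A)[X] →+* Ft :=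
  (algebraMap (Cbar A τ F) Ft).comp (algebraMap (kk A)[X] (Cbar A τ F))

theorem phiB_C (h : RedData A τ F O red) [Algebra (Cbar A τ F) Ft]
    (hbar : BarCompat A τ F O red) (a : kk A) : phiB A τ F Ft (C a) = algebraMap (kk A) Ft a := by
  have := isScalarTower_Cbar h hbar
  rw [IsScalarTower.algebraMap_apply (kk A) (Cbar A τ F) Ft]
  rfl

theorem phiB_X (h : RedData A τ F O red) [Algebra (Cbar A τ F) Ft]
    (hbar : BarCompat A τ F O red) : phiB A τ F Ft X = tb h := by
  have h1 : (X : (kk A)[X]) = redP A X := by simp [redP]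
  rw [phiB, RingHom.comp_apply, h1, algebraMap_redP,
    hbar (toC0 A τ F X) (h.C0_le (toC0 A τ F X).2), tb]
  congr 1
  apply Subtype.ext
  rw [coe_toC0, evE_apply, evL_X]

theorem phiB_eq_aeval (h : RedData A τ F O red) [Algebra (Cbar A τ F) Ft]
    (hbar : BarCompat A τ F O red) (P : (kk A)[X]) : phiB A τ F Ft P = aeval (tb h) P := by
  have : phiB A τ F Ft = (aeval (tb h) : (kk A)[X] →ₐ[kk A] Ft).toRingHom := by
    apply Polynomial.ringHom_ext
    · intro a
      rw [phiB_C h hbar]
      simp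
    · rw [phiB_X h hbar]
      simp
  rw [this]
  rfl

theorem algebraMap_Cbar_injective [FiniteDimensional L F] (hτ : Transcendental K τ)
    (hgen : IsGen K τ) (h : RedData A τ F O red) [Algebra (Cbar A τ F) Ft]
    (hbar : BarCompat A τ F O red) : Function.Injective (algebraMap (Cbar A τ F) Ft) := by
  rw [injective_iff_map_eq_zero]
  intro Y hY
  obtain ⟨y, rfl⟩ := Ideal.Quotient.mk_surjective Y
  rw [hbar y (h.C0_le y.2), h.ker] at hY
  rw [mk_eq_zero_iff]
  exact Sm0_of_SmV A hτ hgen y.2 hY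

theorem transcendental_tb [FiniteDimensional L F] (hτ : Transcendental K τ)
    (hgen : IsGen K τ) {n : ℕ} (gb : GoodBasis A τ F n) (h : RedData A τ F O red)
    [Algebra (Cbar A τ F) Ft] (hbar : BarCompat A τ F O red) : Transcendental (kk A) (tb h) := by
  have := isDomain_Cbar hτ hgen h
  rw [transcendental_iff_injective]
  intro P Q hPQ
  rw [← phiB_eq_aeval h hbar, ← phiB_eq_aeval h hbar] at hPQ
  exact algebraMap_poly_injective hτ hgen gb (algebraMap_Cbar_injective hτ hgen h hbar hPQ)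

/-- `k → ⊤` -/
def eTop (k : Type*) [Field k] : k →+* ↥(⊤ : ValuationSubring k) where
  toFun a := ⟨a, trivial⟩
  map_one' := rfl
  map_mul' _ _ := rfl
  map_zero' := rfl
  map_add' _ _ := rfl

/-- the image of `Cbar` in `Ft` is integral over `k[tb]` -/
theorem mem_C0_top (hτ : Transcendental K τ) (hgen : IsGen K τ) {n : ℕ}
    (gb : GoodBasis A τ F n) (h : RedData A τ F O red)
    [Algebra (Cbar A τ F) Ft] (hbar : BarCompat A τ F O red)
    {L' : Type*} [Field L'] [Algebra (kk A) L'] [Algebra L' Ft] [IsScalarTower (kk A) L' Ft]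
    (σ : L') (hσ : algebraMap L' Ft σ = tb h) (b : Cbar A τ F) :
    algebraMap (Cbar A τ F) Ft b ∈ C0 (⊤ : ValuationSubring (kk A)) σ Ft := by
  obtain ⟨bas, -⟩ := gb.exists_bar hτ hgen
  have hfin : Module.Finite (kk A)[X] (Cbar A τ F) := Module.Finite.of_basis bas
  obtain ⟨p, hp, hpb⟩ := (Algebra.IsIntegral.isIntegral (R := (kk A)[X]) b)
  have h1 : eval₂ (phiB A τ F Ft) (algebraMap (Cbar A τ F) Ft b) p = 0 := by
    rw [phiB, ← Polynomial.hom_eval₂, hpb, map_zero]
  have h2 : phiB A τ F Ft =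
      (evE (⊤ : ValuationSubring (kk A)) σ Ft).comp (mapRingHom (eTop (kk A))) := by
    apply Polynomial.ringHom_ext
    · intro a
      rw [phiB_C h hbar, RingHom.comp_apply, coe_mapRingHom, map_C, evE_apply, evL_C,
        ← IsScalarTower.algebraMap_apply]
      rfl
    · rw [phiB_X h hbar, RingHom.comp_apply, coe_mapRingHom, map_X, evE_apply, evL_X, hσ]
  refine ⟨p.map (mapRingHom (eTop (kk A))), hp.map _, ?_⟩
  rw [eval₂_map, ← h2]
  exact h1

theorem tb_inv [FiniteDimensional L F] (hτ : Transcendental K τ) (h : RedData A τ F O red) :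
    tb (h.inv hτ) = (tb h)⁻¹ := by
  have hτ0 : τ ≠ 0 := ne_zero_of_transcendental hτ
  apply eq_inv_of_mul_eq_one_left
  rw [tb, tb, ← map_mul, ← map_one red]
  congr 1
  apply Subtype.ext
  show algebraMap L F τ⁻¹ * algebraMap L F τ = 1
  rw [← map_mul, inv_mul_cancel₀ hτ0, map_one]

end Inter

open IntermediateField in
/-- [S37/BR-5] -/
theorem inter_Cbar [IsAlgClosed K] [CharZero K] [FiniteDimensional L F]
    (hτ : Transcendental K τ) (hgen : IsGen K τ) {n : ℕ}
    (gb : GoodBasis A τ F n) (gb' : GoodBasis A τ⁻¹ F n) (h : RedData A τ F O red)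
    [Algebra (Cbar A τ F) Ft] (hbar : BarCompat A τ F O red)
    [Algebra (Cbar A τ⁻¹ F) Ft] (hbar' : BarCompat A τ⁻¹ F O red)
    (b0 : Cbar A τ F) (b1 : Cbar A τ⁻¹ F)
    (hb : algebraMap (Cbar A τ F) Ft b0 = algebraMap (Cbar A τ⁻¹ F) Ft b1) :
    ∃ c : kk A, algebraMap (Cbar A τ F) Ft b0 = algebraMap (kk A) Ft c := by
  have := isAlgClosed_kk A
  have htr := Inter.transcendental_tb hτ hgen gb h hbar
  set t := Inter.tb h with ht
  have hσ : algebraMap (kk A)⟮t⟯ Ft (AdjoinSimple.gen (kk A) t) = t := AdjoinSimple.algebraMap_gen _ _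
  have htr' : Transcendental (kk A) (AdjoinSimple.gen (kk A) t) := by
    rw [← transcendental_algebraMap_iff (A := Ft) (algebraMap (kk A)⟮t⟯ Ft).injective, hσ]
    exact htr
  have h0 := Inter.mem_C0_top hτ hgen gb h hbar (AdjoinSimple.gen (kk A) t) hσ b0
  have h1 := Inter.mem_C0_top (transcendental_inv' hτ) (isGen_inv hτ hgen) gb' (h.inv hτ) hbar'
    (AdjoinSimple.gen (kk A) t)⁻¹ (by rw [map_inv₀, hσ, Inter.tb_inv hτ h]) b1
  rw [← hb] at h1
  obtain ⟨a, ha⟩ := SatC.C0_inter_C0_inv (⊤ : ValuationSubring (kk A)) htr' (Inter.isGen_gen t) h0 h1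
  refine ⟨(a : kk A), ?_⟩
  rw [ha, evE_apply, evL_C, ← IsScalarTower.algebraMap_apply]

end Fermat.Agent.S37
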