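import Mathlib
import Fermat.Prelude.Def_HeckeGalois_EichlerShimura

/-!
# S37, piece ALG: `SpecializationExists` from the key statement `W ∩ J[p^∞] = 0`

`J' := J ⧸ W`, `W` = the subgroup generated by `(τ - 1) J` (`τ` in the inertia group of `A`) and by
`(σ² - T_ℓ σ + ℓ) J` for ONE fixed Frobenius element `σ` at `A`; `sp` = the quotient map,
`F` = the map induced by `σ`.

Proof.  (1) `W` is stable under `HeckeAlg` (`t • (τ • z - z) = τ • (t • z) - t • z` by `smul_comm`,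
`t • Θ z = Θ (t • z)` because `HeckeAlg` is commutative and commutes with `σ`), so `J ⧸ W` is a
`HeckeAlg`-module (take `W` as a `Submodule HeckeAlg J`: `Submodule.span` of the generators and show
that its carrier is the additive closure, or define `W` as span and prove that every element of the span
is in the closure by `Submodule.span_induction`).
(2) `W` is stable under `σ`: `σ • (τ • z - z) = (σ τ σ⁻¹) • (σ • z) - σ • z` and `σ τ σ⁻¹` is in the inertia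
group (`A.inertiaSubgroup K` is a normal subgroup of `A.decompositionSubgroup K`, it is the kernel of a hom);
`σ • Θ z = Θ (σ • z)`.
(3) two Frobenius elements `σ, σ'` at `A` differ by an element of the inertia group:
`σ⁻¹ σ'` acts trivially on the residue field.  Hence `sp (σ' • x) = sp (σ • x) = F (sp x)`.
(4) `F² - T_ℓ F + ℓ = 0` on `J ⧸ W` because `Θ z ∈ W`.
-/

set_option autoImplicit false

open ModularCurve

namespace Fermat.Agent.S37

variable {K L : Type*} [Field K] [Field L] [Algebra K L]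

/-- the generators of `W` -/
def wGens (J : Type) [AddCommGroup J] [Module HeckeAlg J] [DistribMulAction (L ≃ₐ[K] L) J]
    (A : ValuationSubring L) (ℓ : Nat.Primes) (σ : L ≃ₐ[K] L) : Set J :=
  {y | ∃ τ ∈ A.inertiaSubgroupIn K, ∃ z : J, y = τ • z - z} ∪
    {y | ∃ z : J, y = σ • σ • z - heckeGen ℓ • (σ • z) + (ℓ : ℕ) • z}

namespace AlgAux

theorem conj_mem_inertia (A : ValuationSubring L) {σ τ : L ≃ₐ[K] L}
    (hσ : σ ∈ A.decompositionSubgroup K) (hτ : τ ∈ A.inertiaSubgroupIn K) :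
    σ * τ * σ⁻¹ ∈ A.inertiaSubgroupIn K := by
  obtain ⟨τ', hτ', rfl⟩ := Subgroup.mem_map.mp hτ
  refine Subgroup.mem_map.mpr ⟨⟨σ, hσ⟩ * τ' * ⟨σ, hσ⟩⁻¹, ?_, rfl⟩
  exact (MonoidHom.normal_ker (MulSemiringAction.toRingAut (A.decompositionSubgroup K)
    (IsLocalRing.ResidueField A))).conj_mem τ' hτ' ⟨σ, hσ⟩

theorem mul_inv_mem_inertia (A : ValuationSubring L) {σ σ' : L ≃ₐ[K] L} {ℓ : ℕ}
    (hσ : A.IsFrobeniusAt σ ℓ) (hσ' : A.IsFrobeniusAt σ' ℓ) :
    σ' * σ⁻¹ ∈ A.inertiaSubgroupIn K := by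
  obtain ⟨hd, h⟩ := hσ
  obtain ⟨hd', h'⟩ := hσ'
  refine Subgroup.mem_map.mpr ⟨⟨σ', hd'⟩ * ⟨σ, hd⟩⁻¹, ?_, rfl⟩
  show MulSemiringAction.toRingAut (A.decompositionSubgroup K)
    (IsLocalRing.ResidueField A) (⟨σ', hd'⟩ * ⟨σ, hd⟩⁻¹) = 1
  ext y
  show (⟨σ', hd'⟩ * ⟨σ, hd⟩⁻¹ : A.decompositionSubgroup K) • y = y
  rw [mul_smul, h', ← h, smul_inv_smul]

variable (J : Type) [AddCommGroup J] [Module HeckeAlg J] [DistribMulAction (L ≃ₐ[K] L) J]
  [SMulCommClass (L ≃ₐ[K] L) HeckeAlg J]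

theorem smul_mem_wGens (A : ValuationSubring L) (ℓ : Nat.Primes) (σ : L ≃ₐ[K] L) (t : HeckeAlg)
    {y : J} (hy : y ∈ wGens (K := K) J A ℓ σ) : t • y ∈ wGens (K := K) J A ℓ σ := by
  rcases hy with ⟨τ, hτ, z, rfl⟩ | ⟨z, rfl⟩
  · exact Or.inl ⟨τ, hτ, t • z, by rw [smul_sub, smul_comm τ t z]⟩
  · refine Or.inr ⟨t • z, ?_⟩
    rw [smul_add, smul_sub, smul_comm σ t z, smul_comm σ t (σ • z), smul_comm t (heckeGen ℓ),
      smul_comm t ((ℓ : ℕ)) z]

theorem smul_mem_closure (A : ValuationSubring L) (ℓ : Nat.Primes) (σ : L ≃ₐ[K] L) (t : HeckeAlg)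
    {y : J} (hy : y ∈ AddSubgroup.closure (wGens (K := K) J A ℓ σ)) :
    t • y ∈ AddSubgroup.closure (wGens (K := K) J A ℓ σ) := by
  induction hy using AddSubgroup.closure_induction with
  | mem y hy => exact AddSubgroup.subset_closure (smul_mem_wGens J A ℓ σ t hy)
  | zero => rw [smul_zero]; exact AddSubgroup.zero_mem _
  | add y z _ _ hy hz => rw [smul_add]; exact AddSubgroup.add_mem _ hy hz
  | neg y _ hy => rw [smul_neg]; exact AddSubgroup.neg_mem _ hy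

theorem span_le_closure (A : ValuationSubring L) (ℓ : Nat.Primes) (σ : L ≃ₐ[K] L) {x : J}
    (hx : x ∈ Submodule.span HeckeAlg (wGens (K := K) J A ℓ σ)) :
    x ∈ AddSubgroup.closure (wGens (K := K) J A ℓ σ) := by
  induction hx using Submodule.span_induction with
  | mem y hy => exact AddSubgroup.subset_closure hy
  | zero => exact AddSubgroup.zero_mem _
  | add y z _ _ hy hz => exact AddSubgroup.add_mem _ hy hz
  | smul t y _ hy => exact smul_mem_closure J A ℓ σ t hy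

theorem sigma_smul_mem_wGens (A : ValuationSubring L) (ℓ : Nat.Primes) (σ : L ≃ₐ[K] L)
    (hσ : σ ∈ A.decompositionSubgroup K) {y : J} (hy : y ∈ wGens (K := K) J A ℓ σ) :
    σ • y ∈ wGens (K := K) J A ℓ σ := by
  rcases hy with ⟨τ, hτ, z, rfl⟩ | ⟨z, rfl⟩
  · refine Or.inl ⟨σ * τ * σ⁻¹, conj_mem_inertia A hσ hτ, σ • z, ?_⟩
    rw [smul_sub, mul_smul, mul_smul, inv_smul_smul]
  · refine Or.inr ⟨σ • z, ?_⟩
    rw [smul_add, smul_sub, smul_comm σ (heckeGen ℓ) (σ • z), smul_comm σ ((ℓ : ℕ)) z]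

end AlgAux

open AlgAux in
/-- [S37/ALG] -/
theorem specializationExists_of_key (N p : ℕ) (J : Type) [AddCommGroup J] [Module HeckeAlg J]
    [DistribMulAction (L ≃ₐ[K] L) J] [SMulCommClass (L ≃ₐ[K] L) HeckeAlg J]
    (hfrob : ∀ ℓ : ℕ, ℓ.Prime → ∀ A : ValuationSubring L, A.LiesOverPrime ℓ →
      ∃ σ : L ≃ₐ[K] L, A.IsFrobeniusAt σ ℓ)
    (key : ∀ ℓ : ℕ, (hℓ : ℓ.Prime) → ¬ ℓ ∣ N * p → ∀ A : ValuationSubring L, A.LiesOverPrime ℓ →
      ∀ σ : L ≃ₐ[K] L, A.IsFrobeniusAt σ ℓ → ∀ x : J, (∃ n : ℕ, p ^ n • x = 0) →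
        x ∈ AddSubgroup.closure (wGens (K := K) J A ⟨ℓ, hℓ⟩ σ) → x = 0) :
    SpecializationExists (K := K) (L := L) N p J := by
  intro ℓ hℓ hnd A hA
  obtain ⟨σ, hσ⟩ := hfrob ℓ hℓ A hA
  set W : Submodule HeckeAlg J := Submodule.span HeckeAlg (wGens (K := K) J A ⟨ℓ, hℓ⟩ σ) with hW
  have hWσ : W ≤ W.comap (DistribSMul.toLinearMap HeckeAlg J σ) := by
    rw [hW, Submodule.span_le]
    intro y hy
    exact Submodule.subset_span
      (sigma_smul_mem_wGens J A ⟨ℓ, hℓ⟩ σ hσ.mem_decompositionSubgroup hy)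
  have hin : ∀ τ ∈ A.inertiaSubgroupIn K, ∀ x : J, W.mkQ (τ • x) = W.mkQ x := by
    intro τ hτ x
    rw [← sub_eq_zero, ← map_sub, Submodule.mkQ_apply, Submodule.Quotient.mk_eq_zero]
    exact Submodule.subset_span (Or.inl ⟨τ, hτ, x, rfl⟩)
  refine ⟨J ⧸ W, inferInstance, inferInstance, W.mkQ.toAddMonoidHom,
    (W.mapQ W (DistribSMul.toLinearMap HeckeAlg J σ) hWσ).toAddMonoidHom,
    ⟨fun T x => map_smul W.mkQ T x, hin, ?_, ?_⟩, ?_⟩
  · intro σ' hσ' x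
    show W.mkQ (σ' • x) = W.mkQ (σ • x)
    have h1 := hin _ (mul_inv_mem_inertia A hσ hσ') (σ • x)
    rwa [mul_smul, inv_smul_smul] at h1
  · intro x hx h0
    have h1 : x ∈ W := (Submodule.Quotient.mk_eq_zero W).mp h0
    exact key ℓ hℓ hnd A hA σ hσ x hx (span_le_closure J A ⟨ℓ, hℓ⟩ σ h1)
  · intro y
    obtain ⟨z, rfl⟩ := W.mkQ_surjective y
    show W.mkQ (σ • σ • z) - heckeGen ⟨ℓ, hℓ⟩ • W.mkQ (σ • z) + ℓ • W.mkQ z = 0
    rw [← map_smul, ← map_nsmul, ← map_sub, ← map_add, Submodule.mkQ_apply,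
      Submodule.Quotient.mk_eq_zero]
    exact Submodule.subset_span (Or.inr ⟨z, rfl⟩)

end Fermat.Agent.S37
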