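import Fermat.Agent.S37.BrDefs
import Fermat.Agent.S18.Z.Bridge

/-!
# S37 / BRIDGE, piece BR-2 : `B0` (integral closure of `K[τ]` in `F`) is a Dedekind domain with fraction field `F`

Use helper18's `S18.KL.Bridge.algL K τ`, `algE K τ F` (the `K[X]`-algebra structures on `L`, `F`), `isScalarTower`,
`isFractionRing_L hτ hgen`.  With these, `B0 K τ F` has the same carrier as `integralClosure K[X] F`
(`RingHom.IsIntegralElem (algebraMap K[X] F) x` is the definition of `IsIntegral K[X] x`), so there is a ring isomorphism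
`↥(B0 K τ F) ≃+* ↥(integralClosure K[X] F)` (identity on elements).
* `integralClosure.isDedekindDomain K[X] L F` (char `0` ⟹ separable), transport along the isomorphism
  (`RingEquiv.isDedekindDomain`-like; or prove `IsIntegralClosure ↥(B0 K τ F) K[X] F` for the obvious algebra structure and use
  `IsIntegralClosure.isDedekindDomain K[X] L F _`).
* `IsIntegralClosure.isFractionRing_of_finite_extension K[X] L F _`.
* `resK_B0`: `B0 ⧸ w` is a field which is integral over `K[X] ⧸ (w ∩ K[X])`; the latter is a field, `= K` (`K` algebraically closed); so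
  `B0 ⧸ w` is algebraic over `K`: `IsAlgClosed.algebraMap_bijective_of_isIntegral`.
* `int_B0`: valuation subrings are integrally closed; `K[τ] ⊆ O_P` (`P.toValuationSubring` contains the constants).
-/

set_option autoImplicit false
set_option linter.unusedSectionVars false

noncomputable section

namespace Fermat.Agent.S37

open Polynomial Fermat.Agent.S18.KL IsDedekindDomain AlgebraicCurve

variable {K : Type*} [Field K]
variable {L : Type*} [Field L] [Algebra K L] {τ : L}
variable {F : Type*} [Field F] [Algebra L F] [Algebra K F] [IsScalarTower K L F]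

namespace BrB0Aux

/-- `B0` as a `K[X]`-algebra -/
@[reducible] def algXB0 (K : Type*) [Field K] {L : Type*} [Field L] [Algebra K L] (τ : L)
    (F : Type*) [Field F] [Algebra L F] : Algebra K[X] ↥(B0 K τ F) :=
  ((evK K τ F).codRestrict (B0 K τ F) (fun g => evK_mem_B0 g)).toAlgebra

omit [Algebra K F] [IsScalarTower K L F] in
theorem isScalarTower_XB0 :
    letI := Bridge.algE K τ F
    letI := algXB0 K τ F
    IsScalarTower K[X] ↥(B0 K τ F) F :=
  letI := Bridge.algE K τ F
  letI := algXB0 K τ F
  .of_algebraMap_eq' rfl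

omit [Algebra K F] [IsScalarTower K L F] in
theorem isIntegralClosure_B0 :
    letI := Bridge.algE K τ F
    letI := algXB0 K τ F
    IsIntegralClosure ↥(B0 K τ F) K[X] F :=
  letI := Bridge.algE K τ F
  letI := algXB0 K τ F
  { algebraMap_injective := Subtype.val_injective
    isIntegral_iff := fun {x} => ⟨fun h => ⟨⟨x, h⟩, rfl⟩, fun ⟨y, hy⟩ => hy ▸ y.2⟩ }

theorem isScalarTower_KXB0 :
    letI := algXB0 K τ F
    IsScalarTower K K[X] ↥(B0 K τ F) :=
  letI := algXB0 K τ F
  .of_algebraMap_eq fun a => Subtype.ext (by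
    show algebraMap K F a = algebraMap L F (aeval τ (C a))
    rw [aeval_C, ← IsScalarTower.algebraMap_apply])

/-- residue fields of an integral extension of `K[X]`, `K` algebraically closed -/
theorem exists_sub_mem (K : Type*) [Field K] [IsAlgClosed K] {B : Type*} [CommRing B] [IsDomain B]
    [Algebra K[X] B] [Algebra K B] [IsScalarTower K K[X] B] [Algebra.IsIntegral K[X] B]
    (P : Ideal B) [hP : P.IsPrime] (hP0 : P ≠ ⊥) (b : B) : ∃ c : K, b - algebraMap K B c ∈ P := by
  have hp0 : P.under K[X] ≠ ⊥ := by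
    obtain ⟨y, hy, hy0⟩ := Submodule.exists_mem_ne_zero_of_ne_bot hP0
    exact Ideal.comap_ne_bot_of_integral_mem hy0 hy (Algebra.IsIntegral.isIntegral y)
  have hpp : (P.under K[X]).IsPrime := Ideal.comap_isPrime _ _
  have hpm : (P.under K[X]).IsMaximal := hpp.isMaximal hp0
  have h1 := Fermat.Agent.S24.algebraMap_quotient_bijective (K := K) (P.under K[X])
  have h2 : Algebra.IsIntegral K (K[X] ⧸ P.under K[X]) := ⟨fun z => by
    obtain ⟨c, rfl⟩ := h1.2 z
    exact isIntegral_algebraMap⟩
  have h3 : Algebra.IsIntegral K (B ⧸ P) := Algebra.IsIntegral.trans (K[X] ⧸ P.under K[X])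
  obtain ⟨c, hc⟩ := (IsAlgClosed.algebraMap_bijective_of_isIntegral (k := K) (K := B ⧸ P)).2
    (Ideal.Quotient.mk P b)
  refine ⟨c, ?_⟩
  rw [← Ideal.Quotient.eq_zero_iff_mem, map_sub, ← hc, sub_eq_zero]
  rfl

end BrB0Aux

/-- [S37/BR-2] -/
theorem isDedekindDomain_B0 [CharZero K] [FiniteDimensional L F]
    (hτ : Transcendental K τ) (hgen : IsGen K τ) : IsDedekindDomain ↥(B0 K τ F) := by
  let _ := Bridge.algL K τ
  let _ := Bridge.algE K τ F
  let _ := BrB0Aux.algXB0 K τ F
  have := Bridge.isScalarTower (K := K) τ F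
  have := Bridge.isFractionRing_L hτ hgen
  have := BrB0Aux.isScalarTower_XB0 (K := K) (τ := τ) (F := F)
  have := BrB0Aux.isIntegralClosure_B0 (K := K) (τ := τ) (F := F)
  have : CharZero L := charZero_of_injective_algebraMap (algebraMap K L).injective
  exact IsIntegralClosure.isDedekindDomain K[X] L F ↥(B0 K τ F)

/-- [S37/BR-2] -/
theorem isFractionRing_B0 [FiniteDimensional L F]
    (hτ : Transcendental K τ) (hgen : IsGen K τ) : IsFractionRing ↥(B0 K τ F) F := by
  let _ := Bridge.algL K τ
  let _ := Bridge.algE K τ F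
  let _ := BrB0Aux.algXB0 K τ F
  have := Bridge.isScalarTower (K := K) τ F
  have := Bridge.isFractionRing_L hτ hgen
  have := BrB0Aux.isScalarTower_XB0 (K := K) (τ := τ) (F := F)
  have := BrB0Aux.isIntegralClosure_B0 (K := K) (τ := τ) (F := F)
  exact IsIntegralClosure.isFractionRing_of_finite_extension K[X] L F ↥(B0 K τ F)

/-- [S37/BR-2] -/
theorem resK_B0 [IsAlgClosed K] [FiniteDimensional L F]
    (hτ : Transcendental K τ) (hgen : IsGen K τ) (w : HeightOneSpectrum ↥(B0 K τ F))
    (b : ↥(B0 K τ F)) : ∃ c : K, b - algebraMap K ↥(B0 K τ F) c ∈ w.asIdeal := by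
  let _ := Bridge.algE K τ F
  let _ := BrB0Aux.algXB0 K τ F
  have := BrB0Aux.isScalarTower_XB0 (K := K) (τ := τ) (F := F)
  have := BrB0Aux.isIntegralClosure_B0 (K := K) (τ := τ) (F := F)
  have := BrB0Aux.isScalarTower_KXB0 (K := K) (τ := τ) (F := F)
  have : Algebra.IsIntegral K[X] ↥(B0 K τ F) := IsIntegralClosure.isIntegral_algebra K[X] F
  have := w.isPrime
  exact BrB0Aux.exists_sub_mem K w.asIdeal w.ne_bot b

/-- [S37/BR-2] -/
theorem int_B0 (P : Place K F) (hP : algebraMap L F τ ∈ P.toValuationSubring)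
    (b : ↥(B0 K τ F)) : algebraMap ↥(B0 K τ F) F b ∈ P.toValuationSubring := by
  let _ := Bridge.algE K τ F
  refine Fermat.Agent.S24.mem_valuationSubring_of_isIntegral (A := K[X]) _ (fun g => ?_) b.2
  show algebraMap L F (aeval τ g) ∈ P.toValuationSubring
  induction g using Polynomial.induction_on' with
  | add p q hp hq => rw [map_add, map_add]; exact add_mem hp hq
  | monomial n a =>
    rw [aeval_monomial, map_mul, map_pow, ← IsScalarTower.algebraMap_apply]
    exact mul_mem (P.algebraMap_mem' a) (pow_mem hP n)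

end Fermat.Agent.S37
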