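import Fermat.Agent.S37.BrDefs

/-!
# S37 / BRIDGE, piece BR-1 : `Cbar = C0 / 𝔪 C0` is a Dedekind domain with residue fields `kk A`

## Proofs
* `isIntegrallyClosed_of_dualElts` (general form of helper27's `lemmaN`).  `Q = FractionRing R`, `E = Q ⊗[R] Λ`; copy the first
  60 lines of the proof of `S18.KL.lemmaN` (`Z/LemmaN.lean`): they construct `ι : Λ →ₐ[R] E` injective, the basis `wQ`, the dual family
  `wd`, and check all hypotheses of `S18.KLNormal.mem_of_isIntegral`, whose conclusion is: every `Y : E` integral over `R` lies in `ι.range`.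
  Now let `z : FractionRing Λ` be integral over `Λ`.  `Λ` is finite over `R`, so `z` is integral over `R`
  (`isIntegral_trans`), and `z = y / s` with `y : Λ`, `0 ≠ s : R` (every `0 ≠ b : Λ` divides a nonzero element of `R`: the constant
  coefficient of its minimal polynomial / `Algebra.IsAlgebraic.exists_smul_eq_mul`-type lemmas,
  `IsIntegral.exists_multiple...`, or `Algebra.norm`).  `Y := s⁻¹ ⊗ y : E`.  The `R`-algebra map `E → FractionRing Λ`
  (`Algebra.TensorProduct.lift`) is injective on ... — SIMPLER: avoid the map.  From a monic equation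
  `z^m + ∑_{i<m} r_i z^i = 0` (`r_i : R`) we get `y^m + ∑ r_i s^(m-i) y^i = 0` in `Λ` (domain, clear denominators), which gives in `E`
  the monic equation `Y^m + ∑ r_i Y^i = 0`.  Hence `Y = ι Z`, i.e. `1 ⊗ y = 1 ⊗ (s Z)`, `y = s Z`, `z = Z`.
* `isDedekindDomain_of_dualElts`: noetherian (`Module.Finite.of_basis`, `isNoetherian_of_isNoetherianRing_of_finite`,
  `isNoetherianRing_of_...`), dimension `≤ 1` [nonzero prime `P`: `P.comap (algebraMap R Λ) ≠ ⊥`
  (`Ideal.comap_ne_bot_of_integral_mem` / `Ideal.exists_coeff_ne_zero_mem_comap_of_...`), it is prime hence maximal (PID), so `P` is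
  maximal: `Ideal.isMaximal_of_isIntegral_of_isMaximal_comap`], integrally closed (above).
* `isDedekindDomain_Cbar`: `b` from `GoodBasis.exists_bar`, `x i` from `exists_dualElts`; the verification of the two
  hypotheses is literally in the proof of `S18.KL.nu_idem` (`Z/Normal.lean`).
* `algebraMap_poly_injective`: `Cbar` is free of rank `n` over `(kk A)[X]` and nontrivial.
* `not_isField_Cbar`: `isField_of_isIntegral_of_isField` + `Polynomial.not_isField`.
* `isAlgClosed_kk`: a monic `p : (kk A)[X]` of positive degree lifts to a monic `P : A[X]` (`Polynomial.lifts_and_degree_eq_and_monic` with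
  `IsLocalRing.residue_surjective`); `P` has a root `c : K`, integral over `A`, so `c ∈ A` (`ValuationSubring` is integrally closed:
  `S18.Branch.mem_of_isIntegral`-like / `Valuation.mem_integer_of_isIntegral`/`IsIntegrallyClosed`); its residue is a root of `p`.  `IsAlgClosed.of_exists_root`.
* `resk_Cbar`: `Cbar ⧸ x` is a field, finite over `kk A`: `x.comap (algebraMap (kk A)[X] Cbar)` is a maximal ideal of `(kk A)[X]`
  (integrality), `= (X - c)` since `kk A` is algebraically closed, so `Cbar ⧸ x` is spanned over `kk A` by the images of the `b i`.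
  (Or: finite type + `finite_of_finite_type_of_isJacobsonRing`.)  Then `IsAlgClosed.algebraMap_bijective_of_isIntegral`.
-/

set_option autoImplicit false
set_option linter.unusedSectionVars false
set_option linter.style.haveILetI false

noncomputable section

namespace Fermat.Agent.S37

open Polynomial Fermat.Agent.S18.KL IsDedekindDomain

/-- [S37/BR-1] -/
theorem isIntegrallyClosed_of_dualElts {R : Type*} [CommRing R] [IsDomain R]
    [IsPrincipalIdealRing R] {Λ : Type*} [CommRing Λ] [IsDomain Λ] [Algebra R Λ] {n : ℕ}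
    (w : Module.Basis (Fin n) R Λ) (θ : R) (hθ : Squarefree θ) (x : Fin n → Λ)
    (hx : ∀ i j, Algebra.trace R Λ (x i * w j) = if i = j then θ else 0)
    (he : ∀ i, ∃ e : ℕ, 0 < e ∧ ∃ z : Λ, x i ^ e = θ • z) : IsIntegrallyClosed Λ := by
  classical
  haveI : Module.Free R Λ := Module.Free.of_basis w
  haveI : Module.Finite R Λ := Module.Finite.of_basis w
  haveI : FaithfulSMul R Λ := inferInstance
  haveI : Algebra.IsIntegral R Λ := inferInstance
  let Q := FractionRing R
  let E := FractionRing Λ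
  letI : Algebra Q E := FractionRing.liftAlgebra R E
  haveI : IsScalarTower R Q E := FractionRing.isScalarTower_liftAlgebra R E
  let ι : Λ →ₐ[R] E := IsScalarTower.toAlgHom R Λ E
  let wQ : Module.Basis (Fin n) Q E := w.localizationLocalization Q (nonZeroDivisors R) E
  have hwQ : ∀ i, wQ i = ι (w i) := fun i => Module.Basis.localizationLocalization_apply _ _ _ _ i
  have htr : ∀ l : Λ, Algebra.trace Q E (ι l) = algebraMap R Q (Algebra.trace R Λ l) := by
    intro l
    exact Algebra.trace_localization R (nonZeroDivisors R) l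
  have hθ0 : algebraMap R Q θ ≠ 0 := by
    rw [Ne, IsFractionRing.to_map_eq_zero_iff]; exact hθ.ne_zero
  let wd : Fin n → E := fun i => (algebraMap R Q θ)⁻¹ • ι (x i)
  have hθwd : ∀ i, θ • wd i = ι (x i) := by
    intro i
    simp only [wd]
    rw [← algebraMap_smul Q θ, smul_smul, mul_inv_cancel₀ hθ0, one_smul]
  have hdual : ∀ i j, Algebra.trace Q E (wQ i * wd j) = if i = j then 1 else 0 := by
    intro i j
    simp only [wd]
    rw [mul_smul_comm, map_smul, hwQ, ← map_mul, htr, mul_comm (w i), hx j i, smul_eq_mul]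
    by_cases hij : i = j
    · rw [if_pos hij, if_pos hij.symm, inv_mul_cancel₀ hθ0]
    · rw [if_neg hij, if_neg (Ne.symm hij), map_zero, mul_zero]
  have hΛ₀ : Subalgebra.toSubmodule ι.range = Submodule.span R (Set.range wQ) := by
    have h1 : Set.range wQ = ι.toLinearMap '' Set.range w := by
      rw [← Set.range_comp]
      congr 1
      funext i
      exact hwQ i
    rw [h1, ← Submodule.map_span, w.span_eq, Submodule.map_top]
    rfl
  choose e he0 z hz using he
  let e₀ := ∑ i, e i
  have hxe : ∀ i, ∃ c ∈ ι.range, (θ • wd i) ^ e₀ = θ • c := by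
    intro i
    have hle : e i ≤ e₀ :=
      Finset.single_le_sum (f := e) (fun _ _ => Nat.zero_le _) (Finset.mem_univ i)
    refine ⟨ι (z i * x i ^ (e₀ - e i)), ⟨_, rfl⟩, ?_⟩
    rw [hθwd, ← map_pow, ← map_smul, ← smul_mul_assoc, ← hz i, ← pow_add, Nat.add_sub_cancel' hle]
  rw [isIntegrallyClosed_iff E]
  intro Y hY
  have hint : IsIntegral R Y := isIntegral_trans Y hY
  obtain ⟨Z, hZ⟩ := S18.KLNormal.mem_of_isIntegral (Q := Q) wQ wd hdual ι.range hΛ₀ θ hθ e₀
    (fun i => ⟨x i, (hθwd i).symm⟩) hxe Y hint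
  exact ⟨Z, hZ⟩

/-- [S37/BR-1] -/
theorem isDedekindDomain_of_dualElts {R : Type*} [CommRing R] [IsDomain R]
    [IsPrincipalIdealRing R] {Λ : Type*} [CommRing Λ] [IsDomain Λ] [Algebra R Λ] {n : ℕ}
    (w : Module.Basis (Fin n) R Λ) (θ : R) (hθ : Squarefree θ) (x : Fin n → Λ)
    (hx : ∀ i j, Algebra.trace R Λ (x i * w j) = if i = j then θ else 0)
    (he : ∀ i, ∃ e : ℕ, 0 < e ∧ ∃ z : Λ, x i ^ e = θ • z) : IsDedekindDomain Λ := by
  haveI : Module.Free R Λ := Module.Free.of_basis w
  haveI : Module.Finite R Λ := Module.Finite.of_basis w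
  haveI : FaithfulSMul R Λ := inferInstance
  haveI : Algebra.IsIntegral R Λ := inferInstance
  haveI : IsIntegrallyClosed Λ := isIntegrallyClosed_of_dualElts w θ hθ x hx he
  haveI : IsNoetherianRing Λ :=
    isNoetherian_of_tower R (isNoetherian_of_isNoetherianRing_of_finite R Λ)
  haveI : Ring.DimensionLEOne Λ := Ring.DimensionLEOne.of_isIntegral R Λ
  exact { }

variable {K : Type*} [Field K] {A : ValuationSubring K}
variable {L : Type*} [Field L] [Algebra K L] {τ : L}
variable {F : Type*} [Field F] [Algebra L F]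

/-- [S37/BR-1] -/
theorem isDedekindDomain_Cbar [CharZero K] [FiniteDimensional L F]
    (hτ : Transcendental K τ) (hgen : IsGen K τ) {n : ℕ}
    (gb : GoodBasis A τ F n) (θ : (↥A)[X]) (hθ : Squarefree (redP A θ)) (hD : DiffHyp A τ F θ)
    [IsDomain (Cbar A τ F)] : IsDedekindDomain (Cbar A τ F) := by
  obtain ⟨b, hb⟩ := gb.exists_bar hτ hgen
  obtain ⟨x, hx0, hxtr, hxe⟩ := exists_dualElts hτ hgen gb θ hθ.ne_zero hD
  refine isDedekindDomain_of_dualElts b (redP A θ) hθ
    (fun i => Ideal.Quotient.mk (mC0 A τ F) ⟨x i, hx0 i⟩) ?_ ?_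
  · intro i j
    rw [hb j, ← map_mul]
    by_cases hij : i = j
    · rw [if_pos hij]
      have := gb.trace_bar hτ hgen (⟨x i, hx0 i⟩ * ⟨gb.w j, gb.mem j⟩) (gb.d1 * θ)
        (by rw [← if_pos hij (t := evL A τ (gb.d1 * θ)) (e := (0 : L)), ← hxtr i j]; rfl)
      rw [this, map_mul, gb.red_d1, one_mul]
    · rw [if_neg hij]
      have := gb.trace_bar hτ hgen (⟨x i, hx0 i⟩ * ⟨gb.w j, gb.mem j⟩) 0
        (by rw [map_zero, ← if_neg hij (t := evL A τ (gb.d1 * θ)) (e := (0 : L)), ← hxtr i j]; rfl)
      rw [this, map_zero]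
  · intro i
    obtain ⟨e, he, z, hz, hze⟩ := hxe i
    refine ⟨e, he, Ideal.Quotient.mk (mC0 A τ F) ⟨z, hz⟩, ?_⟩
    rw [Algebra.smul_def, algebraMap_redP, ← map_mul, ← map_pow]
    congr 1
    exact Subtype.ext hze

/-- [S37/BR-1] -/
theorem algebraMap_poly_injective (hτ : Transcendental K τ) (hgen : IsGen K τ) {n : ℕ}
    (gb : GoodBasis A τ F n) [Nontrivial (Cbar A τ F)] :
    Function.Injective (algebraMap (kk A)[X] (Cbar A τ F)) := by
  obtain ⟨b, -⟩ := gb.exists_bar hτ hgen
  haveI : Module.Free (kk A)[X] (Cbar A τ F) := Module.Free.of_basis b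
  exact FaithfulSMul.algebraMap_injective _ _

/-- [S37/BR-1] -/
theorem not_isField_Cbar (hτ : Transcendental K τ) (hgen : IsGen K τ) {n : ℕ}
    (gb : GoodBasis A τ F n) [IsDomain (Cbar A τ F)] : ¬ IsField (Cbar A τ F) := by
  obtain ⟨b, -⟩ := gb.exists_bar hτ hgen
  haveI : Module.Finite (kk A)[X] (Cbar A τ F) := Module.Finite.of_basis b
  intro h
  exact Polynomial.not_isField (kk A)
    (isField_of_isIntegral_of_isField (algebraMap_poly_injective hτ hgen gb) h)

variable (A) in
/-- [S37/BR-1] -/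
theorem isAlgClosed_kk [IsAlgClosed K] : IsAlgClosed (kk A) := by
  refine IsAlgClosed.of_exists_root _ fun p hp hirr => ?_
  obtain ⟨P, hP, hdeg, hmonic⟩ := Polynomial.lifts_and_degree_eq_and_monic
    (f := IsLocalRing.residue A) (p := p) (by
      rw [Polynomial.lifts_iff_coeff_lifts]
      intro n
      exact IsLocalRing.residue_surjective _) hp
  have hdeg' : (P.map (algebraMap A K)).degree ≠ 0 := by
    rw [hmonic.degree_map, hdeg]
    exact hirr.degree_pos.ne'
  obtain ⟨c, hc⟩ := IsAlgClosed.exists_root (P.map (algebraMap A K)) hdeg'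
  have hint : IsIntegral A c := ⟨P, hmonic, by rwa [IsRoot.def, eval_map] at hc⟩
  obtain ⟨y, rfl⟩ := IsIntegrallyClosed.algebraMap_eq_of_integral hint
  refine ⟨IsLocalRing.residue A y, ?_⟩
  rw [IsRoot.def, eval_map, eval₂_hom] at hc
  have h0 : P.eval y = 0 := (map_eq_zero_iff _ (IsFractionRing.injective A K)).mp hc
  rw [← hP, eval_map, eval₂_hom, h0, map_zero]

/-- [S37/BR-1]  (the hypothesis `IsDomain` is necessary: a nonzero minimal prime of a product would
be a counterexample) -/
theorem resk_Cbar [IsAlgClosed K] (hτ : Transcendental K τ) (hgen : IsGen K τ) {n : ℕ}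
    (gb : GoodBasis A τ F n) [IsDomain (Cbar A τ F)] (x : HeightOneSpectrum (Cbar A τ F))
    (b : Cbar A τ F) :
    ∃ c : kk A, b - algebraMap (kk A) (Cbar A τ F) c ∈ x.asIdeal := by
  obtain ⟨bb, -⟩ := gb.exists_bar hτ hgen
  haveI : Module.Finite (kk A)[X] (Cbar A τ F) := Module.Finite.of_basis bb
  haveI : Module.Free (kk A)[X] (Cbar A τ F) := Module.Free.of_basis bb
  haveI : Ring.DimensionLEOne (Cbar A τ F) := Ring.DimensionLEOne.of_isIntegral (kk A)[X] _
  haveI : x.asIdeal.IsMaximal := x.isPrime.isMaximal x.ne_bot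
  haveI := isAlgClosed_kk A
  letI := Ideal.Quotient.field x.asIdeal
  haveI : Algebra.FiniteType (kk A) (Cbar A τ F) :=
    Algebra.FiniteType.trans (S := (kk A)[X]) inferInstance inferInstance
  haveI : Algebra.FiniteType (kk A) (Cbar A τ F ⧸ x.asIdeal) := inferInstance
  haveI : Module.Finite (kk A) (Cbar A τ F ⧸ x.asIdeal) :=
    finite_of_finite_type_of_isJacobsonRing _ _
  obtain ⟨c, hc⟩ := (IsAlgClosed.algebraMap_bijective_of_isIntegral (k := kk A)
    (K := Cbar A τ F ⧸ x.asIdeal)).2 (Ideal.Quotient.mk _ b)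
  refine ⟨c, ?_⟩
  rw [← Ideal.Quotient.eq_zero_iff_mem, map_sub, ← hc, sub_eq_zero]
  rfl

end Fermat.Agent.S37
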