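import Fermat.Agent.S37.ChartGlue
import Fermat.Agent.S18.Z.Main

/-!
# S37 / BRIDGE : definitions (helper2)

We connect the abstract chart theory (`S37/Chart.lean`, `S37/ChartGlue.lean`) with helper27's framework `S18/Z/*`
(`K` algebraically closed of characteristic `0`, `A` a valuation subring, `L = K(τ)`, `F / L` finite,
`C0 A τ F`, `B0 K τ F`, `VV A τ F`, `Cbar A τ F = C0 / 𝔪 C0`).

Chart attached to the coordinate `τ`:
* `B  := ↥(B0 K τ F)`      (a `K`-algebra, `algB0`);
* `C  := CC A τ F`          (`C0` as a subring of `B0`);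
* `Cb := Cbar A τ F`        (a `kk A`-algebra, `algCbar`);
* `rd := rdC A τ F : CC A τ F →+* Cbar A τ F`.
The second chart is the same thing for `τ⁻¹`.

`RedData A τ F O red` : `O = VV A τ F`, `red : O → Ft` is onto a field `Ft` with kernel `𝔪 VV`.
`BarCompat A τ F O red` : the algebra structure `Cbar → Ft` is the one induced by `red`.
-/

set_option autoImplicit false
set_option linter.unusedSectionVars false

noncomputable section

namespace Fermat.Agent.S37

open Polynomial Fermat.Agent.S18.KL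

variable {K : Type*} [Field K] (A : ValuationSubring K)
variable {L : Type*} [Field L] [Algebra K L] (τ : L)
variable (F : Type*) [Field F] [Algebra L F] [Algebra K F] [IsScalarTower K L F]

theorem algebraMap_mem_B0 (a : K) : algebraMap K F a ∈ B0 K τ F := by
  have h := evK_mem_B0 (τ := τ) (E := F) (C a)
  have e : evK K τ F (C a) = algebraMap K F a := by
    simp [evK, ← IsScalarTower.algebraMap_apply]
  rwa [e] at h

theorem evE_C_eq (a : A) : evE A τ F (C a) = algebraMap K F (a : K) := by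
  rw [evE_apply, evL_C, ← IsScalarTower.algebraMap_apply]

theorem algebraMap_mem_C0 (a : A) : algebraMap K F (a : K) ∈ C0 A τ F := by
  rw [← evE_C_eq A τ F]; exact evE_mem_C0 A τ F _

theorem tau_mem_C0 : algebraMap L F τ ∈ C0 A τ F := by
  have := evE_mem_C0 A τ F X
  rwa [evE_apply, evL_X] at this

/-- `B0` is a `K`-algebra -/
instance algB0 : Algebra K ↥(B0 K τ F) :=
  ((algebraMap K F).codRestrict (B0 K τ F) (algebraMap_mem_B0 τ F)).toAlgebra

@[simp] theorem coe_algebraMap_B0 (a : K) :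
    ((algebraMap K ↥(B0 K τ F) a : ↥(B0 K τ F)) : F) = algebraMap K F a := rfl

instance : IsScalarTower K ↥(B0 K τ F) F := .of_algebraMap_eq' rfl

/-- `C0` as a subring of `B0` -/
def CC : Subring ↥(B0 K τ F) := (C0 A τ F).comap (B0 K τ F).subtype

theorem mem_CC {y : ↥(B0 K τ F)} : y ∈ CC A τ F ↔ (y : F) ∈ C0 A τ F := Iff.rfl

/-- `CC → C0` -/
def CCtoC0 : CC A τ F →+* C0 A τ F :=
  ((B0 K τ F).subtype.comp (CC A τ F).subtype).codRestrict (C0 A τ F) (fun y => y.2)

@[simp] theorem coe_CCtoC0 (y : CC A τ F) : ((CCtoC0 A τ F y : C0 A τ F) : F) = ((y : ↥(B0 K τ F)) : F) :=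
  rfl

/-- `C0 → CC` -/
def ofC0 (y : C0 A τ F) : CC A τ F := ⟨⟨y, C0_le_B0 A y.2⟩, y.2⟩

@[simp] theorem CCtoC0_ofC0 (y : C0 A τ F) : CCtoC0 A τ F (ofC0 A τ F y) = y := rfl

theorem CCtoC0_surjective : Function.Surjective (CCtoC0 A τ F) := fun y => ⟨ofC0 A τ F y, rfl⟩

/-- the reduction of the chart -/
def rdC : CC A τ F →+* Cbar A τ F := (Ideal.Quotient.mk (mC0 A τ F)).comp (CCtoC0 A τ F)

theorem rdC_apply (y : CC A τ F) :
    rdC A τ F y = Ideal.Quotient.mk (mC0 A τ F) (CCtoC0 A τ F y) := rfl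

theorem rdC_surjective : Function.Surjective (rdC A τ F) :=
  Ideal.Quotient.mk_surjective.comp (CCtoC0_surjective A τ F)

theorem rdC_eq_zero_iff (y : CC A τ F) :
    rdC A τ F y = 0 ↔ Sm0 A τ F ((y : ↥(B0 K τ F)) : F) := by
  rw [rdC_apply, mk_eq_zero_iff]; rfl

omit [Algebra K F] [IsScalarTower K L F] in
/-- `Cbar` is a `kk A`-algebra -/
instance algCbar : Algebra (kk A) (Cbar A τ F) :=
  ((algebraMap (kk A)[X] (Cbar A τ F)).comp C).toAlgebra

instance : IsScalarTower (kk A) (kk A)[X] (Cbar A τ F) := .of_algebraMap_eq' rfl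

variable {Ft : Type*} [Field Ft] [Algebra (kk A) Ft] (O : Subring F) (red : O →+* Ft)

/-- `O = VV`, `red : O → Ft` is the reduction map -/
structure RedData : Prop where
  hO : O = VV A τ F
  surj : Function.Surjective red
  ker : ∀ x : O, red x = 0 ↔ SmV A τ F (x : F)
  alg : ∀ (a : A) (h : algebraMap K F (a : K) ∈ O),
    red ⟨_, h⟩ = algebraMap (kk A) Ft (IsLocalRing.residue A a)
  fld : ∀ x ∈ VV A τ F, ¬ SmV A τ F x → x⁻¹ ∈ VV A τ F

/-- the algebra structure `Cbar → Ft` is induced by `red` -/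
def BarCompat [Algebra (Cbar A τ F) Ft] : Prop :=
  ∀ (y : C0 A τ F) (hy : (y : F) ∈ O),
    algebraMap (Cbar A τ F) Ft (Ideal.Quotient.mk (mC0 A τ F) y) = red ⟨y, hy⟩

variable {A τ F O red}

theorem RedData.inv [FiniteDimensional L F] (hτ : Transcendental K τ) (h : RedData A τ F O red) :
    RedData A τ⁻¹ F O red where
  hO := by rw [VV_inv A hτ]; exact h.hO
  surj := h.surj
  ker := fun x => by rw [SmV_inv A hτ]; exact h.ker x
  alg := h.alg
  fld := fun x hx hx' => by
    rw [VV_inv A hτ] at hx ⊢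
    rw [SmV_inv A hτ] at hx'
    exact h.fld x hx hx'

theorem RedData.C0_le (h : RedData A τ F O red) : C0 A τ F ≤ O := by
  rw [h.hO]; exact C0_le_VV A τ F

/-- the ring homomorphism `Cbar → Ft` induced by `red` -/
def RedData.barToFt (h : RedData A τ F O red) : Cbar A τ F →+* Ft :=
  Ideal.Quotient.lift (mC0 A τ F) (red.comp (Subring.inclusion h.C0_le)) (fun y hy => by
    rw [RingHom.comp_apply, h.ker]
    exact (Sm0.SmV A ((mem_mC0 A τ F).mp hy)))

theorem RedData.barCompat (h : RedData A τ F O red) :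
    letI := h.barToFt.toAlgebra
    BarCompat A τ F O red := by
  letI := h.barToFt.toAlgebra
  intro y hy
  rfl

end Fermat.Agent.S37
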