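import Fermat.Agent.S37.BrCbar
import Fermat.Agent.S37.BrB0

/-!
# S37 / BRIDGE, pieces BR-3, BR-4 : the chart `(B0, C0, Cbar)` satisfies `ChartHyp` and `ChartCompat`

## BR-3
* `isDomain_Cbar`: `h.barToFt : Cbar → Ft` is injective (`y ∈ C0`, `red y = 0` ⟹ `SmV y` ⟹ `Sm0 y` by `Sm0_of_SmV`) and `Ft` is a field.
* `chartHyp`:
  `A_mem` = `algebraMap_mem_C0`;  `fg`: `FgC0` gives `G` with `x = ∑ evE (c g) * g`; take `G ∪ {τ}` and
  `evE A τ F P ∈ closure (A ∪ {τ})` by `Polynomial.induction_on`;  `span` = `exists_smul_mem_C0` (+ `evE_C_eq`);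
  `piA_surj` = `IsLocalRing.residue_surjective`; `rd_surj` = `rdC_surjective`; `rd_alg`: `algebraMap_redP` for `P = C a`, `redP_C`;
  `ker` = `rdC_eq_zero_iff` + definition of `Sm0` (`a ∈ maximalIdeal ↔ residue a = 0`: `IsLocalRing.residue_eq_zero_iff`);
  `sat`: `a = 0`: `f c = 0`, `f ≠ 0`, so `c = 0`.  `a ≠ 0`: `z := a⁻¹ c = b f⁻¹`; `z ∈ B0` (`a⁻¹ ∈ K ⊆ B0`, `c ∈ C0 ⊆ B0`);
  `f⁻¹ ∈ VV` by `h.fld` (`¬ SmV f` because `SmV f` + `f ∈ C0` ⟹ `Sm0 f` ⟹ `rd f = 0`), so `z ∈ VV`; `mem_C0_of_mem_B0_VV`.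
  `resK` = `resK_B0`, `resk` = `resk_Cbar`, `not_field` = `not_isField_Cbar`.

## BR-4
* `isFractionRing_Cbar`: injective as above; every element of `Ft` is `red y`, `y ∈ VV`, `evE S * y ∈ C0`, `redP S ≠ 0`;
  `red (evE S) ≠ 0` (`SmV (evE S)` ⟹ `SmG (evL S)` [e.g. `Sm0_of_SmV` + `gb.indep`-free argument: `SmV_of_evE_mul` applied to `x = 1` contradicts
  `not_SmV_one`]).  `IsFractionRing.of_field`-like (`IsLocalization` from `surj`, `map_units`, `exists_of_eq`).
* `isScalarTower_Cbar`: `algebraMap (kk A) Cbar (residue a) = mk (evE (C a))` and `h.alg`; `residue` is surjective.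
* `chartCompat`: `compat` = `hbar`;  `frac`: `b = evE S`, `a = evE S * y`;
  `coord`: `s0 = τ`.  (i) Let `w` with `τ - a₀ ∈ w`, `a₀ ∈ A`.  By `resK_B0` there is a ring hom `ev : B0 → K` (`b ↦` the unique `c` with `b - c ∈ w`;
  or work in `B0 ⧸ w`), `ev (evE P) = P(a₀) ∈ A`; `y ∈ C0` is integral over `A[τ]`, so `ev y` is integral over `A`, so in `A`.
  (ii) `Cbar` is integral over `(kk A)[X]` (finite free, `gb.exists_bar`), the image of `(kk A)[X]` in `Ft` is `(kk A)[red τ] ⊆ O_x`, and `O_x` is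
  integrally closed in `Ft`.
  `int_B` = `int_B0`.
-/

set_option autoImplicit false
set_option linter.unusedSectionVars false

noncomputable section

namespace Fermat.Agent.S37

open Polynomial Fermat.Agent.S18.KL IsDedekindDomain AlgebraicCurve

variable {K : Type*} [Field K] {A : ValuationSubring K}
variable {L : Type*} [Field L] [Algebra K L] {τ : L}
variable {F : Type*} [Field F] [Algebra L F] [Algebra K F] [IsScalarTower K L F]
variable {Ft : Type*} [Field Ft] [Algebra (kk A) Ft] {O : Subring F} {red : O →+* Ft}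

/-- [S37/BR-3] -/
theorem RedData.barToFt_injective [FiniteDimensional L F] (hτ : Transcendental K τ)
    (hgen : IsGen K τ) (h : RedData A τ F O red) : Function.Injective h.barToFt := by
  rw [injective_iff_map_eq_zero]
  intro X hX
  obtain ⟨y, rfl⟩ := Ideal.Quotient.mk_surjective X
  have h1 : red (Subring.inclusion h.C0_le y) = 0 := hX
  rw [h.ker] at h1
  rw [mk_eq_zero_iff]
  exact Sm0_of_SmV A hτ hgen y.2 h1

/-- [S37/BR-3] -/
theorem isDomain_Cbar [FiniteDimensional L F] (hτ : Transcendental K τ) (hgen : IsGen K τ)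
    (h : RedData A τ F O red) : IsDomain (Cbar A τ F) :=
  (h.barToFt_injective hτ hgen).isDomain h.barToFt

variable (A τ F) in
/-- `A[X] → B0` -/
def evB : (↥A)[X] →+* ↥(B0 K τ F) :=
  (evE A τ F).codRestrict (B0 K τ F) (fun P => C0_le_B0 A (evE_mem_C0 A τ F P))

@[simp] theorem coe_evB (P : (↥A)[X]) : ((evB A τ F P : ↥(B0 K τ F)) : F) = evE A τ F P := rfl

theorem evB_C (a : A) : evB A τ F (C a) = algebraMap K ↥(B0 K τ F) (a : K) :=
  Subtype.ext (evE_C_eq A τ F a)

theorem evB_mem_closure (S : Subring ↥(B0 K τ F))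
    (hA : ∀ a : A, algebraMap K ↥(B0 K τ F) (a : K) ∈ S) (hX : evB A τ F X ∈ S) (P : (↥A)[X]) :
    evB A τ F P ∈ S := by
  induction P using Polynomial.induction_on with
  | C a => rw [evB_C]; exact hA a
  | add p q hp hq => rw [map_add]; exact S.add_mem hp hq
  | monomial n a ih =>
    rw [pow_succ, ← mul_assoc, map_mul]
    exact S.mul_mem ih hX

/-- [S37/BR-3] -/
theorem chartHyp [IsAlgClosed K] [CharZero K] [FiniteDimensional L F]
    (hτ : Transcendental K τ) (hgen : IsGen K τ) (hfg : FgC0 A τ F) {n : ℕ}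
    (gb : GoodBasis A τ F n) (h : RedData A τ F O red)
    [IsDedekindDomain ↥(B0 K τ F)] [IsDedekindDomain (Cbar A τ F)] :
    ChartHyp A (CC A τ F) (IsLocalRing.residue A) (rdC A τ F) := by
  classical
  have hAmem : ∀ a : A, algebraMap K ↥(B0 K τ F) (a : K) ∈ CC A τ F :=
    fun a => algebraMap_mem_C0 A τ F a
  refine ⟨hAmem, ?_, ?_, IsLocalRing.residue_surjective, rdC_surjective A τ F, ?_, ?_, ?_,
    resK_B0 hτ hgen, resk_Cbar hτ hgen gb, not_isField_Cbar hτ hgen gb⟩
  · -- fg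
    obtain ⟨G0, hG0, hspan⟩ := hfg
    let gB : {g // g ∈ G0} → ↥(B0 K τ F) := fun g => ⟨g.1, C0_le_B0 A (hG0 g.1 g.2)⟩
    refine ⟨insert (evB A τ F X) (G0.attach.image gB), ?_, ?_⟩
    · intro g hg
      rw [Finset.mem_insert, Finset.mem_image] at hg
      rcases hg with rfl | ⟨g', -, rfl⟩
      · exact evE_mem_C0 A τ F X
      · exact hG0 g'.1 g'.2
    · intro y hy
      set S := Subring.closure (Set.range (fun a : A => algebraMap K ↥(B0 K τ F) (a : K)) ∪
        ((insert (evB A τ F X) (G0.attach.image gB) : Finset ↥(B0 K τ F)) : Set ↥(B0 K τ F)))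
        with hS
      obtain ⟨c, hc⟩ := hspan (y : F) hy
      have hy' : y = ∑ g ∈ G0.attach, evB A τ F (c g.1) * gB g := by
        apply Subtype.ext
        rw [hc, AddSubmonoidClass.coe_finsetSum, ← Finset.sum_attach]
        rfl
      rw [hy']
      refine S.sum_mem fun g _ => S.mul_mem (evB_mem_closure S ?_ ?_ _) ?_
      · exact fun a => Subring.subset_closure (Or.inl ⟨a, rfl⟩)
      · exact Subring.subset_closure (Or.inr (by simp))
      · refine Subring.subset_closure (Or.inr ?_)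
        rw [Finset.mem_coe, Finset.mem_insert, Finset.mem_image]
        exact Or.inr ⟨g, Finset.mem_attach _ _, rfl⟩
  · -- span
    intro b
    obtain ⟨a, ha, hab⟩ := exists_smul_mem_C0 A b.2
    refine ⟨a, ha, ?_⟩
    rw [evE_C_eq] at hab
    exact hab
  · -- rd_alg
    intro a
    show rdC A τ F ⟨algebraMap K ↥(B0 K τ F) (a : K), hAmem a⟩ =
      algebraMap (kk A)[X] (Cbar A τ F) (C (IsLocalRing.residue A a))
    rw [← redP_C, algebraMap_redP, rdC_apply]
    congr 1
    exact Subtype.ext (evE_C_eq A τ F a).symm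
  · -- ker
    intro y hy
    rw [rdC_eq_zero_iff] at hy
    obtain ⟨a, ha, y0, hy0, hyy⟩ := hy
    refine ⟨a, (IsLocalRing.residue_eq_zero_iff a).mpr ha, ofC0 A τ F ⟨y0, hy0⟩, ?_⟩
    apply Subtype.ext
    rw [hyy, evE_C_eq]
    rfl
  · -- sat
    intro a f c b hf hfc
    have hfc' : ((f : ↥(B0 K τ F)) : F) * ((c : ↥(B0 K τ F)) : F) =
        algebraMap K F (a : K) * ((b : ↥(B0 K τ F)) : F) := congrArg Subtype.val hfc
    have hf0 : ((f : ↥(B0 K τ F)) : F) ≠ 0 := by
      intro h0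
      apply hf
      have : f = 0 := Subtype.ext (Subtype.ext h0)
      rw [this, map_zero]
    by_cases ha : a = 0
    · refine ⟨0, ?_⟩
      apply Subtype.ext
      rw [ha] at hfc'
      simp only [ZeroMemClass.coe_zero, map_zero, zero_mul, mul_eq_zero] at hfc'
      rcases hfc' with h1 | h1
      · exact absurd h1 hf0
      · rw [h1]; simp
    · have haK : (a : K) ≠ 0 := fun h0 => ha (Subtype.ext h0)
      have haF : algebraMap K F (a : K) ≠ 0 := (_root_.map_ne_zero _).mpr haK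
      set z : F := algebraMap K F (a : K)⁻¹ * ((c : ↥(B0 K τ F)) : F) with hz
      have hzB : z ∈ B0 K τ F := (B0 K τ F).mul_mem (algebraMap_mem_B0 τ F _) (c : ↥(B0 K τ F)).2
      have hnot : ¬ SmV A τ F ((f : ↥(B0 K τ F)) : F) := by
        intro hs
        apply hf
        rw [rdC_eq_zero_iff]
        exact Sm0_of_SmV A hτ hgen f.2 hs
      have hfinv := h.fld _ (C0_le_VV A τ F f.2) hnot
      have hzeq : z = ((b : ↥(B0 K τ F)) : F) * ((f : ↥(B0 K τ F)) : F)⁻¹ := by
        rw [hz, map_inv₀, eq_mul_inv_iff_mul_eq₀ hf0, mul_assoc, mul_comm _ ((f : ↥(B0 K τ F)) : F),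
          hfc', ← mul_assoc, inv_mul_cancel₀ haF, one_mul]
      have hzV : z ∈ VV A τ F := by
        rw [hzeq]
        exact (VV A τ F).mul_mem (C0_le_VV A τ F b.2) hfinv
      have hzC := mem_C0_of_mem_B0_VV A hτ hgen hzB hzV
      refine ⟨ofC0 A τ F ⟨z, hzC⟩, ?_⟩
      apply Subtype.ext
      show ((c : ↥(B0 K τ F)) : F) = algebraMap K F (a : K) * z
      rw [hz, map_inv₀, ← mul_assoc, mul_inv_cancel₀ haF, one_mul]

/-! ### BR-4 : auxiliary lemmas -/

/-- [S37/BR-4 aux] -/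
theorem br4_algebraMap_injective [FiniteDimensional L F] (hτ : Transcendental K τ)
    (hgen : IsGen K τ) (h : RedData A τ F O red) [Algebra (Cbar A τ F) Ft]
    (hbar : BarCompat A τ F O red) : Function.Injective (algebraMap (Cbar A τ F) Ft) := by
  rw [injective_iff_map_eq_zero]
  intro x hx
  obtain ⟨y, rfl⟩ := Ideal.Quotient.mk_surjective x
  rw [hbar y (h.C0_le y.2), h.ker] at hx
  rw [mk_eq_zero_iff]
  exact Sm0_of_SmV A hτ hgen y.2 hx

/-- [S37/BR-4 aux] a primitive polynomial is not small -/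
theorem br4_not_SmV_evE [FiniteDimensional L F] (hτ : Transcendental K τ) (hgen : IsGen K τ)
    {S : (↥A)[X]} (hS : redP A S ≠ 0) : ¬ SmV A τ F (evE A τ F S) := by
  intro hs
  refine not_SmV_one (E := F) A hτ hgen (SmV_of_evE_mul A hτ hS ?_)
  rwa [mul_one]

/-- [S37/BR-4 aux] integral over a ring mapping into a valuation subring -/
theorem br4_mem_of_isIntegralElem {R M : Type*} [CommRing R] [Field M] (V : ValuationSubring M)
    (f : R →+* M) (hf : ∀ r, f r ∈ V) {z : M} (hz : f.IsIntegralElem z) : z ∈ V := by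
  obtain ⟨p, hp, hpz⟩ := hz
  have h1 : IsIntegral V z := by
    refine ⟨p.map (f.codRestrict V.toSubring hf), hp.map _, ?_⟩
    rw [eval₂_map]
    exact hpz
  obtain ⟨y, rfl⟩ := IsIntegrallyClosed.isIntegral_iff.mp h1
  exact y.2

/-- [S37/BR-4] -/
theorem isFractionRing_Cbar [FiniteDimensional L F] (hτ : Transcendental K τ) (hgen : IsGen K τ)
    (h : RedData A τ F O red) [Algebra (Cbar A τ F) Ft] (hbar : BarCompat A τ F O red) :
    IsFractionRing (Cbar A τ F) Ft := by
  have hinj := br4_algebraMap_injective hτ hgen h hbar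
  have : FaithfulSMul (Cbar A τ F) Ft := (faithfulSMul_iff_algebraMap_injective _ _).mpr hinj
  refine IsFractionRing.of_field _ _ fun z => ?_
  obtain ⟨y, rfl⟩ := h.surj z
  have hy : (y : F) ∈ VV A τ F := by rw [← h.hO]; exact y.2
  obtain ⟨S, hS, hSy⟩ := hy
  refine ⟨Ideal.Quotient.mk _ ⟨_, hSy⟩, Ideal.Quotient.mk _ (toC0 A τ F S), ?_⟩
  rw [hbar _ (h.C0_le hSy), hbar _ (h.C0_le (toC0 A τ F S).2)]
  have hne : red ⟨(toC0 A τ F S : F), h.C0_le (toC0 A τ F S).2⟩ ≠ 0 := by
    rw [Ne, h.ker]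
    exact br4_not_SmV_evE hτ hgen hS
  rw [eq_div_iff hne, ← map_mul]
  congr 1
  apply Subtype.ext
  simp [mul_comm]

/-- [S37/BR-4] -/
theorem isScalarTower_Cbar (h : RedData A τ F O red) [Algebra (Cbar A τ F) Ft]
    (hbar : BarCompat A τ F O red) : IsScalarTower (kk A) (Cbar A τ F) Ft := by
  refine IsScalarTower.of_algebraMap_eq fun x => ?_
  obtain ⟨a, rfl⟩ := IsLocalRing.residue_surjective x
  have h1 : algebraMap (kk A) (Cbar A τ F) (IsLocalRing.residue A a) =
      Ideal.Quotient.mk (mC0 A τ F) (toC0 A τ F (C a)) := by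
    rw [← algebraMap_redP, redP_C]
    rfl
  rw [h1, hbar _ (h.C0_le (toC0 A τ F (C a)).2)]
  have h2 : algebraMap K F (a : K) ∈ O := h.C0_le (algebraMap_mem_C0 A τ F a)
  rw [← h.alg a h2]
  congr 1
  apply Subtype.ext
  simp [evE_C_eq]

/-- [S37/BR-4 aux] `A[X] → B0` -/
def br4toB0 (A : ValuationSubring K) (τ : L) (F : Type*) [Field F] [Algebra L F] :
    (↥A)[X] →+* ↥(B0 K τ F) :=
  (evE A τ F).codRestrict (B0 K τ F) (fun P => C0_le_B0 A (evE_mem_C0 A τ F P))

/-- [S37/BR-4 aux] values of elements of `C0` at a point with `τ(w) ∈ A` lie in `A` -/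
theorem br4_coord_val [IsAlgClosed K] [FiniteDimensional L F]
    (hτ : Transcendental K τ) (hgen : IsGen K τ)
    (w : HeightOneSpectrum ↥(B0 K τ F)) (a₀ : A)
    (ha₀ : (⟨algebraMap L F τ, C0_le_B0 A (tau_mem_C0 A τ F)⟩ : ↥(B0 K τ F)) -
      algebraMap K ↥(B0 K τ F) a₀ ∈ w.asIdeal)
    (y : ↥(B0 K τ F)) (hy : (y : F) ∈ C0 A τ F) :
    ∃ a : A, y - algebraMap K ↥(B0 K τ F) a ∈ w.asIdeal := by
  obtain ⟨c, hc⟩ := resK_B0 hτ hgen w y
  suffices hcA : c ∈ A from ⟨⟨c, hcA⟩, hc⟩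
  set q := Ideal.Quotient.mk w.asIdeal with hq
  set ι : K →+* (↥(B0 K τ F) ⧸ w.asIdeal) := q.comp (algebraMap K ↥(B0 K τ F)) with hι
  have : Nontrivial (↥(B0 K τ F) ⧸ w.asIdeal) :=
    Ideal.Quotient.nontrivial_iff.mpr w.isPrime.ne_top
  have hιinj : Function.Injective ι := ι.injective
  have hqy : q y = ι c := by
    rw [hι, RingHom.comp_apply, hq, Ideal.Quotient.eq]; exact hc
  have hcomp : q.comp (br4toB0 A τ F) = (ι.comp A.subtype).comp (evalRingHom a₀) := by
    apply Polynomial.ringHom_ext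
    · intro a
      simp only [RingHom.comp_apply, coe_evalRingHom, eval_C]
      rw [hι, RingHom.comp_apply]
      congr 1
      apply Subtype.ext
      exact evE_C_eq A τ F a
    · simp only [RingHom.comp_apply, coe_evalRingHom, eval_X]
      rw [hι, RingHom.comp_apply, hq, Ideal.Quotient.eq]
      have e : br4toB0 A τ F X =
          (⟨algebraMap L F τ, C0_le_B0 A (tau_mem_C0 A τ F)⟩ : ↥(B0 K τ F)) := by
        apply Subtype.ext
        show evE A τ F X = _
        rw [evE_apply, evL_X]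
      rw [e]
      exact ha₀
  obtain ⟨p, hp, hpy⟩ := hy
  have h0 : eval₂ (br4toB0 A τ F) y p = 0 := by
    apply Subtype.ext
    have := Polynomial.hom_eval₂ p (br4toB0 A τ F) (B0 K τ F).subtype y
    rw [Subring.subtype_apply] at this
    rw [this]
    exact hpy
  refine br4_mem_of_isIntegralElem A A.subtype (fun r => r.2) ⟨p.map (evalRingHom a₀), hp.map _, ?_⟩
  apply hιinj
  rw [map_zero, Polynomial.hom_eval₂, eval₂_map, ← hcomp, ← hqy, ← Polynomial.hom_eval₂, h0, map_zero]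

/-- [S37/BR-4 aux] `Cbar ⊆ O_x` as soon as `red τ ∈ O_x` -/
theorem br4_coord_bar (hτ : Transcendental K τ) (hgen : IsGen K τ) {n : ℕ}
    (gb : GoodBasis A τ F n) [Algebra (Cbar A τ F) Ft] [IsScalarTower (kk A) (Cbar A τ F) Ft]
    (x : Place (kk A) Ft)
    (hx : algebraMap (Cbar A τ F) Ft (Ideal.Quotient.mk (mC0 A τ F) (toC0 A τ F X)) ∈
      x.toValuationSubring) (b : Cbar A τ F) :
    algebraMap (Cbar A τ F) Ft b ∈ x.toValuationSubring := by
  obtain ⟨bs, -⟩ := gb.exists_bar hτ hgen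
  have : Module.Finite (kk A)[X] (Cbar A τ F) := Module.Finite.of_basis bs
  obtain ⟨p, hp, hpb⟩ := Algebra.IsIntegral.isIntegral (R := (kk A)[X]) b
  refine br4_mem_of_isIntegralElem x.toValuationSubring
    ((algebraMap (Cbar A τ F) Ft).comp (algebraMap (kk A)[X] (Cbar A τ F))) ?_
    ⟨p, hp, by rw [← Polynomial.hom_eval₂, hpb, map_zero]⟩
  intro P
  induction P using Polynomial.induction_on' with
  | add P Q hP hQ => rw [map_add]; exact add_mem hP hQ
  | monomial m c =>
    rw [← C_mul_X_pow_eq_monomial, map_mul, map_pow]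
    refine mul_mem ?_ (pow_mem ?_ m)
    · have : ((algebraMap (Cbar A τ F) Ft).comp (algebraMap (kk A)[X] (Cbar A τ F))) (C c) =
          algebraMap (kk A) Ft c := by
        rw [IsScalarTower.algebraMap_apply (kk A) (Cbar A τ F) Ft]; rfl
      rw [this]; exact x.algebraMap_mem' c
    · have : (X : (kk A)[X]) = redP A X := by simp [redP_apply]
      rw [RingHom.comp_apply, this, algebraMap_redP]
      exact hx

/-- [S37/BR-4] -/
theorem chartCompat [IsAlgClosed K] [CharZero K] [FiniteDimensional L F]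
    (hτ : Transcendental K τ) (hgen : IsGen K τ) (hfg : FgC0 A τ F) {n : ℕ}
    (gb : GoodBasis A τ F n) (h : RedData A τ F O red)
    [IsDedekindDomain ↥(B0 K τ F)] [IsDedekindDomain (Cbar A τ F)]
    [Algebra (Cbar A τ F) Ft] (hbar : BarCompat A τ F O red) :
    ChartCompat A (IsLocalRing.residue A) O red (CC A τ F) (rdC A τ F) (algebraMap L F τ) where
  hyp := chartHyp hτ hgen hfg gb h
  compat := fun y => ⟨h.C0_le y.2, (hbar (CCtoC0 A τ F y) (h.C0_le y.2)).symm⟩
  frac := by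
    intro y hy
    have hyV : (y : F) ∈ VV A τ F := by rw [← h.hO]; exact y.2
    obtain ⟨S, hS, hSy⟩ := hyV
    refine ⟨ofC0 A τ F ⟨_, hSy⟩, ofC0 A τ F (toC0 A τ F S), ?_, ?_, ?_⟩
    · rw [Ne, rdC_eq_zero_iff]
      intro h0
      exact hy ((h.ker y).mpr (SmV_of_evE_mul A hτ hS (Sm0.SmV A h0)))
    · rw [Ne, rdC_eq_zero_iff]
      intro h0
      exact br4_not_SmV_evE hτ hgen hS (Sm0.SmV A h0)
    · exact mul_comm _ _
  coord := by
    have := isScalarTower_Cbar h hbar
    refine ⟨ofC0 A τ F (toC0 A τ F X), ?_, ?_, ?_⟩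
    · show evE A τ F X = _
      rw [evE_apply, evL_X]
    · rintro w ⟨a₀, ha₀⟩ y
      refine br4_coord_val hτ hgen w a₀ ?_ y y.2
      convert ha₀ using 2
      apply Subtype.ext
      show _ = evE A τ F X
      rw [evE_apply, evL_X]
    · intro x hx b
      exact br4_coord_bar hτ hgen gb x hx b
  int_B := fun P hP b => int_B0 P hP b

end Fermat.Agent.S37
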