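import Mathlib
import Fermat.Agent.S24.PlacesCore

/-!
# S37, pieces CH-1 .. CH-4: reduction of points on one chart (pure commutative algebra)

`K` a field, `A` a valuation subring with residue map `piA : A → k`.
`B` a Dedekind `K`-algebra (coordinate ring of an affine curve over `K`), `C ⊂ B` an `A`-model:
a subring containing `A`, finitely generated over `A`, with `K C = B`, and `rd : C → Cb` a surjection onto a Dedekind
`k`-algebra with kernel `𝔪_A C` ("smooth special fibre").  All residue fields of `B`, `Cb` are `K`, `k`.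

`InDisc w x` : the point `w` of `Spec B` has `A`-integral coordinates and reduces to the point `x` of `Spec Cb`.

MAIN RESULT (`local_formula`): for `f ∈ C` with `rd f ≠ 0`:  `ord_x (rd f) = ∑_{w ∈ disc x} ord_w f`.

## Proofs
Notation: for `w` with `InDisc w x` and `y : C` write `y(w) : A` for the element `a` with `y - a ∈ w` (unique, because
`w ∩ K = 0`).  `M := rd⁻¹ x`.  Note `y ∈ w ⟹ y(w) = 0 ⟹ rd y ∈ x`.

**CH-1.** `unique`: `rd` is surjective and `rd y ∈ x ↔ piA (y(w)) = 0 ↔ rd y ∈ x'`.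
`exists_inDisc`: `e : C → A`, `y ↦ y(w)` is a ring hom, `piA ∘ e` kills `ker rd` (by `ker`: `y = a y'`, `piA a = 0`,
`e y = a e y'`), so it factors as `χ : Cb → k`, surjective; `ker χ` is maximal, `≠ ⊥` since `Cb` is not a field.

**CH-2 (K1).** Let `𝔭 = {y : C | y ∈ w}`.  (a) `𝔭` is generated by `g - g(w)`, `g ∈ G` (`fg`): every `y ∈ C` is a polynomial
over `A` in the `g`'s, so `y - y(w) ∈ (g - g(w))_g` (closure induction: the set of `y` with
`∃ a : A, y - a ∈ Ideal.span {g - g(w)}` is a subring containing `A` and `G`).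
(b) for `y` with `rd y ∈ x` there are `b a' : C`, `rd b ∉ x`, with `rd (b y - ϖ a') = 0`
[Dedekind: `span {rd ϖ} = x * I`, `x ∤ I`; take `rd b ∈ I \ x`, then `rd b * rd y ∈ I x`].  By `ker`:
`b y = ϖ a' + a c`, `piA a = 0`, `c : C`.  If moreover `y ∈ w`: evaluating at `w` gives `a * c(w) = 0`, so (`a = 0` or) `c ∈ 𝔭`.
(c) So with `y_1 .. y_m` the generators of `𝔭` and `b = ∏ b_i`:  `b y_i = ϖ a_i + ∑_j μ_ij y_j` with `μ_ij ∈ 𝔪_A C`.
Determinant trick (`Matrix.mul_adjugate` / or localise at `M` and use Nakayama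
`Submodule.le_of_le_smul_of_le_jacobson_bot`): `s := det (b - μ)` satisfies `s y_i ∈ ϖ C` and `rd s = (rd b)^m ∉ x`.

**CH-3 (K3).** `S := {a * b | a : A, a ≠ 0, b : C, rd b ∉ x}` is a submonoid of `C`, disjoint from `f C`:
`a b = f c` ⟹ (`sat`) `c = a c'` ⟹ `b = f c'` ⟹ `rd b ∈ x`.  `Ideal.exists_le_prime_disjoint` gives a prime `𝔮 ∋ f` of `C`
disjoint from `S`.  `𝔮_B := {b : B | ∃ a ≠ 0, a b ∈ 𝔮}` is a nonzero prime of `B` (`span`), this is `w`; `w ∩ C = 𝔮`.
For `y : C` let `c : K` with `y - c ∈ w` (`resK`).  `c ∈ A`: otherwise `c⁻¹ ∈ 𝔪_A`, `c⁻¹ y - 1 ∈ 𝔮`, but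
`rd (c⁻¹ y - 1) = -1 ∉ x`, so `c⁻¹ y - 1 ∈ S`.  Contradiction.  `rd y ∈ x ↔ piA c = 0`: `y - c ∈ 𝔮` and `𝔮 ∩ S = ∅` give
`rd (y - c) ∈ x`, i.e. `rd y - piA c ∈ x`, and `x ∩ k = 0`.

**CH-4.** `K2`: `w' ∈ disc x`, `ϖ ∈ w'` ⟹ `w' = w` (by K1: `s f = ϖ f1 ∈ w'`, `s ∉ w'`, so `w ∩ C ⊂ w'`, so `w ≤ w'`);
`ord_w ϖ = 1` (take `f ∈ (w \ w^2) ∩ C`; `1 = ord_w (s f) = ord_w ϖ + ord_w f1`).
`local_formula`: induction on `ord_x (rd f)`.  `= 0`: no zero in the disc.  `> 0`: K3 gives `w₀ ∈ disc x` with `f ∈ w₀`; choose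
`ϖ₀` with `rd ϖ₀ ∈ x \ x^2`, `ϖ = ϖ₀ - ϖ₀(w₀)` (same reduction); K1: `s f = ϖ f1`; `ord_x (rd f) = 1 + ord_x (rd f1)` and
`ord_w f = [w = w₀] + ord_w f1` for all `w ∈ disc x`.
-/

set_option autoImplicit false
set_option linter.unusedSectionVars false

open IsDedekindDomain

namespace Fermat.Agent.S37

/-- the order of `r` at the prime `w` -/
noncomputable def ordH {R : Type*} [CommRing R] [IsDedekindDomain R] (w : HeightOneSpectrum R)
    (r : R) : ℕ :=
  (Associates.mk w.asIdeal).count (Associates.mk (Ideal.span {r})).factors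

variable {K : Type*} [Field K] (A : ValuationSubring K)
variable {B : Type*} [CommRing B] [IsDedekindDomain B] [Algebra K B]
variable (C : Subring B)
variable {k : Type*} [Field k] (piA : A →+* k)
variable {Cb : Type*} [CommRing Cb] [IsDedekindDomain Cb] [Algebra k Cb]
variable (rd : C →+* Cb)

/-- the hypotheses on a chart -/
structure ChartHyp : Prop where
  A_mem : ∀ a : A, algebraMap K B a ∈ C
  fg : ∃ G : Finset B, (∀ g ∈ G, g ∈ C) ∧
    ∀ y ∈ C, y ∈ Subring.closure (Set.range (fun a : A => algebraMap K B a) ∪ (G : Set B))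
  span : ∀ b : B, ∃ a : A, a ≠ 0 ∧ algebraMap K B a * b ∈ C
  piA_surj : Function.Surjective piA
  rd_surj : Function.Surjective rd
  rd_alg : ∀ a : A, rd ⟨algebraMap K B a, A_mem a⟩ = algebraMap k Cb (piA a)
  ker : ∀ y : C, rd y = 0 → ∃ a : A, piA a = 0 ∧ ∃ y' : C, (y : B) = algebraMap K B a * y'
  sat : ∀ (a : A) (f c b : C), rd f ≠ 0 → (f : B) * c = algebraMap K B a * b →
    ∃ c' : C, (c : B) = algebraMap K B a * c'
  resK : ∀ (w : HeightOneSpectrum B) (b : B), ∃ c : K, b - algebraMap K B c ∈ w.asIdeal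
  resk : ∀ (x : HeightOneSpectrum Cb) (b : Cb), ∃ c : k, b - algebraMap k Cb c ∈ x.asIdeal
  not_field : ¬ IsField Cb

/-- `w` has integral coordinates and reduces to `x` -/
def InDisc (w : HeightOneSpectrum B) (x : HeightOneSpectrum Cb) : Prop :=
  ∀ y : C, ∃ a : A, (y : B) - algebraMap K B a ∈ w.asIdeal ∧ (rd y ∈ x.asIdeal ↔ piA a = 0)

variable {A C piA rd}

/-- [S37/CH-1] -/
theorem InDisc.unique (h : ChartHyp A C piA rd) {w : HeightOneSpectrum B}
    {x x' : HeightOneSpectrum Cb} (hx : InDisc A C piA rd w x) (hx' : InDisc A C piA rd w x') :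
    x = x' := by
  have hconst : ∀ c : K, algebraMap K B c ∈ w.asIdeal → c = 0 := by
    intro c hc
    by_contra hc0
    exact w.isPrime.ne_top (Ideal.eq_top_of_isUnit_mem _ hc ((isUnit_iff_ne_zero.2 hc0).map _))
  apply HeightOneSpectrum.ext
  ext z
  obtain ⟨y, rfl⟩ := h.rd_surj z
  obtain ⟨a, ha, hax⟩ := hx y
  obtain ⟨a', ha', hax'⟩ := hx' y
  have : a = a' := by
    have h1 : algebraMap K B ((a' : K) - (a : K)) ∈ w.asIdeal := by
      have := w.asIdeal.sub_mem ha ha'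
      rwa [sub_sub_sub_cancel_left, ← map_sub] at this
    exact (Subtype.ext (sub_eq_zero.1 (hconst _ h1))).symm
  rw [hax, hax', this]

/-- [S37/CH-1] -/
theorem exists_inDisc (h : ChartHyp A C piA rd) (w : HeightOneSpectrum B)
    (hw : ∀ y : C, ∃ a : A, (y : B) - algebraMap K B a ∈ w.asIdeal) :
    ∃ x : HeightOneSpectrum Cb, InDisc A C piA rd w x := by
  have hconst : ∀ c : K, algebraMap K B c ∈ w.asIdeal → c = 0 := by
    intro c hc
    by_contra hc0
    exact w.isPrime.ne_top (Ideal.eq_top_of_isUnit_mem _ hc ((isUnit_iff_ne_zero.2 hc0).map _))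
  choose e he using hw
  have huniq : ∀ (y : C) (a : A), (y : B) - algebraMap K B a ∈ w.asIdeal → e y = a := by
    intro y a ha
    have h1 : algebraMap K B ((a : K) - (e y : K)) ∈ w.asIdeal := by
      have := w.asIdeal.sub_mem (he y) ha
      rwa [sub_sub_sub_cancel_left, ← map_sub] at this
    exact (Subtype.ext (sub_eq_zero.1 (hconst _ h1))).symm
  let E : C →+* A :=
    { toFun := e
      map_one' := huniq 1 1 (by simp)
      map_zero' := huniq 0 0 (by simp)
      map_add' := fun y z => huniq _ _ (by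
        have := w.asIdeal.add_mem (he y) (he z)
        have h2 : ((y + z : C) : B) - algebraMap K B ((e y + e z : A) : K) =
            ((y : B) - algebraMap K B (e y)) + ((z : B) - algebraMap K B (e z)) := by
          show (y : B) + (z : B) - algebraMap K B ((e y : K) + (e z : K)) = _
          rw [map_add]; ring
        rwa [h2])
      map_mul' := fun y z => huniq _ _ (by
        have h2 : ((y * z : C) : B) - algebraMap K B ((e y * e z : A) : K) =
            ((y : B) - algebraMap K B (e y)) * (z : B) +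
              algebraMap K B (e y) * ((z : B) - algebraMap K B (e z)) := by
          show (y : B) * (z : B) - algebraMap K B ((e y : K) * (e z : K)) = _
          rw [map_mul]; ring
        rw [h2]
        exact w.asIdeal.add_mem (w.asIdeal.mul_mem_right _ (he y))
          (w.asIdeal.mul_mem_left _ (he z))) }
  have hEc : ∀ a : A, E ⟨algebraMap K B a, h.A_mem a⟩ = a := fun a => huniq _ a (by simp)
  have hker : RingHom.ker rd ≤ RingHom.ker (piA.comp E) := by
    intro y hy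
    obtain ⟨a, ha, y', hy'⟩ := h.ker y hy
    have h1 : y = ⟨algebraMap K B a, h.A_mem a⟩ * y' := Subtype.ext hy'
    rw [RingHom.mem_ker, RingHom.comp_apply, h1, map_mul, hEc, map_mul, ha, zero_mul]
  let χ : Cb →+* k := RingHom.liftOfSurjective rd h.rd_surj ⟨piA.comp E, hker⟩
  have hχ : ∀ y : C, χ (rd y) = piA (E y) := fun y =>
    RingHom.liftOfRightInverse_comp_apply rd _ _ ⟨piA.comp E, hker⟩ y
  have hχs : Function.Surjective χ := by
    intro c
    obtain ⟨a, rfl⟩ := h.piA_surj c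
    exact ⟨rd ⟨algebraMap K B a, h.A_mem a⟩, by rw [hχ, hEc]⟩
  have hmax : (RingHom.ker χ).IsMaximal := RingHom.ker_isMaximal_of_surjective χ hχs
  refine ⟨⟨RingHom.ker χ, hmax.isPrime, Ring.ne_bot_of_isMaximal_of_not_isField hmax h.not_field⟩,
    fun y => ⟨e y, he y, ?_⟩⟩
  show χ (rd y) = 0 ↔ _
  rw [hχ]
  rfl

namespace ChartAux

/-- the structure map `A → C` -/
def phiC (h : ChartHyp A C piA rd) : A →+* C :=
  ((algebraMap K B).comp A.subtype).codRestrict C h.A_mem

theorem coe_phiC (h : ChartHyp A C piA rd) (a : A) : ((phiC h a : C) : B) = algebraMap K B a := rfl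

theorem rd_phiC (h : ChartHyp A C piA rd) (a : A) : rd (phiC h a) = algebraMap k Cb (piA a) :=
  h.rd_alg a

theorem algebraMap_ne_zero' {c : K} (hc : c ≠ 0) : algebraMap K B c ≠ 0 := by
  intro h0
  exact hc ((algebraMap K B).injective (h0.trans (map_zero _).symm))

theorem isUnit_algebraMap' {c : K} (hc : c ≠ 0) : IsUnit (algebraMap K B c) :=
  (IsUnit.mk0 c hc).map (algebraMap K B)

theorem piA_eq_zero_of_not_isUnit (h : ChartHyp A C piA rd) {a : A} (ha : ¬ IsUnit a) :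
    piA a = 0 := by
  have hmax : (RingHom.ker piA).IsMaximal := RingHom.ker_isMaximal_of_surjective piA h.piA_surj
  have := IsLocalRing.eq_maximalIdeal hmax
  have h2 : a ∈ IsLocalRing.maximalIdeal A := (IsLocalRing.mem_maximalIdeal a).mpr ha
  rw [← this] at h2
  exact h2

theorem algebraMap_notMem (x : HeightOneSpectrum Cb) {c : k} (hc : c ≠ 0) :
    algebraMap k Cb c ∉ x.asIdeal := by
  intro hmem
  exact x.isPrime.ne_top (Ideal.eq_top_of_isUnit_mem _ hmem ((IsUnit.mk0 c hc).map _))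

/-- the multiplicative set of K3 -/
def monK3 (h : ChartHyp A C piA rd) (x : HeightOneSpectrum Cb) : Submonoid C where
  carrier := {s | ∃ a : A, a ≠ 0 ∧ ∃ b : C, rd b ∉ x.asIdeal ∧ s = phiC h a * b}
  one_mem' := ⟨1, one_ne_zero, 1, by
    rw [map_one]; exact fun h1 => x.isPrime.ne_top ((Ideal.eq_top_iff_one _).mpr h1), by simp⟩
  mul_mem' := by
    rintro _ _ ⟨a, ha, b, hb, rfl⟩ ⟨a', ha', b', hb', rfl⟩
    refine ⟨a * a', mul_ne_zero ha ha', b * b', ?_, by rw [map_mul]; ring⟩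
    rw [map_mul]
    exact fun hm => (x.isPrime.mem_or_mem hm).elim hb hb'

theorem mem_monK3_of_rd (h : ChartHyp A C piA rd) (x : HeightOneSpectrum Cb) {b : C}
    (hb : rd b ∉ x.asIdeal) : b ∈ monK3 h x :=
  ⟨1, one_ne_zero, b, hb, by simp⟩

theorem disjoint_monK3 (h : ChartHyp A C piA rd) (x : HeightOneSpectrum Cb) (f : C)
    (hf0 : rd f ≠ 0) (hf : rd f ∈ x.asIdeal) :
    Disjoint ((Ideal.span {f} : Ideal C) : Set C) (monK3 h x) := by
  rw [Set.disjoint_left]
  rintro s hs ⟨a, ha, b, hb, rfl⟩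
  obtain ⟨c, hc⟩ := Ideal.mem_span_singleton'.mp hs
  have h1 : (f : B) * c = algebraMap K B a * b := by
    have := congrArg (Subtype.val) hc
    simp only [Subring.coe_mul, coe_phiC] at this
    rw [← this]; ring
  obtain ⟨c', hc'⟩ := h.sat a f c b hf0 h1
  have ha' : algebraMap K B (a : K) ≠ 0 := algebraMap_ne_zero' (by simpa using ha)
  have h2 : (b : B) = f * c' := by
    apply mul_left_cancel₀ ha'
    rw [← h1, hc']; ring
  have h3 : b = f * c' := Subtype.ext (by simpa using h2)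
  apply hb
  rw [h3, map_mul]
  exact Ideal.mul_mem_right _ _ hf

/-- the constants `≠ 0` of `A`, inside `C` -/
def monA (h : ChartHyp A C piA rd) : Submonoid C := (nonZeroDivisors A).map (phiC h)

theorem isLocalization_monA (h : ChartHyp A C piA rd) : IsLocalization (monA h) B where
  map_units := by
    rintro ⟨_, a, ha, rfl⟩
    exact isUnit_algebraMap' (by simpa using nonZeroDivisors.ne_zero ha)
  surj := by
    intro b
    obtain ⟨a, ha, hab⟩ := h.span b
    refine ⟨(⟨_, hab⟩, ⟨phiC h a, a, mem_nonZeroDivisors_of_ne_zero ha, rfl⟩), ?_⟩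
    show b * algebraMap K B a = algebraMap K B a * b
    ring
  exists_of_eq := by
    intro y z hyz
    exact ⟨1, by rw [Subtype.ext hyz]⟩

theorem monA_le (h : ChartHyp A C piA rd) (x : HeightOneSpectrum Cb) : monA h ≤ monK3 h x := by
  rintro _ ⟨a, ha, rfl⟩
  refine ⟨a, nonZeroDivisors.ne_zero ha, 1, ?_, by simp⟩
  rw [map_one]; exact fun h1 => x.isPrime.ne_top ((Ideal.eq_top_iff_one _).mpr h1)

end ChartAux

namespace ChartAux

/-- the prime of `C` below `w` -/
def primeC (C : Subring B) (w : HeightOneSpectrum B) : Ideal C :=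
  Ideal.comap (algebraMap C B) w.asIdeal

theorem mem_primeC {w : HeightOneSpectrum B} {y : C} : y ∈ primeC C w ↔ (y : B) ∈ w.asIdeal :=
  Iff.rfl

theorem eq_zero_of_algebraMap_mem (w : HeightOneSpectrum B) {c : K}
    (hc : algebraMap K B c ∈ w.asIdeal) : c = 0 := by
  by_contra h0
  exact w.isPrime.ne_top (Ideal.eq_top_of_isUnit_mem _ hc (isUnit_algebraMap' h0))

/-- (a) `𝔭 = w ∩ C` is finitely generated -/
theorem primeC_fg (h : ChartHyp A C piA rd) {w : HeightOneSpectrum B}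
    (hw : ∀ y : C, ∃ a : A, (y : B) - algebraMap K B a ∈ w.asIdeal) : (primeC C w).FG := by
  classical
  obtain ⟨G, hG, hgen⟩ := h.fg
  choose e he using hw
  let gen : G → C := fun g => ⟨g.1, hG g.1 g.2⟩ - phiC h (e ⟨g.1, hG g.1 g.2⟩)
  let T : Ideal C := Ideal.span (Set.range gen)
  have hT : T ≤ primeC C w := by
    rw [Ideal.span_le]
    rintro _ ⟨g, rfl⟩
    exact he ⟨g.1, hG g.1 g.2⟩
  have key : ∀ b : B, b ∈ Subring.closure (Set.range (fun a : A => algebraMap K B a) ∪ (G : Set B)) →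
      ∃ (hb : b ∈ C) (a : A), (⟨b, hb⟩ : C) - phiC h a ∈ T := by
    intro b hb
    induction hb using Subring.closure_induction with
    | mem z hz =>
      rcases hz with ⟨a, rfl⟩ | hz
      · refine ⟨h.A_mem a, a, ?_⟩
        have : (⟨algebraMap K B a, h.A_mem a⟩ : C) - phiC h a = 0 := sub_self _
        rw [this]; exact T.zero_mem
      · exact ⟨hG z hz, e ⟨z, hG z hz⟩, Ideal.subset_span ⟨⟨z, hz⟩, rfl⟩⟩
    | zero => exact ⟨C.zero_mem, 0, by
        have : (⟨0, C.zero_mem⟩ : C) - phiC h 0 = 0 := by rw [map_zero, sub_zero]; rfl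
        rw [this]; exact T.zero_mem⟩
    | one => exact ⟨C.one_mem, 1, by
        have : (⟨1, C.one_mem⟩ : C) - phiC h 1 = 0 := by rw [map_one, sub_eq_zero]; rfl
        rw [this]; exact T.zero_mem⟩
    | add y z _ _ hy hz =>
      obtain ⟨hy1, a, ha⟩ := hy
      obtain ⟨hz1, a', ha'⟩ := hz
      refine ⟨C.add_mem hy1 hz1, a + a', ?_⟩
      have : (⟨y + z, C.add_mem hy1 hz1⟩ : C) - phiC h (a + a') =
          ((⟨y, hy1⟩ : C) - phiC h a) + ((⟨z, hz1⟩ : C) - phiC h a') := by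
        rw [map_add]; apply Subtype.ext; push_cast; ring
      rw [this]; exact T.add_mem ha ha'
    | neg y _ hy =>
      obtain ⟨hy1, a, ha⟩ := hy
      refine ⟨C.neg_mem hy1, -a, ?_⟩
      have : (⟨-y, C.neg_mem hy1⟩ : C) - phiC h (-a) = -((⟨y, hy1⟩ : C) - phiC h a) := by
        rw [map_neg]; apply Subtype.ext; push_cast; ring
      rw [this]; exact T.neg_mem ha
    | mul y z _ _ hy hz =>
      obtain ⟨hy1, a, ha⟩ := hy
      obtain ⟨hz1, a', ha'⟩ := hz
      refine ⟨C.mul_mem hy1 hz1, a * a', ?_⟩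
      have : (⟨y * z, C.mul_mem hy1 hz1⟩ : C) - phiC h (a * a') =
          (⟨z, hz1⟩ : C) * ((⟨y, hy1⟩ : C) - phiC h a) +
            phiC h a * ((⟨z, hz1⟩ : C) - phiC h a') := by
        rw [map_mul]; apply Subtype.ext; push_cast; ring
      rw [this]; exact T.add_mem (T.mul_mem_left _ ha) (T.mul_mem_left _ ha')
  have hle : primeC C w ≤ T := by
    intro y hy
    obtain ⟨hb, a, ha⟩ := key y (hgen y y.2)
    have h1 : phiC h a ∈ primeC C w := by
      have h2 := hT ha
      have h3 : phiC h a = y - ((⟨(y : B), hb⟩ : C) - phiC h a) := by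
        apply Subtype.ext; push_cast; ring
      rw [h3]; exact (primeC C w).sub_mem hy h2
    have h2 : (a : K) = 0 := eq_zero_of_algebraMap_mem w h1
    have h3 : a = 0 := Subtype.ext h2
    rw [h3, map_zero, sub_zero] at ha
    exact ha
  rw [le_antisymm hle hT]
  exact Submodule.fg_span (Set.finite_range gen)

/-- (b) a uniform multiplier -/
theorem exists_mult (h : ChartHyp A C piA rd) (x : HeightOneSpectrum Cb) (ϖ : C)
    (hϖ1 : rd ϖ ∈ x.asIdeal) (hϖ2 : rd ϖ ∉ x.asIdeal ^ 2) :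
    ∃ b : C, rd b ∉ x.asIdeal ∧ ∀ y : C, rd y ∈ x.asIdeal → ∃ a' : C, rd (b * y - ϖ * a') = 0 := by
  have hdvd : x.asIdeal ∣ Ideal.span {rd ϖ} := by
    rw [Ideal.dvd_iff_le, Ideal.span_le, Set.singleton_subset_iff]; exact hϖ1
  obtain ⟨I, hI⟩ := hdvd
  have hIx : ¬ I ≤ x.asIdeal := by
    intro hle
    apply hϖ2
    have : Ideal.span {rd ϖ} ≤ x.asIdeal ^ 2 := by
      rw [hI, pow_two]; exact Ideal.mul_mono_right hle
    exact this (Ideal.mem_span_singleton_self _)
  obtain ⟨β, hβI, hβx⟩ := SetLike.not_le_iff_exists.mp hIx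
  obtain ⟨b, rfl⟩ := h.rd_surj β
  refine ⟨b, hβx, fun y hy => ?_⟩
  have h1 : rd b * rd y ∈ Ideal.span {rd ϖ} := by
    rw [hI, mul_comm (rd b)]; exact Ideal.mul_mem_mul hy hβI
  obtain ⟨α, hα⟩ := Ideal.mem_span_singleton'.mp h1
  obtain ⟨a', rfl⟩ := h.rd_surj α
  exact ⟨a', by rw [map_sub, map_mul, map_mul, ← hα]; ring⟩

/-- (b') `b 𝔭 ⊂ ϖ C + 𝔪 𝔭` -/
theorem exists_decomp (h : ChartHyp A C piA rd) {w : HeightOneSpectrum B} (ϖ b y a' : C)
    (hϖw : (ϖ : B) ∈ w.asIdeal) (hy : (y : B) ∈ w.asIdeal) (h0 : rd (b * y - ϖ * a') = 0) :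
    ∃ (μ c : C), rd μ = 0 ∧ c ∈ primeC C w ∧ b * y = ϖ * a' + μ * c := by
  obtain ⟨a, ha, c, hc⟩ := h.ker _ h0
  by_cases ha0 : a = 0
  · refine ⟨0, 0, map_zero _, (primeC C w).zero_mem, ?_⟩
    have : b * y - ϖ * a' = 0 := by
      apply Subtype.ext
      rw [hc, ha0]; simp
    rw [mul_zero, add_zero]; exact sub_eq_zero.mp this
  · refine ⟨phiC h a, c, by rw [rd_phiC, ha, map_zero], ?_, ?_⟩
    · have h1 : algebraMap K B a * (c : B) ∈ w.asIdeal := by
        rw [← hc]
        push_cast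
        exact w.asIdeal.sub_mem (w.asIdeal.mul_mem_left _ hy) (w.asIdeal.mul_mem_right _ hϖw)
      rcases w.isPrime.mem_or_mem h1 with h2 | h2
      · exact absurd (Subtype.ext (eq_zero_of_algebraMap_mem w h2)) ha0
      · exact h2
    · have : b * y - ϖ * a' = phiC h a * c := Subtype.ext (by rw [hc]; rfl)
      rw [← this]; ring

end ChartAux

open ChartAux Polynomial in
/-- [S37/CH-2] (K1) -/
theorem exists_mul_eq (h : ChartHyp A C piA rd) {w : HeightOneSpectrum B}
    {x : HeightOneSpectrum Cb} (hwx : InDisc A C piA rd w x) (ϖ : C) (hϖw : (ϖ : B) ∈ w.asIdeal)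
    (hϖ1 : rd ϖ ∈ x.asIdeal) (hϖ2 : rd ϖ ∉ x.asIdeal ^ 2) (f : C) (hf : (f : B) ∈ w.asIdeal) :
    ∃ s f1 : C, rd s ∉ x.asIdeal ∧ s * f = ϖ * f1 := by
  have hw : ∀ y : C, ∃ a : A, (y : B) - algebraMap K B a ∈ w.asIdeal := fun y =>
    (hwx y).imp fun a ha => ha.1
  have hrdx : ∀ y : C, (y : B) ∈ w.asIdeal → rd y ∈ x.asIdeal := by
    intro y hy
    obtain ⟨a, ha1, ha2⟩ := hwx y
    have h1 : algebraMap K B a ∈ w.asIdeal := (Submodule.sub_mem_iff_right _ hy).mp ha1
    have h2 : a = 0 := Subtype.ext (eq_zero_of_algebraMap_mem w h1)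
    exact ha2.mpr (by rw [h2, map_zero])
  obtain ⟨b, hb, hby⟩ := exists_mult h x ϖ hϖ1 hϖ2
  let J : Ideal C := Ideal.span {ϖ}
  let N : Submodule C (C ⧸ J) := Submodule.map (Submodule.mkQ J) (primeC C w)
  have hNfg : N.FG := Submodule.FG.map _ (primeC_fg h hw)
  have : Module.Finite C N := Module.Finite.iff_fg.mpr hNfg
  let 𝔪 : Ideal C := RingHom.ker rd
  let φ : Module.End C N := algebraMap C (Module.End C N) b
  have hrange : LinearMap.range φ ≤ 𝔪 • (⊤ : Submodule C N) := by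
    rintro _ ⟨⟨n, hn⟩, rfl⟩
    obtain ⟨y, hy, rfl⟩ := hn
    obtain ⟨a', ha'⟩ := hby y (hrdx y hy)
    obtain ⟨μ, c, hμ, hc, hdec⟩ := exists_decomp h ϖ b y a' hϖw hy ha'
    have h1 : φ ⟨Submodule.mkQ J y, ⟨y, hy, rfl⟩⟩ =
        μ • (⟨Submodule.mkQ J c, ⟨c, hc, rfl⟩⟩ : N) := by
      apply Subtype.ext
      show b • Submodule.mkQ J y = μ • Submodule.mkQ J c
      rw [← map_smul, ← map_smul, smul_eq_mul, smul_eq_mul, hdec, map_add]
      have : Submodule.mkQ J (ϖ * a') = 0 := by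
        rw [Submodule.mkQ_apply, Submodule.Quotient.mk_eq_zero]
        exact Ideal.mul_mem_right _ _ (Ideal.mem_span_singleton_self ϖ)
      rw [this, zero_add]
    rw [h1]
    exact Submodule.smul_mem_smul hμ Submodule.mem_top
  obtain ⟨P, hP1, -, hP2, hP3⟩ :=
    LinearMap.exists_monic_and_natDegree_eq_and_coeff_mem_pow_and_aeval_eq_zero C φ 𝔪 hrange
  refine ⟨aeval b P, ?_⟩
  have hs : rd (aeval b P) = rd b ^ P.natDegree := by
    rw [aeval_eq_sum_range, map_sum, Finset.sum_range_succ, Finset.sum_eq_zero, zero_add,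
      hP1.coeff_natDegree, one_smul, map_pow]
    intro i hi
    rw [Finset.mem_range] at hi
    have h1 : P.coeff i ∈ 𝔪 := by
      have := hP2 i
      exact Ideal.pow_le_self (by omega) this
    rw [smul_eq_mul, map_mul, (RingHom.mem_ker).mp h1, zero_mul]
  have hz : aeval b P • (⟨Submodule.mkQ J f, ⟨f, hf, rfl⟩⟩ : N) = 0 := by
    have h1 : aeval φ P = algebraMap C (Module.End C N) (aeval b P) :=
      aeval_algebraMap_apply (Module.End C N) b P
    have h2 := LinearMap.congr_fun hP3 (⟨Submodule.mkQ J f, ⟨f, hf, rfl⟩⟩ : N)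
    rw [h1] at h2
    exact h2
  have hz' : Submodule.mkQ J (aeval b P * f) = 0 := by
    have h3 : aeval b P • Submodule.mkQ J f = 0 := congrArg Subtype.val hz
    rw [← smul_eq_mul, map_smul]
    exact h3
  rw [Submodule.mkQ_apply, Submodule.Quotient.mk_eq_zero] at hz'
  obtain ⟨f1, hf1⟩ := Ideal.mem_span_singleton'.mp hz'
  refine ⟨f1, ?_, by rw [← hf1]; ring⟩
  rw [hs]
  exact fun hm => hb (x.isPrime.mem_of_pow_mem _ hm)

open ChartAux in
/-- [S37/CH-3] (K3) -/
theorem exists_zero (h : ChartHyp A C piA rd) (x : HeightOneSpectrum Cb) (f : C)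
    (hf0 : rd f ≠ 0) (hf : rd f ∈ x.asIdeal) :
    ∃ w : HeightOneSpectrum B, InDisc A C piA rd w x ∧ (f : B) ∈ w.asIdeal := by
  obtain ⟨𝔮, hq, hfq, hdis⟩ := Ideal.exists_le_prime_disjoint _ _ (disjoint_monK3 h x f hf0 hf)
  have hloc := isLocalization_monA h
  have hdisA : Disjoint (monA h : Set C) (𝔮 : Set C) :=
    (Set.disjoint_of_subset_right (monA_le h x) hdis).symm
  have hprime : (Ideal.map (algebraMap C B) 𝔮).IsPrime :=
    IsLocalization.isPrime_of_isPrime_disjoint (monA h) B 𝔮 hq hdisA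
  have hcomap : Ideal.comap (algebraMap C B) (Ideal.map (algebraMap C B) 𝔮) = 𝔮 :=
    IsLocalization.under_map_of_isPrime_disjoint (monA h) B hq hdisA
  have hfmem : f ∈ 𝔮 := hfq (Ideal.mem_span_singleton_self f)
  have hfB : (f : B) ∈ Ideal.map (algebraMap C B) 𝔮 := Ideal.mem_map_of_mem (algebraMap C B) hfmem
  have hf1 : (f : B) ≠ 0 := by
    intro h0
    apply hf0
    have : f = 0 := Subtype.ext h0
    rw [this, map_zero]
  have hne : Ideal.map (algebraMap C B) 𝔮 ≠ ⊥ := by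
    intro hb
    rw [hb] at hfB
    exact hf1 hfB
  have hmemq : ∀ y : C, (y : B) ∈ Ideal.map (algebraMap C B) 𝔮 → y ∈ 𝔮 := by
    intro y hy
    rw [← hcomap]
    exact hy
  have hrdq : ∀ y : C, y ∈ 𝔮 → rd y ∈ x.asIdeal := by
    intro y hy
    by_contra hn
    exact Set.disjoint_left.mp hdis hy (mem_monK3_of_rd h x hn)
  refine ⟨⟨_, hprime, hne⟩, ?_, hfB⟩
  intro y
  obtain ⟨c, hc⟩ := h.resK ⟨_, hprime, hne⟩ (y : B)
  change (y : B) - algebraMap K B c ∈ Ideal.map (algebraMap C B) 𝔮 at hc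
  have hcA : c ∈ A := by
    by_contra hcn
    have hc0 : c ≠ 0 := by
      rintro rfl
      exact hcn A.zero_mem
    have hinv : c⁻¹ ∈ A := (A.mem_or_inv_mem c).resolve_left hcn
    have hnu : ¬ IsUnit (⟨c⁻¹, hinv⟩ : A) := by
      intro hu
      obtain ⟨d, hd⟩ := hu.exists_right_inv
      have hd' : c⁻¹ * (d : K) = 1 := congrArg Subtype.val hd
      have : (d : K) = c := by
        field_simp at hd'
        exact hd'
      exact hcn (this ▸ d.2)
    have hpi := piA_eq_zero_of_not_isUnit h hnu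
    have hmem : phiC h ⟨c⁻¹, hinv⟩ * y - 1 ∈ 𝔮 := by
      apply hmemq
      have : ((phiC h ⟨c⁻¹, hinv⟩ * y - 1 : C) : B) =
          algebraMap K B c⁻¹ * ((y : B) - algebraMap K B c) := by
        push_cast
        rw [coe_phiC, mul_sub, ← map_mul, inv_mul_cancel₀ hc0, map_one]
      rw [this]
      exact Ideal.mul_mem_left _ _ hc
    have := hrdq _ hmem
    rw [map_sub, map_mul, rd_phiC, hpi, map_zero, zero_mul, map_one, zero_sub,
      neg_mem_iff] at this
    exact x.isPrime.ne_top ((Ideal.eq_top_iff_one _).mpr this)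
  refine ⟨⟨c, hcA⟩, hc, ?_⟩
  have hmem : y - phiC h ⟨c, hcA⟩ ∈ 𝔮 := hmemq _ hc
  have h2 := hrdq _ hmem
  rw [map_sub, rd_phiC] at h2
  constructor
  · intro hy
    by_contra hn
    exact algebraMap_notMem x hn ((Submodule.sub_mem_iff_right _ hy).mp h2)
  · intro h0
    rwa [h0, map_zero, sub_zero] at h2

end Fermat.Agent.S37
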