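import Fermat.Agent.S37.Chart

/-!
# S37, piece CH-4: the local formula `ord_x (rd f) = ∑_{w ∈ disc x} ord_w f`
(see the header of `Chart.lean` for the proof)
-/

set_option autoImplicit false

open IsDedekindDomain

namespace Fermat.Agent.S37

namespace ChartAux

section Ord

variable {R : Type*} [CommRing R] [IsDedekindDomain R] (w : HeightOneSpectrum R)

theorem intValuation_eq {r : R} (hr : r ≠ 0) :
    w.intValuation r = WithZero.exp (-(ordH w r : ℤ)) := w.intValuation_if_neg hr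

theorem ordH_mul {r s : R} (hr : r ≠ 0) (hs : s ≠ 0) :
    ordH w (r * s) = ordH w r + ordH w s := by
  have h := map_mul w.intValuation r s
  rw [intValuation_eq w (mul_ne_zero hr hs), intValuation_eq w hr, intValuation_eq w hs,
    ← WithZero.exp_add] at h
  have := WithZero.exp_injective h
  omega

theorem le_ordH_iff {r : R} (hr : r ≠ 0) (n : ℕ) : n ≤ ordH w r ↔ r ∈ w.asIdeal ^ n := by
  rw [← w.intValuation_le_pow_iff_mem, intValuation_eq w hr, WithZero.exp_le_exp]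
  omega

theorem ordH_eq_zero_iff {r : R} (hr : r ≠ 0) : ordH w r = 0 ↔ r ∉ w.asIdeal := by
  have := le_ordH_iff w hr 1
  rw [pow_one] at this
  rw [← this]
  omega

theorem ordH_eq_one {r : R} (h1 : r ∈ w.asIdeal) (h2 : r ∉ w.asIdeal ^ 2) : ordH w r = 1 := by
  have hr : r ≠ 0 := fun h => h2 (h ▸ Ideal.zero_mem _)
  have a1 := (le_ordH_iff w hr 1).2 (by rwa [pow_one])
  have a2 := (le_ordH_iff w hr 2).not.2 h2
  omega

theorem exists_uniformizer : ∃ π : R, π ∈ w.asIdeal ∧ π ∉ w.asIdeal ^ 2 := by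
  obtain ⟨π, hπ⟩ := w.intValuation_exists_uniformizer
  refine ⟨π, ?_, ?_⟩
  · rw [← w.intValuation_lt_one_iff_mem, hπ, ← WithZero.exp_zero, WithZero.exp_lt_exp]
    omega
  · rw [← w.intValuation_le_pow_iff_mem, hπ, WithZero.exp_le_exp]
    norm_num

theorem finite_support {r : R} (hr : r ≠ 0) :
    {v : HeightOneSpectrum R | ordH v r ≠ 0}.Finite := by
  have h0 : Ideal.span {r} ≠ 0 := by
    rw [Ne, Ideal.zero_eq_bot, Ideal.span_singleton_eq_bot]; exact hr
  refine (Ideal.finite_factors h0).subset fun v hv => ?_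
  show v.asIdeal ∣ Ideal.span {r}
  rw [Ideal.dvd_span_singleton]
  by_contra hn
  exact hv ((ordH_eq_zero_iff v hr).2 hn)

end Ord

end ChartAux

open ChartAux

variable {K : Type*} [Field K] {A : ValuationSubring K}
variable {B : Type*} [CommRing B] [IsDedekindDomain B] [Algebra K B]
variable {C : Subring B}
variable {k : Type*} [Field k] {piA : A →+* k}
variable {Cb : Type*} [CommRing Cb] [IsDedekindDomain Cb] [Algebra k Cb]
variable {rd : C →+* Cb}

namespace ChartAux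

omit [IsDedekindDomain B] in
theorem const_notMem (w : Ideal B) (hw : w ≠ ⊤) {c : K} (hc : c ≠ 0) :
    algebraMap K B c ∉ w := fun h =>
  hw (Ideal.eq_top_of_isUnit_mem _ h ((isUnit_iff_ne_zero.2 hc).map _))

/-- a function vanishing at a point of the disc reduces to a function vanishing at `x` -/
theorem rd_mem_of_mem {w : HeightOneSpectrum B} {x : HeightOneSpectrum Cb}
    (hwx : InDisc A C piA rd w x) (y : C) (hy : (y : B) ∈ w.asIdeal) : rd y ∈ x.asIdeal := by
  obtain ⟨a, ha, hax⟩ := hwx y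
  have h1 : algebraMap K B (a : K) ∈ w.asIdeal := by
    have := w.asIdeal.sub_mem hy ha
    rwa [sub_sub_cancel] at this
  have h2 : (a : K) = 0 := by
    by_contra h0
    exact const_notMem w.asIdeal w.isPrime.ne_top h0 h1
  have h3 : a = 0 := Subtype.ext h2
  rw [hax, h3, map_zero]

theorem coe_ne_zero {f : C} (hf : rd f ≠ 0) : (f : B) ≠ 0 := fun h0 => by
  apply hf
  have : f = 0 := Subtype.ext h0
  rw [this, map_zero]

/-- (K2a) -/
theorem eq_of_mem (h : ChartHyp A C piA rd) {w w' : HeightOneSpectrum B}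
    {x : HeightOneSpectrum Cb} (hwx : InDisc A C piA rd w x) (hwx' : InDisc A C piA rd w' x)
    (ϖ : C) (hϖw : (ϖ : B) ∈ w.asIdeal)
    (hϖ1 : rd ϖ ∈ x.asIdeal) (hϖ2 : rd ϖ ∉ x.asIdeal ^ 2) (hϖw' : (ϖ : B) ∈ w'.asIdeal) :
    w' = w := by
  have hC : ∀ f : C, (f : B) ∈ w.asIdeal → (f : B) ∈ w'.asIdeal := by
    intro f hf
    obtain ⟨s, f1, hs, hsf⟩ := exists_mul_eq h hwx ϖ hϖw hϖ1 hϖ2 f hf
    have h1 : (s : B) * (f : B) ∈ w'.asIdeal := by
      have : (s : B) * (f : B) = (ϖ : B) * (f1 : B) := congrArg Subtype.val hsf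
      rw [this]
      exact w'.asIdeal.mul_mem_right _ hϖw'
    rcases w'.isPrime.mem_or_mem h1 with h2 | h2
    · exact absurd (rd_mem_of_mem hwx' s h2) hs
    · exact h2
  have hle : w.asIdeal ≤ w'.asIdeal := by
    intro b hb
    obtain ⟨a, ha, hab⟩ := h.span b
    have h1 := hC ⟨_, hab⟩ (w.asIdeal.mul_mem_left _ hb)
    rcases w'.isPrime.mem_or_mem h1 with h2 | h2
    · exact absurd h2 (const_notMem _ w'.isPrime.ne_top (fun h0 => ha (Subtype.ext h0)))
    · exact h2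
  exact HeightOneSpectrum.ext (w.isMaximal.eq_of_le w'.isPrime.ne_top hle).symm

/-- (K2b) -/
theorem ordH_unif (h : ChartHyp A C piA rd) {w : HeightOneSpectrum B}
    {x : HeightOneSpectrum Cb} (hwx : InDisc A C piA rd w x)
    (ϖ : C) (hϖw : (ϖ : B) ∈ w.asIdeal)
    (hϖ1 : rd ϖ ∈ x.asIdeal) (hϖ2 : rd ϖ ∉ x.asIdeal ^ 2) : ordH w (ϖ : B) = 1 := by
  obtain ⟨b, hb1, hb2⟩ := exists_uniformizer w
  obtain ⟨a, ha, hab⟩ := h.span b
  have ha0 : (a : K) ≠ 0 := fun h0 => ha (Subtype.ext h0)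
  have hb0 : b ≠ 0 := fun h0 => hb2 (h0 ▸ Ideal.zero_mem _)
  have hca : algebraMap K B (a : K) ≠ 0 := fun h0 =>
    const_notMem w.asIdeal w.isPrime.ne_top ha0 (h0 ▸ Ideal.zero_mem _)
  have hord : ordH w (algebraMap K B (a : K) * b) = 1 := by
    rw [ordH_mul w hca hb0, ordH_eq_one w hb1 hb2,
      (ordH_eq_zero_iff w hca).2 (const_notMem _ w.isPrime.ne_top ha0)]
  obtain ⟨s, f1, hs, hsf⟩ := exists_mul_eq h hwx ϖ hϖw hϖ1 hϖ2 ⟨_, hab⟩
    (w.asIdeal.mul_mem_left _ hb1)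
  have hsf' : (s : B) * (algebraMap K B (a : K) * b) = (ϖ : B) * (f1 : B) :=
    congrArg Subtype.val hsf
  have hs0 : (s : B) ≠ 0 := coe_ne_zero (fun h0 => hs (h0 ▸ Ideal.zero_mem _))
  have hsw : (s : B) ∉ w.asIdeal := fun h2 => hs (rd_mem_of_mem hwx s h2)
  have hne : (ϖ : B) * (f1 : B) ≠ 0 := by
    rw [← hsf']; exact mul_ne_zero hs0 (mul_ne_zero hca hb0)
  have hϖ0 : (ϖ : B) ≠ 0 := left_ne_zero_of_mul hne
  have hf10 : (f1 : B) ≠ 0 := right_ne_zero_of_mul hne
  have h1 := congrArg (ordH w) hsf'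
  rw [ordH_mul w hs0 (mul_ne_zero hca hb0), hord, (ordH_eq_zero_iff w hs0).2 hsw,
    ordH_mul w hϖ0 hf10] at h1
  have h2 : 1 ≤ ordH w (ϖ : B) := (le_ordH_iff w hϖ0 1).2 (by rwa [pow_one])
  omega

end ChartAux

/-- [S37/CH-4] -/
theorem local_formula (h : ChartHyp A C piA rd) (x : HeightOneSpectrum Cb) (f : C)
    (hf : rd f ≠ 0) :
    (ordH x (rd f) : ℤ) =
      ∑ᶠ w ∈ {w : HeightOneSpectrum B | InDisc A C piA rd w x}, (ordH w (f : B) : ℤ) := by
  classical
  induction hn : ordH x (rd f) generalizing f with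
  | zero =>
    have hx : rd f ∉ x.asIdeal := (ordH_eq_zero_iff x hf).1 hn
    have : ∀ w ∈ {w : HeightOneSpectrum B | InDisc A C piA rd w x},
        (ordH w (f : B) : ℤ) = 0 := by
      intro w hw
      have : (f : B) ∉ w.asIdeal := fun h2 => hx (rd_mem_of_mem hw f h2)
      rw [(ordH_eq_zero_iff w (coe_ne_zero hf)).2 this]
      rfl
    rw [finsum_mem_congr rfl this, finsum_mem_zero]
    rfl
  | succ n ih =>
    have hx : rd f ∈ x.asIdeal := by
      have := (le_ordH_iff x hf 1).1 (by omega)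
      rwa [pow_one] at this
    obtain ⟨w0, hw0, hfw0⟩ := exists_zero h x f hf hx
    obtain ⟨π, hπ1, hπ2⟩ := exists_uniformizer x
    obtain ⟨ϖ0, rfl⟩ := h.rd_surj π
    obtain ⟨a0, ha0, ha0x⟩ := hw0 ϖ0
    have hpa : piA a0 = 0 := ha0x.1 hπ1
    let ϖ : C := ϖ0 - ⟨algebraMap K B a0, h.A_mem a0⟩
    have hϖw : (ϖ : B) ∈ w0.asIdeal := ha0
    have hrdϖ : rd ϖ = rd ϖ0 := by
      show rd (ϖ0 - _) = _
      rw [map_sub, h.rd_alg, hpa, map_zero, sub_zero]
    have hϖ1 : rd ϖ ∈ x.asIdeal := hrdϖ ▸ hπ1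
    have hϖ2 : rd ϖ ∉ x.asIdeal ^ 2 := hrdϖ ▸ hπ2
    obtain ⟨s, f1, hs, hsf⟩ := exists_mul_eq h hw0 ϖ hϖw hϖ1 hϖ2 f hfw0
    have hs0' : rd s ≠ 0 := fun h0 => hs (h0 ▸ Ideal.zero_mem _)
    have hrd : rd s * rd f = rd ϖ * rd f1 := by rw [← map_mul, hsf, map_mul]
    have hne : rd ϖ * rd f1 ≠ 0 := by rw [← hrd]; exact mul_ne_zero hs0' hf
    have hϖ0' : rd ϖ ≠ 0 := left_ne_zero_of_mul hne
    have hf1 : rd f1 ≠ 0 := right_ne_zero_of_mul hne
    have hn1 : ordH x (rd f1) = n := by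
      have h1 := congrArg (ordH x) hrd
      rw [ordH_mul x hs0' hf, (ordH_eq_zero_iff x hs0').2 hs, hn, ordH_mul x hϖ0' hf1,
        ordH_eq_one x hϖ1 hϖ2] at h1
      omega
    have hIH := ih f1 hf1 hn1
    have hsfB : (s : B) * (f : B) = (ϖ : B) * (f1 : B) := congrArg Subtype.val hsf
    have hpt : ∀ w ∈ {w : HeightOneSpectrum B | InDisc A C piA rd w x},
        (ordH w (f : B) : ℤ) = (if w = w0 then (1 : ℤ) else 0) + (ordH w (f1 : B) : ℤ) := by
      intro w hw
      have hsw : (s : B) ∉ w.asIdeal := fun h2 => hs (rd_mem_of_mem hw s h2)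
      have h1 := congrArg (ordH w) hsfB
      rw [ordH_mul w (coe_ne_zero hs0') (coe_ne_zero hf),
        (ordH_eq_zero_iff w (coe_ne_zero hs0')).2 hsw,
        ordH_mul w (coe_ne_zero hϖ0') (coe_ne_zero hf1)] at h1
      by_cases hww : w = w0
      · subst hww
        rw [ordH_unif h hw ϖ hϖw hϖ1 hϖ2] at h1
        rw [if_pos rfl]
        omega
      · have : (ϖ : B) ∉ w.asIdeal := fun h2 => hww (eq_of_mem h hw0 hw ϖ hϖw hϖ1 hϖ2 h2)
        rw [(ordH_eq_zero_iff w (coe_ne_zero hϖ0')).2 this] at h1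
        rw [if_neg hww]
        omega
    rw [finsum_mem_congr rfl hpt, finsum_mem_add_distrib', ← hIH]
    · have : ∑ᶠ w ∈ {w : HeightOneSpectrum B | InDisc A C piA rd w x},
          (if w = w0 then (1 : ℤ) else 0) = 1 := by
        rw [finsum_mem_inter_support_eq _ _ ({w0} : Set (HeightOneSpectrum B)),
          finsum_mem_singleton, if_pos rfl]
        ext w
        simp only [Set.mem_inter_iff, Set.mem_ofPred_eq, Function.mem_support, ne_eq,
          ite_eq_right_iff, one_ne_zero, imp_false, not_not, Set.mem_singleton_iff]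
        constructor
        · rintro ⟨-, h2⟩; exact ⟨h2, h2⟩
        · rintro ⟨h2, -⟩; exact ⟨h2 ▸ hw0, h2⟩
      rw [this]
      push_cast
      ring
    · refine (Set.finite_singleton w0).subset ?_
      rintro w ⟨-, hw⟩
      by_contra hne
      exact hw (if_neg hne)
    · refine (finite_support (coe_ne_zero hf1)).subset ?_
      rintro w ⟨-, hw⟩
      intro h0
      apply hw
      show ((ordH w (f1 : B) : ℕ) : ℤ) = 0
      rw [h0]; rfl

end Fermat.Agent.S37
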