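import Fermat.Agent.S37.Chart
import Fermat.Prelude.Def_AlgebraicCurve_BaseChangeGalois

set_option autoImplicit false

open IsDedekindDomain AlgebraicCurve

namespace Fermat.Agent.S37

namespace Glue

section Van

variable {K : Type*} [Field K] {F : Type*} [Field F] [Algebra K F]

/-- `f` vanishes at `P` -/
def Van (P : Place K F) (f : F) : Prop := P.toValuationSubring.valuation f < 1

variable {P : Place K F}

theorem Van.mem {f : F} (h : Van P f) : f ∈ P.toValuationSubring :=
  (ValuationSubring.valuation_le_one_iff _ _).mp h.le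

theorem van_zero : Van P 0 := by
  unfold Van; rw [map_zero]; exact zero_lt_one

theorem Van.add {f g : F} (hf : Van P f) (hg : Van P g) : Van P (f + g) :=
  Valuation.map_add_lt _ hf hg

theorem Van.neg {f : F} (hf : Van P f) : Van P (-f) := by
  unfold Van; rw [Valuation.map_neg]; exact hf

theorem Van.sub {f g : F} (hf : Van P f) (hg : Van P g) : Van P (f - g) := by
  rw [sub_eq_add_neg]; exact hf.add hg.neg

theorem Van.mul_mem {f g : F} (hf : Van P f) (hg : g ∈ P.toValuationSubring) : Van P (f * g) := by
  unfold Van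
  rw [map_mul]
  have h1 : P.toValuationSubring.valuation g ≤ 1 := (ValuationSubring.valuation_le_one_iff _ _).mpr hg
  calc P.toValuationSubring.valuation f * P.toValuationSubring.valuation g
      ≤ P.toValuationSubring.valuation f * 1 := mul_le_mul_right h1 _
    _ < 1 := by rw [mul_one]; exact hf

theorem van_iff {f : F} : Van P f ↔ f = 0 ∨ f⁻¹ ∉ P.toValuationSubring := by
  rcases eq_or_ne f 0 with rfl | hf
  · simp [van_zero]
  · simp only [hf, false_or]
    rw [← ValuationSubring.valuation_le_one_iff, map_inv₀, not_le]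
    unfold Van
    have h0 : P.toValuationSubring.valuation f ≠ 0 := (Valuation.ne_zero_iff _).mpr hf
    rw [one_lt_inv₀ (zero_lt_iff.mpr h0)]

theorem van_inv_of_notMem {f : F} (hf : f ∉ P.toValuationSubring) : Van P f⁻¹ := by
  rw [van_iff, inv_inv]; exact Or.inr hf

theorem not_van_one : ¬ Van P (1 : F) := by
  unfold Van; rw [map_one]; exact lt_irrefl _

theorem not_van_const {c : K} (hc : c ≠ 0) : ¬ Van P (algebraMap K F c) := by
  intro h
  have h1 := h.mul_mem (P.algebraMap_mem' c⁻¹)
  rw [← map_mul, mul_inv_cancel₀ hc, map_one] at h1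
  exact not_van_one h1

theorem van_smul_iff (g : SemilinearAut K F) {f : F} : Van (g • P) (g • f) ↔ Van P f := by
  rw [van_iff, van_iff, SemilinearAut.smul_toValuationSubring,
    ValuationSubring.mem_pointwise_smul_iff_inv_smul_mem]
  have h1 : g⁻¹ • (g • f)⁻¹ = f⁻¹ := by
    rw [smul_inv'', inv_smul_smul]
  rw [h1]
  have h2 : g • f = 0 ↔ f = 0 := smul_eq_zero_iff_eq g
  rw [h2]

/-- `f` has the value `c` at `P` -/
def Val (P : Place K F) (f : F) (c : K) : Prop := Van P (f - algebraMap K F c)

theorem Val.mem {f : F} {c : K} (h : Val P f c) : f ∈ P.toValuationSubring := by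
  have : f = (f - algebraMap K F c) + algebraMap K F c := by ring
  rw [this]
  exact add_mem (Van.mem h) (P.algebraMap_mem' c)

theorem Val.unique {f : F} {c c' : K} (h : Val P f c) (h' : Val P f c') : c = c' := by
  by_contra hne
  have h1 : Van P (algebraMap K F (c - c')) := by
    have : algebraMap K F (c - c') = (f - algebraMap K F c') - (f - algebraMap K F c) := by
      rw [map_sub]; ring
    rw [this]
    exact Van.sub h' h
  exact not_van_const (sub_ne_zero.mpr hne) h1

theorem Val.mul {f f' : F} {c c' : K} (h : Val P f c) (h' : Val P f' c') :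
    Val P (f * f') (c * c') := by
  have : f * f' - algebraMap K F (c * c') =
      (f - algebraMap K F c) * f' + (f' - algebraMap K F c') * algebraMap K F c := by
    rw [map_mul]; ring
  unfold Val
  rw [this]
  exact (Van.mul_mem h h'.mem).add (Van.mul_mem h' (P.algebraMap_mem' c))

theorem val_const (c : K) : Val P (algebraMap K F c) c := by
  unfold Val; rw [sub_self]; exact van_zero

theorem val_one : Val P (1 : F) 1 := by
  have := val_const (P := P) (1 : K)
  rwa [map_one] at this

theorem Val.inv {f : F} {c : K} (h : Val P f c) (hc : c ≠ 0) : Val P f⁻¹ c⁻¹ := by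
  have hf0 : f ≠ 0 := by
    rintro rfl
    have : Van P (algebraMap K F c) := by
      have h1 := Van.neg h
      rwa [zero_sub, neg_neg] at h1
    exact not_van_const hc this
  have hfinv : f⁻¹ ∈ P.toValuationSubring := by
    by_contra hcon
    have h1 : Van P f := by
      rw [van_iff]; exact Or.inr hcon
    have h2 : Van P (algebraMap K F c) := by
      have : algebraMap K F c = f - (f - algebraMap K F c) := by ring
      rw [this]; exact h1.sub h
    exact not_van_const hc h2
  have hc' : algebraMap K F c ≠ 0 := by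
    rw [Ne, map_eq_zero]; exact hc
  have : f⁻¹ - algebraMap K F c⁻¹ = -((f - algebraMap K F c) * (f⁻¹ * algebraMap K F c⁻¹)) := by
    rw [map_inv₀]; field_simp; ring
  unfold Val
  rw [this]
  exact (Van.mul_mem h (mul_mem hfinv (P.algebraMap_mem' _))).neg

theorem val_smul (g : SemilinearAut K F) {f : F} {c : K} (h : Val P f c) :
    Val (g • P) (g • f) (SemilinearAut.baseAut g c) := by
  unfold Val
  rw [← SemilinearAut.smul_algebraMap, ← smul_sub]
  exact (van_smul_iff g).mpr h

end Van

section Dict

variable {K : Type*} [Field K] {F : Type*} [Field F] [Algebra K F]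
variable {R : Type*} [CommRing R] [IsDedekindDomain R] [Algebra R F] [IsFractionRing R F]
  [Algebra K R] [IsScalarTower K R F]

/-- abbreviation -/
noncomputable abbrev ofH (K : Type*) [Field K] (F : Type*) [Field F] [Algebra K F]
    {R : Type*} [CommRing R] [IsDedekindDomain R] [Algebra R F] [IsFractionRing R F]
    [Algebra K R] [IsScalarTower K R F] (w : HeightOneSpectrum R) : Place K F :=
  Place.ofHeightOneSpectrum (K := K) (F := F) w

theorem van_ofH_iff (w : HeightOneSpectrum R) (r : R) :
    Van (ofH K F w) (algebraMap R F r) ↔ r ∈ w.asIdeal := by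
  unfold Van
  rw [← w.valuation_lt_one_iff_mem (K := F)]
  exact ((w.valuation F).isEquiv_valuation_valuationSubring.lt_one_iff_lt_one).symm

theorem val_ofH_iff (w : HeightOneSpectrum R) (r : R) (c : K) :
    Val (ofH K F w) (algebraMap R F r) c ↔ r - algebraMap K R c ∈ w.asIdeal := by
  unfold Val
  rw [← van_ofH_iff (K := K) (F := F), map_sub, ← IsScalarTower.algebraMap_apply]

theorem mem_ofH (w : HeightOneSpectrum R) (r : R) :
    algebraMap R F r ∈ (ofH K F w).toValuationSubring :=
  (Valuation.mem_valuationSubring_iff _ _).mpr (w.valuation_le_one r)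

theorem ord_ofH_algebraMap (w : HeightOneSpectrum R) {r : R} (hr : r ≠ 0) :
    (ofH K F w).ord (algebraMap R F r) = (ordH w r : ℤ) := by
  rw [S24.ord_ofHeightOneSpectrum, HeightOneSpectrum.valuation_of_algebraMap,
    HeightOneSpectrum.intValuation_if_neg _ hr, WithZero.log_exp, neg_neg]
  rfl

theorem finite_support_ordH {r : R} (hr : r ≠ 0) :
    (Function.support fun w : HeightOneSpectrum R => (ordH w r : ℤ)).Finite := by
  have hI : Ideal.span {r} ≠ 0 := by
    rw [Ne, Ideal.zero_eq_bot, Ideal.span_singleton_eq_bot]; exact hr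
  exact Associates.finite_factors hI

theorem ofH_injective : Function.Injective (ofH K F (R := R)) :=
  S24.ofHeightOneSpectrum_injective

theorem mem_range_of_ord_eq_zero (z : F) (hz : ∀ w : HeightOneSpectrum R, (ofH K F w).ord z = 0) :
    z ∈ (algebraMap R F).range := by
  apply HeightOneSpectrum.mem_integers_of_valuation_le_one
  intro w
  rcases eq_or_ne z 0 with rfl | hz0
  · simp
  have h1 := hz w
  rw [S24.ord_ofHeightOneSpectrum, neg_eq_zero] at h1
  have h0 : w.valuation F z ≠ 0 := (Valuation.ne_zero_iff _).mpr hz0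
  have h2 : w.valuation F z = WithZero.exp (WithZero.log (w.valuation F z)) :=
    (WithZero.exp_log h0).symm
  rw [h2, h1, WithZero.exp_zero]

end Dict

section MapDomain

theorem mapDomain_apply_eq_finsum {α β : Type*} (r : α → β) (D : α →₀ ℤ) (x : β) :
    Finsupp.mapDomain r D x = ∑ᶠ P ∈ {P | r P = x}, D P := by
  classical
  rw [Finsupp.mapDomain, Finsupp.sum_apply, Finsupp.sum]
  rw [finsum_mem_def]
  rw [finsum_eq_sum_of_support_subset (s := D.support)]
  · refine Finset.sum_congr rfl fun P _ => ?_
    rw [Finsupp.single_apply, Set.indicator_apply]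
    rfl
  · intro P hP
    rw [Function.mem_support] at hP
    rw [Finset.mem_coe, Finsupp.mem_support_iff]
    intro h0
    apply hP
    rw [Set.indicator_apply]
    split_ifs
    · exact h0
    · rfl

end MapDomain

section Local

variable {K : Type*} [Field K] (A : ValuationSubring K) {k : Type*} [Field k] (piA : A →+* k)

theorem piA_eq_zero_of_not_isUnit (hs : Function.Surjective piA) {a : A} (ha : ¬ IsUnit a) :
    piA a = 0 := by
  have h1 : (RingHom.ker piA).IsMaximal := RingHom.ker_isMaximal_of_surjective piA hs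
  have h2 : RingHom.ker piA = IsLocalRing.maximalIdeal A := IsLocalRing.eq_maximalIdeal h1
  have h3 : a ∈ IsLocalRing.maximalIdeal A := (IsLocalRing.mem_maximalIdeal a).mpr ha
  rw [← h2] at h3
  exact h3

theorem exists_inv_of_notMem (hs : Function.Surjective piA) {c : K} (hc : c ∉ A) :
    ∃ a : A, (a : K) = c⁻¹ ∧ piA a = 0 := by
  have h1 : c⁻¹ ∈ A := (A.mem_or_inv_mem c).resolve_left hc
  refine ⟨⟨c⁻¹, h1⟩, rfl, piA_eq_zero_of_not_isUnit A piA hs ?_⟩
  rintro ⟨u, hu⟩
  apply hc
  have h2 : ((u⁻¹ : Aˣ) : A) * (⟨c⁻¹, h1⟩ : A) = 1 := by rw [← hu]; exact u.inv_mul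
  have h3 : (((u⁻¹ : Aˣ) : A) : K) * c⁻¹ = 1 := congrArg Subtype.val h2
  have hc0 : c ≠ 0 := fun h => hc (h ▸ A.zero_mem)
  have h4 : c = (((u⁻¹ : Aˣ) : A) : K) := by
    field_simp at h3
    exact h3.symm
  rw [h4]
  exact Subtype.mem _

end Local

end Glue

end Fermat.Agent.S37
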