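import Fermat.Agent.S37.ChartFormula
import Fermat.Agent.S37.ChartGlueAux
import Fermat.Prelude.Def_AlgebraicCurve_BaseChangeGalois

/-!
# S37, piece CH-5: two charts `t ≠ ∞`, `t ≠ 0` ⟹ the place reduction `r` with `div (red y) = r_* div y`

`F / K`, `Ft / k` function fields, `O ⊂ F` a subring (the valuation ring of the Gauss valuation) with `red : O → Ft`.
Chart 0: `(B0, C0, Cb0, rd0)`, chart 1: `(B1, C1, Cb1, rd1)`, both satisfying `ChartHyp`; `B_i ⊂ F`, `Cb_i ⊂ Ft` with fraction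
fields `F`, `Ft`; `t ∈ C0`, `t⁻¹ ∈ C1`.

## Definition of `r`
A place `P` of `F / K` is *of type 0* if `t ∈ O_P` and the value of `t` at `P` lies in `A`, i.e.
`∃ a : A, P.adicValuation (t - a) < 1`.  Then `B0 ⊂ O_P` (`int_B0`), `P = ofHeightOneSpectrum w`
(`S24.exists_heightOneSpectrum_of_le`), all `y : C0` have values in `A` at `w` (`int_C0`), `exists_inDisc` gives `x` and
`r P := ofHeightOneSpectrum x`.  If `P` is not of type 0 then `t⁻¹ ∈ O_P` with value `a ∈ 𝔪_A` (value `c⁻¹` if `t` has the value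
`c ∉ A`, value `0` if `t ∉ O_P`; residue field `= K` by `resK`), and the same construction in chart 1 gives `r P`.

## (RED)
Let `x` be a place of `Ft / k`.  Case `tb := red t ∈ O_x`: `Cb0 ⊂ O_x` (`int_Cb0`), `x = ofHeightOneSpectrum x0`;
`{P | r P = x} = {ofHeightOneSpectrum w | InDisc w x0}`:  a place which is not of type 0 has `t1(w) ∈ 𝔪_A`, so
`rd1 t1 ∈` the prime of `r P`, so `tb ∉ O_{r P}`.  Write `y = a / b` (`frac0`), apply `local_formula` to `a`, `b`;
`ord (ofHeightOneSpectrum w) (algebraMap r) = ordH w r` (`S24.ord_ofHeightOneSpectrum`, definition of `intValuation`).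
Case `tb ∉ O_x`: then `tb⁻¹ = red t⁻¹` is in the maximal ideal of `O_x`, `Cb1 ⊂ O_x`, `x = ofHeightOneSpectrum x1`, `rd1 t1 ∈ x1`;
`InDisc w x1` implies `t1(w) ∈ 𝔪_A`, so `ofHeightOneSpectrum w` is not of type 0; conversely type 0 places reduce to places
with `tb ∈ O`.  Same computation in chart 1.
`Finsupp.mapDomain r D x = ∑ᶠ P ∈ r⁻¹ x, D P`.

## (INV)
`g` a semilinear automorphism of `F / K` such that `g` and `g⁻¹` preserve `A`, `C0`, `C1` and act trivially on the reductions.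
The value of `y` at `g • P` is `g (value of g⁻¹ y at P)`; so `P` of type 0 ⟺ `g • P` of type 0 and `InDisc` is preserved;
conclude with `InDisc.unique`.

## (CONST)
`z ≠ 0` with `ord_x z = 0` for all `x` lies in `Cb0` and in `Cb1` (a Dedekind domain is the intersection of its localisations:
`z = a / b`, `ordH x0 b ≤ ordH x0 a` for all `x0` ⟹ `b ∣ a`), hence in `k` by `inter`.
-/

set_option autoImplicit false
set_option linter.unusedSectionVars false

open IsDedekindDomain AlgebraicCurve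

namespace Fermat.Agent.S37

variable {K : Type*} [Field K] (A : ValuationSubring K) {k : Type*} [Field k] (piA : A →+* k)
variable {F : Type*} [Field F] [Algebra K F] {Ft : Type*} [Field Ft] [Algebra k Ft]
variable (O : Subring F) (red : O →+* Ft) (t : F)
variable {B0 : Type*} [CommRing B0] [IsDedekindDomain B0] [Algebra K B0] [Algebra B0 F]
  [IsFractionRing B0 F] [IsScalarTower K B0 F] (C0 : Subring B0)
  {Cb0 : Type*} [CommRing Cb0] [IsDedekindDomain Cb0] [Algebra k Cb0] [Algebra Cb0 Ft]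
  [IsFractionRing Cb0 Ft] [IsScalarTower k Cb0 Ft] (rd0 : C0 →+* Cb0)
variable {B1 : Type*} [CommRing B1] [IsDedekindDomain B1] [Algebra K B1] [Algebra B1 F]
  [IsFractionRing B1 F] [IsScalarTower K B1 F] (C1 : Subring B1)
  {Cb1 : Type*} [CommRing Cb1] [IsDedekindDomain Cb1] [Algebra k Cb1] [Algebra Cb1 Ft]
  [IsFractionRing Cb1 Ft] [IsScalarTower k Cb1 Ft] (rd1 : C1 →+* Cb1)

/-- compatibility of one chart with `(O, red)`; `s` is the coordinate of the chart (`t` or `t⁻¹`) -/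
structure ChartCompat {B : Type*} [CommRing B] [IsDedekindDomain B] [Algebra K B] [Algebra B F]
    (C : Subring B) {Cb : Type*} [CommRing Cb] [IsDedekindDomain Cb] [Algebra k Cb] [Algebra Cb Ft]
    (rd : C →+* Cb) (s : F) : Prop where
  hyp : ChartHyp A C piA rd
  compat : ∀ y : C, ∃ hy : algebraMap B F y ∈ O, red ⟨_, hy⟩ = algebraMap Cb Ft (rd y)
  frac : ∀ y : O, red y ≠ 0 → ∃ a b : C, rd a ≠ 0 ∧ rd b ≠ 0 ∧
    (y : F) * algebraMap B F b = algebraMap B F a
  coord : ∃ s0 : C, algebraMap B F s0 = s ∧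
    (∀ w : HeightOneSpectrum B, (∃ a : A, (s0 : B) - algebraMap K B a ∈ w.asIdeal) →
      ∀ y : C, ∃ a : A, (y : B) - algebraMap K B a ∈ w.asIdeal) ∧
    (∀ x : Place k Ft, algebraMap Cb Ft (rd s0) ∈ x.toValuationSubring →
      ∀ b : Cb, algebraMap Cb Ft b ∈ x.toValuationSubring)
  int_B : ∀ P : Place K F, s ∈ P.toValuationSubring → ∀ b : B, algebraMap B F b ∈ P.toValuationSubring

/-- `g` preserves a chart and acts trivially on its reduction -/
def ChartFixed {B : Type*} [CommRing B] [Algebra B F]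
    (C : Subring B) {Cb : Type*} [CommRing Cb] (rd : C →+* Cb) (g : SemilinearAut K F) : Prop :=
  ∀ y : C, ∃ y' : C, algebraMap B F y' = g • algebraMap B F y ∧ rd y' = rd y

/-- `g` preserves `A` and acts trivially on its residue field -/
def BaseFixed (g : SemilinearAut K F) : Prop :=
  ∀ a : A, ∃ a' : A, (a' : K) = SemilinearAut.baseAut g a ∧ piA a' = piA a

namespace Glue

theorem finsum_mem_sub' {α : Type*} {s : Set α} {f g : α → ℤ}
    (hf : (s ∩ Function.support f).Finite) (hg : (s ∩ Function.support g).Finite) :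
    ∑ᶠ i ∈ s, (f i - g i) = ∑ᶠ i ∈ s, f i - ∑ᶠ i ∈ s, g i := by
  have hneg : (s ∩ Function.support (fun i => - g i)).Finite := by
    have : Function.support (fun i => - g i) = Function.support g := by
      ext i; simp
    rw [this]; exact hg
  have h1 : ∑ᶠ i ∈ s, (- g i) = - ∑ᶠ i ∈ s, g i := by
    rw [finsum_mem_def, finsum_mem_def, ← finsum_neg_distrib]
    refine finsum_congr fun i => ?_
    by_cases hi : i ∈ s <;> simp [Set.indicator, hi]
  simp only [sub_eq_add_neg]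
  rw [finsum_mem_add_distrib' hf hneg, h1]

section OneChart

variable {A piA O red}
variable {B : Type*} [CommRing B] [IsDedekindDomain B] [Algebra K B] [Algebra B F]
  [IsFractionRing B F] [IsScalarTower K B F] {C : Subring B}
  {Cb : Type*} [CommRing Cb] [IsDedekindDomain Cb] [Algebra k Cb] [Algebra Cb Ft]
  [IsFractionRing Cb Ft] [IsScalarTower k Cb Ft] {rd : C →+* Cb} {s : F}

variable (A piA C rd) in
/-- the reduction relation of one chart -/
def RedC (P : Place K F) (x : Place k Ft) : Prop :=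
  ∃ (w : HeightOneSpectrum B) (x0 : HeightOneSpectrum Cb),
    P = ofH K F w ∧ x = ofH k Ft x0 ∧ InDisc A C piA rd w x0

theorem inDisc_val {w : HeightOneSpectrum B} {x0 : HeightOneSpectrum Cb}
    (h : InDisc A C piA rd w x0) (y : C) :
    ∃ a : A, Val (ofH K F w) (algebraMap B F y) a ∧ (rd y ∈ x0.asIdeal ↔ piA a = 0) := by
  obtain ⟨a, ha, hiff⟩ := h y
  exact ⟨a, (val_ofH_iff w _ _).mpr ha, hiff⟩

theorem exists_redC_of_val (hc : ChartCompat A piA O red C rd s) (P : Place K F) (a : A)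
    (h : Val P s a) : ∃ x : Place k Ft, RedC A piA C rd P x := by
  obtain ⟨s0, hs0, hint, -⟩ := hc.coord
  obtain ⟨w, rfl⟩ := S24.exists_heightOneSpectrum_of_le P (hc.int_B P h.mem)
  have h1 : (s0 : B) - algebraMap K B a ∈ w.asIdeal := by
    rw [← val_ofH_iff (K := K) (F := F), hs0]; exact h
  obtain ⟨x0, hx0⟩ := exists_inDisc hc.hyp w (hint w ⟨a, h1⟩)
  exact ⟨_, w, x0, rfl, rfl, hx0⟩

theorem RedC.unique (hc : ChartCompat A piA O red C rd s) {P : Place K F} {x x' : Place k Ft}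
    (h : RedC A piA C rd P x) (h' : RedC A piA C rd P x') : x = x' := by
  obtain ⟨w, x0, rfl, rfl, hd⟩ := h
  obtain ⟨w', x0', hw, rfl, hd'⟩ := h'
  have : w = w' := ofH_injective hw
  subst this
  rw [hd.unique hc.hyp hd']

theorem exists_val (hc : ChartCompat A piA O red C rd s) (P : Place K F)
    (hs : s ∈ P.toValuationSubring) : ∃ c : K, Val P s c := by
  obtain ⟨s0, hs0, -, -⟩ := hc.coord
  obtain ⟨w, rfl⟩ := S24.exists_heightOneSpectrum_of_le P (hc.int_B P hs)
  obtain ⟨c, hcw⟩ := hc.hyp.resK w s0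
  exact ⟨c, by rw [← hs0]; exact (val_ofH_iff w _ _).mpr hcw⟩

theorem s_mem (hc : ChartCompat A piA O red C rd s) : s ∈ O := by
  obtain ⟨s0, hs0, -, -⟩ := hc.coord
  obtain ⟨h, -⟩ := hc.compat s0
  rwa [hs0] at h

theorem exists_ofH_of_red_mem (hc : ChartCompat A piA O red C rd s) (hs : s ∈ O)
    (x : Place k Ft) (hx : red ⟨s, hs⟩ ∈ x.toValuationSubring) :
    ∃ x0 : HeightOneSpectrum Cb, x = ofH k Ft x0 := by
  obtain ⟨s0, hs0, -, hx0⟩ := hc.coord
  obtain ⟨h, hr⟩ := hc.compat s0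
  have h1 : red ⟨s, hs⟩ = algebraMap Cb Ft (rd s0) := by
    rw [← hr]; congr 1; exact Subtype.ext hs0.symm
  rw [h1] at hx
  exact S24.exists_heightOneSpectrum_of_le x (hx0 x hx)

theorem red_s_mem (hc : ChartCompat A piA O red C rd s) (hs : s ∈ O)
    (x0 : HeightOneSpectrum Cb) : red ⟨s, hs⟩ ∈ (ofH k Ft x0).toValuationSubring := by
  obtain ⟨s0, hs0, -, -⟩ := hc.coord
  obtain ⟨h, hr⟩ := hc.compat s0
  have h1 : red ⟨s, hs⟩ = algebraMap Cb Ft (rd s0) := by
    rw [← hr]; congr 1; exact Subtype.ext hs0.symm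
  rw [h1]
  exact mem_ofH x0 _

theorem van_red_s_iff (hc : ChartCompat A piA O red C rd s) (hs : s ∈ O)
    {w : HeightOneSpectrum B} {x0 : HeightOneSpectrum Cb} (h : InDisc A C piA rd w x0) {a : A}
    (ha : Val (ofH K F w) s a) : Van (ofH k Ft x0) (red ⟨s, hs⟩) ↔ piA a = 0 := by
  obtain ⟨s0, hs0, -, -⟩ := hc.coord
  obtain ⟨h', hr⟩ := hc.compat s0
  have h1 : red ⟨s, hs⟩ = algebraMap Cb Ft (rd s0) := by
    rw [← hr]; congr 1; exact Subtype.ext hs0.symm
  obtain ⟨a', ha', hiff⟩ := inDisc_val (F := F) h s0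
  rw [hs0] at ha'
  have : a' = a := Subtype.ext (ha'.unique ha)
  subst this
  rw [h1, van_ofH_iff, hiff]

theorem exists_val_s (hc : ChartCompat A piA O red C rd s)
    {w : HeightOneSpectrum B} {x0 : HeightOneSpectrum Cb} (h : InDisc A C piA rd w x0) :
    ∃ a : A, Val (ofH K F w) s a := by
  obtain ⟨s0, hs0, -, -⟩ := hc.coord
  obtain ⟨a', ha', -⟩ := inDisc_val (F := F) h s0
  exact ⟨a', hs0 ▸ ha'⟩

theorem red_chart (hc : ChartCompat A piA O red C rd s) (x0 : HeightOneSpectrum Cb) (y : O)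
    (hy : red y ≠ 0) :
    (ofH k Ft x0).ord (red y) =
      ∑ᶠ w ∈ {w : HeightOneSpectrum B | InDisc A C piA rd w x0}, (ofH K F w).ord (y : F) := by
  obtain ⟨a, b, ha, hb, hab⟩ := hc.frac y hy
  have ha0 : (a : B) ≠ 0 := by
    intro h0
    apply ha
    have : a = 0 := Subtype.ext h0
    rw [this, map_zero]
  have hb0 : (b : B) ≠ 0 := by
    intro h0
    apply hb
    have : b = 0 := Subtype.ext h0
    rw [this, map_zero]
  have hy0 : (y : F) ≠ 0 := by
    intro h0
    apply hy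
    have : y = 0 := Subtype.ext h0
    rw [this, map_zero]
  have hinj : Function.Injective (algebraMap B F) := IsFractionRing.injective B F
  have hinj' : Function.Injective (algebraMap Cb Ft) := IsFractionRing.injective Cb Ft
  have hbF : algebraMap B F b ≠ 0 := fun h => hb0 (hinj (h.trans (map_zero _).symm))
  obtain ⟨haO, hra⟩ := hc.compat a
  obtain ⟨hbO, hrb⟩ := hc.compat b
  have h1 : red y * algebraMap Cb Ft (rd b) = algebraMap Cb Ft (rd a) := by
    rw [← hra, ← hrb, ← map_mul]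
    congr 1
    exact Subtype.ext hab
  have hrbF : algebraMap Cb Ft (rd b) ≠ 0 := fun h => hb (hinj' (h.trans (map_zero _).symm))
  have h2 : (ofH k Ft x0).ord (red y) = (ordH x0 (rd a) : ℤ) - (ordH x0 (rd b) : ℤ) := by
    have := congrArg (ofH k Ft x0).ord h1
    rw [Place.ord_mul _ hy hrbF, ord_ofH_algebraMap x0 hb, ord_ofH_algebraMap x0 ha] at this
    linarith
  have h3 := finsum_mem_sub' (s := {w : HeightOneSpectrum B | InDisc A C piA rd w x0})
    (f := fun w => (ordH w (a : B) : ℤ)) (g := fun w => (ordH w (b : B) : ℤ))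
    ((finite_support_ordH ha0).inter_of_right _) ((finite_support_ordH hb0).inter_of_right _)
  rw [h2, local_formula hc.hyp x0 a ha, local_formula hc.hyp x0 b hb, ← h3]
  refine finsum_mem_congr rfl fun w _ => ?_
  have := congrArg (ofH K F w).ord hab
  rw [Place.ord_mul _ hy0 hbF, ord_ofH_algebraMap w hb0, ord_ofH_algebraMap w ha0] at this
  linarith

theorem RedC.smul (hc : ChartCompat A piA O red C rd s) (g : SemilinearAut K F)
    (hA : BaseFixed A piA g) (hC : ChartFixed C rd g⁻¹) {P : Place K F} {x : Place k Ft}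
    (h : RedC A piA C rd P x) : RedC A piA C rd (g • P) x := by
  obtain ⟨w, x0, rfl, rfl, hd⟩ := h
  have hB : ∀ b : B, algebraMap B F b ∈ (g • ofH K F w).toValuationSubring := by
    intro b
    rw [SemilinearAut.smul_toValuationSubring, ValuationSubring.mem_pointwise_smul_iff_inv_smul_mem]
    obtain ⟨a, ha0, hab⟩ := hc.hyp.span b
    obtain ⟨y', hy', -⟩ := hC ⟨_, hab⟩
    have ha0' : (a : K) ≠ 0 := fun h => ha0 (Subtype.ext h)
    have h1 : g⁻¹ • algebraMap B F b =
        algebraMap B F y' * algebraMap K F (SemilinearAut.baseAut g⁻¹ a)⁻¹ := by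
      rw [hy']
      show _ = g⁻¹ • algebraMap B F (algebraMap K B a * b) * _
      rw [map_mul, smul_mul', ← IsScalarTower.algebraMap_apply, SemilinearAut.smul_algebraMap,
        map_inv₀]
      have : algebraMap K F (SemilinearAut.baseAut g⁻¹ a) ≠ 0 := by
        rw [Ne, map_eq_zero, map_eq_zero]; exact ha0'
      field_simp
    rw [h1]
    exact mul_mem (mem_ofH w _) ((ofH K F w).algebraMap_mem' _)
  obtain ⟨w', hw'⟩ := S24.exists_heightOneSpectrum_of_le (g • ofH K F w) hB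
  refine ⟨w', x0, hw', rfl, fun y => ?_⟩
  obtain ⟨y', hy', hrd⟩ := hC y
  obtain ⟨a, ha, hiff⟩ := inDisc_val (F := F) hd y'
  obtain ⟨a', ha', hpi⟩ := hA a
  refine ⟨a', ?_, by rw [← hrd, hiff, hpi]⟩
  rw [← val_ofH_iff (K := K) (F := F), ha']
  have h2 := val_smul g ha
  rw [hy', smul_inv_smul] at h2
  have h3 : ofH K F w' = g • ofH K F w := hw'.symm
  rw [h3]
  exact h2

theorem mapDomain_of_fiber (hc : ChartCompat A piA O red C rd s) (r : Place K F → Place k Ft)
    (x0 : HeightOneSpectrum Cb)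
    (hfib : ∀ P, r P = ofH k Ft x0 ↔ ∃ w, P = ofH K F w ∧ InDisc A C piA rd w x0)
    (y : O) (hy : red y ≠ 0) (D : Divisor K F) (hD : ∀ P, D P = P.ord (y : F)) :
    Finsupp.mapDomain r D (ofH k Ft x0) = (ofH k Ft x0).ord (red y) := by
  rw [mapDomain_apply_eq_finsum, red_chart hc x0 y hy]
  have himg : {P | r P = ofH k Ft x0} =
      (ofH K F) '' {w : HeightOneSpectrum B | InDisc A C piA rd w x0} := by
    ext P
    simp only [Set.mem_ofPred_eq, Set.mem_image]
    rw [hfib]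
    constructor
    · rintro ⟨w, rfl, hw⟩; exact ⟨w, hw, rfl⟩
    · rintro ⟨w, hw, rfl⟩; exact ⟨w, rfl, hw⟩
  rw [himg, finsum_mem_image (ofH_injective.injOn)]
  exact finsum_mem_congr rfl fun w _ => hD _

end OneChart

end Glue

open Glue

/-- [S37/CH-5] -/
theorem exists_placeReduction (ht : t ≠ 0)
    (h0 : ChartCompat A piA O red C0 rd0 t) (h1 : ChartCompat A piA O red C1 rd1 t⁻¹) :
    ∃ r : Place K F → Place k Ft,
      (∀ y : O, red y ≠ 0 → ∀ D : Divisor K F, (∀ P, D P = P.ord (y : F)) →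
        ∀ x : Place k Ft, Finsupp.mapDomain r D x = x.ord (red y)) ∧
      (∀ g : SemilinearAut K F, BaseFixed A piA g → BaseFixed A piA g⁻¹ →
        ChartFixed C0 rd0 g → ChartFixed C0 rd0 g⁻¹ → ChartFixed C1 rd1 g → ChartFixed C1 rd1 g⁻¹ →
        ∀ P : Place K F, r (g • P) = r P) := by
  classical
  have hsurj := h0.hyp.piA_surj
  have htO : t ∈ O := s_mem h0
  have htO' : t⁻¹ ∈ O := s_mem h1
  have hred : red ⟨t, htO⟩ * red ⟨t⁻¹, htO'⟩ = 1 := by
    rw [← map_mul]
    have : (⟨t, htO⟩ * ⟨t⁻¹, htO'⟩ : O) = 1 := Subtype.ext (mul_inv_cancel₀ ht)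
    rw [this, map_one]
  obtain ⟨T0, hT0def⟩ : ∃ T0 : Place K F → Prop, ∀ P, T0 P ↔ ∃ a : A, Val P t a :=
    ⟨fun P => ∃ a : A, Val P t a, fun _ => Iff.rfl⟩
  have hdich : ∀ P, ¬ T0 P → ∃ a : A, piA a = 0 ∧ Val P t⁻¹ a := by
    intro P hP
    by_cases htP : t ∈ P.toValuationSubring
    · obtain ⟨c, hc⟩ := exists_val h0 P htP
      have hcA : c ∉ A := fun h => hP ((hT0def P).mpr ⟨⟨c, h⟩, hc⟩)
      obtain ⟨a, ha, hpa⟩ := exists_inv_of_notMem A piA hsurj hcA
      have hc0 : c ≠ 0 := fun h => hcA (h ▸ A.zero_mem)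
      exact ⟨a, hpa, by rw [ha]; exact hc.inv hc0⟩
    · refine ⟨0, map_zero _, ?_⟩
      unfold Val
      rw [ZeroMemClass.coe_zero, map_zero, sub_zero]
      exact van_inv_of_notMem htP
  obtain ⟨Rel, hRel⟩ : ∃ Rel : Place K F → Place k Ft → Prop, ∀ P x, Rel P x ↔
      ((T0 P ∧ RedC A piA C0 rd0 P x) ∨ (¬ T0 P ∧ RedC A piA C1 rd1 P x)) := ⟨_, fun _ _ => Iff.rfl⟩
  have hex : ∀ P, ∃ x, Rel P x := by
    intro P
    by_cases hP : T0 P
    · obtain ⟨a, ha⟩ := (hT0def P).mp hP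
      obtain ⟨x, hx⟩ := exists_redC_of_val h0 P a ha
      exact ⟨x, (hRel P x).mpr (Or.inl ⟨hP, hx⟩)⟩
    · obtain ⟨a, -, ha⟩ := hdich P hP
      obtain ⟨x, hx⟩ := exists_redC_of_val h1 P a ha
      exact ⟨x, (hRel P x).mpr (Or.inr ⟨hP, hx⟩)⟩
  have huniq : ∀ P x x', Rel P x → Rel P x' → x = x' := by
    intro P x x' hx hx'
    rcases (hRel P x).mp hx with ⟨hP, hx⟩ | ⟨hP, hx⟩ <;>
      rcases (hRel P x').mp hx' with ⟨hP', hx'⟩ | ⟨hP', hx'⟩
    · exact hx.unique h0 hx'
    · exact absurd hP hP'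
    · exact absurd hP' hP
    · exact hx.unique h1 hx'
  choose r hr using hex
  have hr_iff : ∀ P x, r P = x ↔ Rel P x := fun P x =>
    ⟨fun h => h ▸ hr P, fun h => huniq P _ _ (hr P) h⟩
  refine ⟨r, ?_, ?_⟩
  · intro y hy D hD x
    by_cases hx : red ⟨t, htO⟩ ∈ x.toValuationSubring
    · obtain ⟨x0, rfl⟩ := exists_ofH_of_red_mem h0 htO x hx
      refine mapDomain_of_fiber h0 r x0 (fun P => ?_) y hy D hD
      rw [hr_iff, hRel]
      constructor
      · rintro (⟨-, w, x0', rfl, hx0', hd⟩ | ⟨hnT, w, x1, rfl, hx1, hd⟩)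
        · have : x0 = x0' := ofH_injective hx0'
          subst this
          exact ⟨w, rfl, hd⟩
        · exfalso
          obtain ⟨a, hpa, hva⟩ := hdich _ hnT
          have hvan : Van (ofH k Ft x1) (red ⟨t⁻¹, htO'⟩) := (van_red_s_iff h1 htO' hd hva).mpr hpa
          rw [← hx1] at hvan
          have h2 := hvan.mul_mem hx
          rw [mul_comm, hred] at h2
          exact not_van_one h2
      · rintro ⟨w, rfl, hd⟩
        exact Or.inl ⟨(hT0def _).mpr (exists_val_s h0 hd), w, x0, rfl, rfl, hd⟩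
    · have hinv : red ⟨t⁻¹, htO'⟩ = (red ⟨t, htO⟩)⁻¹ := eq_inv_of_mul_eq_one_right hred
      have hvan : Van x (red ⟨t⁻¹, htO'⟩) := by
        rw [hinv]; exact van_inv_of_notMem hx
      obtain ⟨x1, rfl⟩ := exists_ofH_of_red_mem h1 htO' x hvan.mem
      refine mapDomain_of_fiber h1 r x1 (fun P => ?_) y hy D hD
      rw [hr_iff, hRel]
      constructor
      · rintro (⟨-, w, x0', rfl, hx0', hd⟩ | ⟨hnT, w, x1', rfl, hx1, hd⟩)
        · exfalso
          apply hx
          rw [hx0']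
          exact red_s_mem h0 htO x0'
        · have : x1 = x1' := ofH_injective hx1
          subst this
          exact ⟨w, rfl, hd⟩
      · rintro ⟨w, rfl, hd⟩
        refine Or.inr ⟨fun hT => ?_, w, x1, rfl, rfl, hd⟩
        obtain ⟨a', ha'⟩ := (hT0def _).mp hT
        obtain ⟨a, ha⟩ := exists_val_s h1 hd
        have hpa : piA a = 0 := (van_red_s_iff h1 htO' hd ha).mp hvan
        have h2 := ha'.mul ha
        rw [mul_inv_cancel₀ ht] at h2
        have h3 : (a' : K) * (a : K) = 1 := h2.unique val_one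
        have h4 : piA (a' * a) = 1 := by
          have : a' * a = 1 := Subtype.ext h3
          rw [this, map_one]
        rw [map_mul, hpa, mul_zero] at h4
        exact zero_ne_one h4
  · intro g hA hA' hC0 hC0' hC1 hC1' P
    have hT : ∀ g : SemilinearAut K F, BaseFixed A piA g → ChartFixed C0 rd0 g⁻¹ →
        ∀ P, T0 P → T0 (g • P) := by
      intro g hA hC P hP
      obtain ⟨a, ha⟩ := (hT0def P).mp hP
      obtain ⟨x, hx⟩ := exists_redC_of_val h0 P a ha
      obtain ⟨w', x0, hw', -, hd'⟩ := hx.smul h0 g hA hC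
      rw [hT0def, hw']
      exact exists_val_s h0 hd'
    rw [hr_iff, hRel]
    rcases (hRel _ _).mp (hr P) with ⟨hT0, hR⟩ | ⟨hnT, hR⟩
    · exact Or.inl ⟨hT g hA hC0' P hT0, hR.smul h0 g hA hC0'⟩
    · refine Or.inr ⟨fun h => hnT ?_, hR.smul h1 g hA hC1'⟩
      have := hT g⁻¹ hA' (by rwa [inv_inv]) (g • P) h
      rwa [inv_smul_smul] at this

/-- [S37/CH-5] -/
theorem const_of_ord_eq_zero (ht : t ≠ 0)
    (h0 : ChartCompat A piA O red C0 rd0 t) (h1 : ChartCompat A piA O red C1 rd1 t⁻¹)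
    (inter : ∀ (b0 : Cb0) (b1 : Cb1), algebraMap Cb0 Ft b0 = algebraMap Cb1 Ft b1 →
      ∃ c : k, algebraMap Cb0 Ft b0 = algebraMap k Ft c)
    (z : Ft) (hz : z ≠ 0) (hord : ∀ x : Place k Ft, x.ord z = 0) :
    ∃ c : k, z = algebraMap k Ft c := by
  obtain ⟨b0, hb0⟩ := mem_range_of_ord_eq_zero (K := k) (R := Cb0) z (fun w => hord _)
  obtain ⟨b1, hb1⟩ := mem_range_of_ord_eq_zero (K := k) (R := Cb1) z (fun w => hord _)
  obtain ⟨c, hc⟩ := inter b0 b1 (hb0.trans hb1.symm)
  exact ⟨c, hb0.symm.trans hc⟩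

end Fermat.Agent.S37
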