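import Mathlib
import Fermat.Prelude.Def_AlgebraicCurve_Correspondence
import Fermat.Agent.S24.DiffGlobal

/-!
# S37, piece FF-a: function fields in one variable over an algebraically closed field of char. 0

Everything here is a repackaging of `S24/Places.lean`, `S24/DiffGlobal.lean`
(`finite_residueField`, `Diff.deg_eq_one`, `Diff.finsum_ord_eq_zero`).
-/

set_option autoImplicit false
set_option linter.unusedSectionVars false
set_option linter.style.haveILetI false

open AlgebraicCurve IntermediateField

namespace Fermat.Agent.S37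

/-- `F` is a function field in one variable over `K`. -/
def IsFF (K F : Type*) [Field K] [Field F] [Algebra K F] : Prop :=
  ∃ x : F, Transcendental K x ∧ FiniteDimensional K⟮x⟯ F

variable {K F F' : Type*} [Field K] [Field F] [Field F'] [Algebra K F] [Algebra K F']
  [IsAlgClosed K] [CharZero K]

/-- [S37/FF-a] -/
theorem IsFF.residue_bijective (h : IsFF K F) (v : Place K F) :
    Function.Bijective (algebraMap K v.ResidueField) := by
  obtain ⟨x, hx, hfin⟩ := h
  have := S24.finite_residueField x hx hfin v
  exact IsAlgClosed.algebraMap_bijective_of_isIntegral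

/-- [S37/FF-a] -/
theorem IsFF.deg_eq_one (h : IsFF K F) (v : Place K F) : v.deg = 1 := by
  obtain ⟨x, hx, hfin⟩ := h
  exact S24.Diff.deg_eq_one v (S24.finite_residueField x hx hfin v)

/-- [S37/FF-a] the degree of a divisor is the sum of its coefficients -/
theorem IsFF.degree_eq_sum (h : IsFF K F) (D : Divisor K F) :
    Divisor.degree D = D.sum fun _ n => n := by
  simp only [Divisor.degree, Finsupp.liftAddHom_apply, Finsupp.sum, AddMonoidHom.coe_mulRight]
  refine Finset.sum_congr rfl fun v _ => ?_
  rw [h.deg_eq_one v]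
  simp

/-- [S37/FF-a] -/
theorem IsFF.hasPrincipalDivisors (h : IsFF K F) : HasPrincipalDivisors K F := by
  obtain ⟨x, hx, hfin⟩ := h
  refine ⟨fun f hf => ?_⟩
  obtain ⟨hs, h0⟩ := S24.Diff.finsum_ord_eq_zero x hfin f hf
  refine ⟨Finsupp.ofSupportFinite (fun v : Place K F => v.ord f) hs, fun v => rfl, ?_⟩
  rw [S24.Diff.degree_eq_finsum x hx hfin]
  exact h0

/-- [S37/FF-a] -/
theorem IsFF.of_finiteAlong (h : IsFF K F) (φ : F →ₐ[K] F') (hfin : FiniteAlong K φ) :
    IsFF K F' := by
  obtain ⟨x, hx, hfx⟩ := h
  refine ⟨φ x, ?_, ?_⟩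
  · intro hal
    exact hx ((isAlgebraic_algHom_iff φ φ.injective).mp hal)
  · letI := algebraAlong φ
    haveI := isScalarTower_along φ
    haveI : Module.Finite F F' := hfin
    haveI : IsScalarTower K⟮x⟯ F F' := IsScalarTower.of_algebraMap_eq fun _ => rfl
    haveI : Module.Finite K⟮x⟯ F' := Module.Finite.trans F F'
    have hmap : (K⟮x⟯).map φ = K⟮φ x⟯ := by
      rw [IntermediateField.adjoin_map, Set.image_singleton]
    have key : Module.Finite ((K⟮x⟯).map φ) F' := by
      refine Module.Finite.of_equiv_equiv (A₁ := K⟮x⟯) (B₁ := F')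
        (IntermediateField.equivMap K⟮x⟯ φ).toRingEquiv (RingEquiv.refl F') ?_
      ext a
      rfl
    rw [hmap] at key
    exact key

/-- [S37/FF-a] -/
theorem isIntegral_of_finiteAlong (φ : F →ₐ[K] F') (hfin : FiniteAlong K φ) :
    φ.toRingHom.IsIntegral := by
  letI := algebraAlong φ
  haveI : Module.Finite F F' := hfin
  exact fun y => Algebra.IsIntegral.isIntegral (R := F) y

/-- [S37/FF-a] inertia degrees are one -/
theorem IsFF.inertiaDegAlong_eq_one (h : IsFF K F) (φ : F →ₐ[K] F') (hfin : FiniteAlong K φ)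
    (hφ : φ.toRingHom.IsIntegral) (w : Place K F') : w.inertiaDegAlong φ hφ = 1 := by
  have h' := h.of_finiteAlong φ hfin
  letI := algebraAlong φ
  haveI := isScalarTower_along φ
  haveI := isIntegral_along φ hφ
  have h1 := w.deg_restrict_mul_inertiaDeg (F := F)
  rw [h.deg_eq_one, h'.deg_eq_one, one_mul] at h1
  exact h1

end Fermat.Agent.S37
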