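import Fermat.Agent.S37.FFBasic

/-!
# S37: Dedekind models of a finite extension `F'/F` of function fields (shared by FF-b, FF-c)

* abstract dictionary for `R ⊂ S` Dedekind with fraction fields `F ⊂ F'`:
  `restrict_ofHeightOneSpectrum`, `ord_algebraMap_ofHeightOneSpectrum`,
  `ramificationIndex_ofHeightOneSpectrum`, `exists_liesOver_of_restrict_eq`;
* `IsFF.tower_induction`: for every place `v` of `F` such a pair `R ⊂ S` exists with
  `v = ofHeightOneSpectrum p`.
-/

set_option autoImplicit false
set_option linter.unusedSectionVars false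
set_option linter.style.haveILetI false

open AlgebraicCurve IntermediateField IsDedekindDomain

namespace Fermat.Agent.S37

section Abstract

variable {K F F' : Type*} [Field K] [Field F] [Field F'] [Algebra K F] [Algebra K F']
  [Algebra F F'] [IsScalarTower K F F'] [Algebra.IsIntegral F F']
variable {R : Type*} [CommRing R] [IsDedekindDomain R] [Algebra R F] [IsFractionRing R F]
  [Algebra K R] [IsScalarTower K R F]
variable {S : Type*} [CommRing S] [IsDedekindDomain S] [Algebra R S] [Algebra S F']
  [IsFractionRing S F'] [Algebra R F'] [IsScalarTower R S F'] [IsScalarTower R F F']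
  [Algebra K S] [IsScalarTower K S F'] [Module.IsTorsionFree R S]

theorem ord_algebraMap_ofHeightOneSpectrum (p : HeightOneSpectrum R) (P : HeightOneSpectrum S)
    [P.asIdeal.LiesOver p.asIdeal] (f : F) :
    (Place.ofHeightOneSpectrum (K := K) (F := F') P).ord (algebraMap F F' f) =
      (Ideal.ramificationIdx' p.asIdeal P.asIdeal : ℤ) *
        (Place.ofHeightOneSpectrum (K := K) (F := F) p).ord f := by
  rw [S24.ord_ofHeightOneSpectrum, S24.ord_ofHeightOneSpectrum,
    ← HeightOneSpectrum.valuation_liesOver F' p P f, WithZero.log_pow]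
  simp

theorem restrict_ofHeightOneSpectrum (p : HeightOneSpectrum R) (P : HeightOneSpectrum S)
    [P.asIdeal.LiesOver p.asIdeal] :
    (Place.ofHeightOneSpectrum (K := K) (F := F') P).restrict F =
      Place.ofHeightOneSpectrum (K := K) (F := F) p := by
  apply Place.ext
  ext f
  rw [Place.mem_restrict_iff, S24.mem_iff_ord_nonneg, S24.mem_iff_ord_nonneg,
    ord_algebraMap_ofHeightOneSpectrum p P f]
  have he : 0 < Ideal.ramificationIdx' p.asIdeal P.asIdeal :=
    Nat.pos_of_ne_zero (Ideal.IsDedekindDomain.ramificationIdx'_ne_zero_of_liesOver P.asIdeal p.ne_bot)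
  constructor
  · intro h
    exact nonneg_of_mul_nonneg_right h (by exact_mod_cast he)
  · intro h
    positivity

theorem ramificationIndex_ofHeightOneSpectrum (p : HeightOneSpectrum R)
    (P : HeightOneSpectrum S) [P.asIdeal.LiesOver p.asIdeal] :
    (Place.ofHeightOneSpectrum (K := K) (F := F') P).ramificationIndex F =
      Ideal.ramificationIdx' p.asIdeal P.asIdeal := by
  obtain ⟨π, hπ⟩ := IsDiscreteValuationRing.exists_irreducible
    (Place.ofHeightOneSpectrum (K := K) (F := F) p).toValuationSubring
  have h1 := (Place.ofHeightOneSpectrum (K := K) (F := F) p).ord_coe_irreducible hπ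
  have h2 := (Place.ofHeightOneSpectrum (K := K) (F := F') P).ord_restrict (F := F) (π : F)
  rw [restrict_ofHeightOneSpectrum p P, ord_algebraMap_ofHeightOneSpectrum p P, h1, mul_one,
    mul_one] at h2
  exact_mod_cast h2.symm

theorem exists_liesOver_of_restrict_eq [Algebra.IsIntegral R S] (p : HeightOneSpectrum R)
    (w : Place K F') (hw : w.restrict F = Place.ofHeightOneSpectrum (K := K) (F := F) p) :
    ∃ P : HeightOneSpectrum S, P.asIdeal.LiesOver p.asIdeal ∧
      w = Place.ofHeightOneSpectrum (K := K) (F := F') P := by
  have hR : ∀ a : R, algebraMap R F' a ∈ w.toValuationSubring := by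
    intro a
    rw [IsScalarTower.algebraMap_apply R F F', ← Place.mem_restrict_iff, hw]
    exact (Valuation.mem_valuationSubring_iff _ _).mpr (p.valuation_le_one a)
  obtain ⟨P, rfl⟩ : ∃ P : HeightOneSpectrum S, w = Place.ofHeightOneSpectrum (K := K) (F := F') P := by
    refine S24.exists_heightOneSpectrum_of_le w fun s => ?_
    refine S24.mem_valuationSubring_of_isIntegral (A := R) _ hR ?_
    exact (Algebra.IsIntegral.isIntegral (R := R) s).algebraMap
  refine ⟨P, ⟨?_⟩, rfl⟩
  ext a
  rw [Ideal.mem_comap]
  rcases eq_or_ne a 0 with rfl | ha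
  · simp
  have ha' : algebraMap R S a ≠ 0 := by
    intro h0
    apply ha
    apply IsFractionRing.injective R F
    apply (algebraMap F F').injective
    rw [← IsScalarTower.algebraMap_apply R F F', IsScalarTower.algebraMap_apply R S F', h0]
    simp
  rw [← S24.ord_algebraMap_pos_iff (K := K) (F := F) p ha,
    ← S24.ord_algebraMap_pos_iff (K := K) (F := F') P ha', ← IsScalarTower.algebraMap_apply R S F',
    IsScalarTower.algebraMap_apply R F F', Place.ord_restrict, hw]
  have he := (Place.ofHeightOneSpectrum (K := K) (F := F') P).ramificationIndex_pos (F := F)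
  constructor
  · intro h
    positivity
  · intro h
    exact (mul_pos_iff_of_pos_left (by exact_mod_cast he)).mp h

/-- Sums over the fibre of `F'/F` over the place of `p` are sums over the primes of `S`
over `p`. -/
theorem sum_fiber_eq [HasPrincipalDivisors K F'] [Algebra.IsIntegral R S]
    (p : HeightOneSpectrum R) {M : Type*} [AddCommMonoid M] (g : Place K F' → M)
    (g' : Ideal S → M)
    (hg : ∀ P : HeightOneSpectrum S, P.asIdeal.LiesOver p.asIdeal →
      g (Place.ofHeightOneSpectrum (K := K) (F := F') P) = g' P.asIdeal) :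
    ∑ w ∈ (Place.ofHeightOneSpectrum (K := K) (F := F) p).fiber F', g w =
      ∑ P ∈ IsDedekindDomain.primesOverFinset p.asIdeal S, g' P := by
  symm
  have hmem : ∀ P ∈ IsDedekindDomain.primesOverFinset p.asIdeal S,
      P.IsPrime ∧ P.LiesOver p.asIdeal ∧ P ≠ ⊥ := by
    intro P hP
    obtain ⟨h1, h2⟩ := (IsDedekindDomain.mem_primesOverFinset_iff p.ne_bot S).mp hP
    exact ⟨h1, h2, Ideal.ne_bot_of_liesOver_of_ne_bot p.ne_bot P⟩
  refine Finset.sum_bij (fun P hP => Place.ofHeightOneSpectrum (K := K) (F := F')
    (⟨P, (hmem P hP).1, (hmem P hP).2.2⟩ : HeightOneSpectrum S)) ?_ ?_ ?_ ?_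
  · intro P hP
    rw [Place.mem_fiber]
    have : (⟨P, (hmem P hP).1, (hmem P hP).2.2⟩ : HeightOneSpectrum S).asIdeal.LiesOver
      p.asIdeal := (hmem P hP).2.1
    exact restrict_ofHeightOneSpectrum p ⟨P, (hmem P hP).1, (hmem P hP).2.2⟩
  · intro P hP Q hQ h
    exact congrArg HeightOneSpectrum.asIdeal (S24.ofHeightOneSpectrum_injective h)
  · intro w hw
    obtain ⟨P, hP, hwP⟩ := exists_liesOver_of_restrict_eq (S := S) p w (Place.mem_fiber.mp hw)
    exact ⟨P.asIdeal, (IsDedekindDomain.mem_primesOverFinset_iff p.ne_bot S).mpr ⟨P.isPrime, hP⟩,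
      hwP.symm⟩
  · intro P hP
    exact (hg ⟨P, (hmem P hP).1, (hmem P hP).2.2⟩ (hmem P hP).2.1).symm

end Abstract

section Concrete

open scoped IntermediateField.algebraAdjoinAdjoin

universe u1 u2 u3

variable {K : Type u1} {F : Type u2} {F' : Type u3} [Field K] [Field F] [Field F'] [Algebra K F]
  [Algebra K F'] [IsAlgClosed K] [CharZero K]
  [Algebra F F'] [IsScalarTower K F F'] [Module.Finite F F']

theorem tower_induction_of_mem (x : F) (hx : Transcendental K x)
    (hfin : FiniteDimensional K⟮x⟯ F) (v : Place K F) (hv : x ∈ v.toValuationSubring)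
    (motive : Prop)
    (H : ∀ (R : Type u2) [CommRing R] [IsDedekindDomain R] [Algebra R F] [IsFractionRing R F]
      [Algebra K R] [IsScalarTower K R F] [Algebra.FiniteType K R]
      (S : Type u3) [CommRing S] [IsDedekindDomain S] [Algebra R S] [Algebra S F']
      [IsFractionRing S F'] [Algebra R F'] [IsScalarTower R S F'] [IsScalarTower R F F']
      [Algebra K S] [IsScalarTower K S F'] [IsScalarTower K R S] [Module.IsTorsionFree R S]
      [Module.Finite R S] [IsIntegralClosure S R F']
      (p : HeightOneSpectrum R), v = Place.ofHeightOneSpectrum (K := K) (F := F) p → motive) :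
    motive := by
  have := S24.isPrincipalIdealRing_adjoin x hx
  have := S24.finiteType_adjoin (K := K) x
  have : CharZero K⟮x⟯ := charZero_of_injective_algebraMap (algebraMap K K⟮x⟯).injective
  have : CharZero F := charZero_of_injective_algebraMap (algebraMap K F).injective
  have := integralClosure.isDedekindDomain (Algebra.adjoin K {x}) K⟮x⟯ F
  have := integralClosure.isFractionRing_of_finite_extension (A := Algebra.adjoin K {x}) K⟮x⟯ F
  have : Module.Finite (Algebra.adjoin K {x}) (integralClosure (Algebra.adjoin K {x}) F) :=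
    IsIntegralClosure.finite (Algebra.adjoin K {x}) K⟮x⟯ F _
  have : Algebra.FiniteType K (integralClosure (Algebra.adjoin K {x}) F) :=
    Algebra.FiniteType.trans (S := Algebra.adjoin K {x}) inferInstance inferInstance
  obtain ⟨p, hp⟩ := S24.exists_heightOneSpectrum_of_le' (A := Algebra.adjoin K {x})
    (integralClosure (Algebra.adjoin K {x}) F) v
    (S24.adjoin_le_valuationSubring x _ v.algebraMap_mem' hv)
  have : IsScalarTower K (integralClosure (Algebra.adjoin K {x}) F) F' :=
    IsScalarTower.of_algebraMap_eq fun k => IsScalarTower.algebraMap_apply K F F' k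
  have := integralClosure.isDedekindDomain (integralClosure (Algebra.adjoin K {x}) F) F F'
  have := integralClosure.isFractionRing_of_finite_extension
    (A := integralClosure (Algebra.adjoin K {x}) F) F F'
  have : Module.Finite (integralClosure (Algebra.adjoin K {x}) F)
      (integralClosure (integralClosure (Algebra.adjoin K {x}) F) F') :=
    IsIntegralClosure.finite (integralClosure (Algebra.adjoin K {x}) F) F F'
      (integralClosure (integralClosure (Algebra.adjoin K {x}) F) F')
  exact H (integralClosure (Algebra.adjoin K {x}) F)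
    (integralClosure (integralClosure (Algebra.adjoin K {x}) F) F') p hp

/-- For every place `v` of `F` there are Dedekind domains `R ⊂ S` (finite type over `K`, `S` the
integral closure of `R` in `F'`, finite over `R`) with fraction fields `F ⊂ F'` such that `v` is
the place of a prime `p` of `R`.  Use it as `refine h.tower_induction (F' := F') v _ ?_`, then
`intro R _ _ _ _ _ _ _ S _ _ _ _ _ _ _ _ _ _ _ _ _ _ p hp`. -/
theorem IsFF.tower_induction (h : IsFF K F) (v : Place K F) (motive : Prop)
    (H : ∀ (R : Type u2) [CommRing R] [IsDedekindDomain R] [Algebra R F] [IsFractionRing R F]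
      [Algebra K R] [IsScalarTower K R F] [Algebra.FiniteType K R]
      (S : Type u3) [CommRing S] [IsDedekindDomain S] [Algebra R S] [Algebra S F']
      [IsFractionRing S F'] [Algebra R F'] [IsScalarTower R S F'] [IsScalarTower R F F']
      [Algebra K S] [IsScalarTower K S F'] [IsScalarTower K R S] [Module.IsTorsionFree R S]
      [Module.Finite R S] [IsIntegralClosure S R F']
      (p : HeightOneSpectrum R), v = Place.ofHeightOneSpectrum (K := K) (F := F) p → motive) :
    motive := by
  obtain ⟨x, hx, hfin⟩ := h
  rcases v.toValuationSubring.mem_or_inv_mem x with hv | hv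
  · exact tower_induction_of_mem x hx hfin v hv motive H
  · exact tower_induction_of_mem x⁻¹ (S24.transcendental_inv x hx)
      (S24.finiteDimensional_adjoin_inv x hfin) v hv motive H

end Concrete

end Fermat.Agent.S37
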